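/-
PROJECT R (row 37 by S43), gate G, block C2 = THE RELATIVE LIFT (owner helper10, second helper9):
THE SEAM (definitions only).

ABSTRACT SETTING.  `(L, A)` a valued field, `π : A →+* k`.  `F / F0` is a finite extension of function
fields over `L` (`F0 = ℚ̄(X₁(N; r))`, `F = ℚ̄(X₁(N r))`), CYCLIC KUMMER: `σ : F ≃ₐ[F0] F` of order dividing
`m`, `m` invertible in `k`, fixed field `F0`, `ζ` a primitive `m`-th root of unity of `L`, `z ≠ 0` a
Kummer eigenvector (`σ z = ζ z`).  `N0 : GNodalDatum A π F0 κ1 κ2 ι` is the nodal datum of the base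
(`C1 = S34'`).  Over each branch of `N0` there is ONE branch of `F` (`BranchOver`): a Gauss ring
`B.O` with `B.O ∩ F0 = R0.O`, stable under `σ`, reduction `B.red : B.O → K` ONTO `K` extending
`R0.red`, and the induced automorphism `σbar` of `K / κ`.  Over each node of the base there is ONE
place of each `K_i` (`(I2)` of helper17's IG).  On the base each branch has a coordinate `x`
(`GoodCoord`: regular on the good discs, its reduction unramified at the good places), and `F / F0`
is unramified over the good discs (`UnramOver`; characteristic `0`).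

WHAT C2 PRODUCES (`LiftStatement`): a nodal datum `N : GNodalDatum A π F K1 K2 ι` of `F` with these two
branches and these nodes, whose partial specialisation maps, good sets and admissible pairs are the
CANONICAL ones:

* `goodOver` : the places of `K` over the good places of `κ`;
* `SpecTo` : `P` specialises to `Q'` iff `P` restricted to `F0` specialises to `Q'` restricted to `κ`
  and, for every `y ∈ B.O` without poles over the whole disc of `Q' ∩ κ`, the value `y(P)` lies in `A`
  and reduces to the value of `red y` at `Q'` (the value calculus; downstairs it is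
  `S34/NodalDisc.{value_mem', red_value}`);
* `AdmOver` : the full preimages of the admissible pairs of the base.

The consumer is helper2's `LG1/CoreZOfInertiaTw.principal_of_inertia_tw` at `FL = F`.
-/
import Mathlib
import Fermat.Prelude.Def_AlgebraicCurve_DivisorPushPull
import Fermat.Agent.S34.NodalDefs
import Fermat.Agent.S34.NodalDisc
import Fermat.Agent.S34.Generic.Dich

set_option autoImplicit false
set_option linter.unusedSectionVars false

noncomputable section

namespace Fermat.Agent.S43.LG1.C2.Seam

open AlgebraicCurve Fermat.Agent.S34.NodalDefs Fermat.Agent.S34.Generic.Dich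

variable {L : Type*} [Field L] {k : Type*} [Field k] {A : ValuationSubring L} {π : A →+* k}
variable {F0 : Type*} [Field F0] [Algebra L F0] {F : Type*} [Field F] [Algebra L F]
variable [Algebra F0 F] [IsScalarTower L F0 F] [Algebra.IsIntegral F0 F]

/-! ### one branch over a branch -/

section OneBranch

variable {κ : Type*} [Field κ] [Algebra k κ] {K : Type*} [Field K] [Algebra k K]
variable [Algebra κ K] [IsScalarTower k κ K] [Algebra.IsIntegral κ K]

/-- **A branch of `F` over a branch `R0` of `F0`**, stable under the Kummer automorphism `σ`. -/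
structure BranchOver (R0 : Branch A π F0 κ) (σ : F ≃ₐ[F0] F) (K : Type*) [Field K]
    [Algebra k K] [Algebra κ K] where
  /-- the branch upstairs -/
  B : Branch A π F K
  /-- it lies over `R0` -/
  comap_eq : B.O.comap (algebraMap F0 F) = R0.O
  /-- its reduction extends the reduction of `R0` -/
  red_base : ∀ (y : R0.O) (h : algebraMap F0 F (y : F0) ∈ B.O),
    B.red ⟨algebraMap F0 F (y : F0), h⟩ = algebraMap κ K (R0.red y)
  /-- `K` is the residue field of the Gauss ring -/
  red_surj : Function.Surjective B.red
  /-- `σ` preserves the Gauss ring (uniqueness of the extension, `(I1)`) -/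
  σ_mem : ∀ h : F, σ h ∈ B.O ↔ h ∈ B.O
  /-- the induced automorphism of the residue function field -/
  σbar : K ≃ₐ[κ] K
  red_σ : ∀ h : B.O, B.red ⟨σ (h : F), (σ_mem (h : F)).2 h.2⟩ = σbar (B.red h)

/-- **A coordinate on a component of the base**: regular on the good discs, its reduction is
unramified at the good places (`x = j` in the instance). -/
structure GoodCoord (R0 : SmoothRed A π F0 κ) where
  /-- the coordinate -/
  x : R0.O
  reg : ∀ Q ∈ R0.good, Fermat.Agent.S34.NodalDisc.RegOn R0.r ((x : R0.O) : F0) Q
  unr : ∀ Q ∈ R0.good, ∃ γ : k, Q.ord (R0.red x - algebraMap k κ γ) = 1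

/-- `F / F0` is unramified over the good discs of the component `R0` -/
def UnramOver (R0 : SmoothRed A π F0 κ) (F : Type*) [Field F] [Algebra L F] [Algebra F0 F]
    [IsScalarTower L F0 F] [Algebra.IsIntegral F0 F] : Prop :=
  ∀ (P : Place L F) (Q : Place k κ), Q ∈ R0.good → R0.r (P.restrict F0) = some Q →
    P.ramificationIndex F0 = 1

/-- the places of `F` over the residue disc of a place `Q0` of the base component -/
def discOver (R0 : SmoothRed A π F0 κ) (Q0 : Place k κ) : Set (Place L F) :=
  {P | R0.r (P.restrict F0) = some Q0}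

/-- `y` has no pole over the disc of `Q0` -/
def RegOver (R0 : SmoothRed A π F0 κ) (Q0 : Place k κ) (y : F) : Prop :=
  ∀ P ∈ discOver (F := F) R0 Q0, P.adicValuation y ≤ 1

/-- **`P` specialises to `Q'`** (canonical form: the value calculus). -/
def SpecTo (R0 : SmoothRed A π F0 κ) (B : Branch A π F K) (P : Place L F) (Q' : Place k K) : Prop :=
  P ∈ discOver (F := F) R0 (Q'.restrict κ) ∧
    ∀ y : B.O, RegOver (F := F) R0 (Q'.restrict κ) (y : F) → ∀ c : L, HasVal P (y : F) c →
      ∃ hc : c ∈ A, HasVal Q' (B.red y) (π ⟨c, hc⟩)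

/-- the good places upstairs: the places over the good places of the base -/
def goodOver (R0 : SmoothRed A π F0 κ) (K : Type*) [Field K] [Algebra k K] [Algebra κ K]
    [IsScalarTower k κ K] [Algebra.IsIntegral κ K] : Set (Place k K) :=
  {Q' | Q'.restrict κ ∈ R0.good}

/-- the partial specialisation map upstairs is the canonical one -/
def IsSpecMap (R0 : SmoothRed A π F0 κ) (B : Branch A π F K)
    (r : Place L F → Option (Place k K)) : Prop :=
  ∀ (P : Place L F) (Q' : Place k K),
    r P = some Q' ↔ Q' ∈ goodOver R0 K ∧ SpecTo R0 B P Q'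

end OneBranch

/-! ### the Kummer cover of a nodal datum -/

variable {κ1 : Type*} [Field κ1] [Algebra k κ1] {κ2 : Type*} [Field κ2] [Algebra k κ2]
variable {K1 : Type*} [Field K1] [Algebra k K1] [Algebra κ1 K1] [IsScalarTower k κ1 K1]
  [Algebra.IsIntegral κ1 K1]
variable {K2 : Type*} [Field K2] [Algebra k K2] [Algebra κ2 K2] [IsScalarTower k κ2 K2]
  [Algebra.IsIntegral κ2 K2]
variable {ι : Type*}

/-- **What C2 ASSUMES** about the cover `F / F0` over the nodal datum `N0` of the base. -/
structure KummerCover (N0 : GNodalDatum A π F0 κ1 κ2 ι) (K1 : Type*) [Field K1] [Algebra k K1]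
    [Algebra κ1 K1] [IsScalarTower k κ1 K1] [Algebra.IsIntegral κ1 K1]
    (K2 : Type*) [Field K2] [Algebra k K2] [Algebra κ2 K2] [IsScalarTower k κ2 K2]
    [Algebra.IsIntegral κ2 K2] (F : Type*) [Field F] [Algebra L F] [Algebra F0 F]
    [IsScalarTower L F0 F] [Algebra.IsIntegral F0 F] where
  /-- the degree -/
  m : ℕ
  hm : (m : k) ≠ 0
  /-- a primitive `m`-th root of unity -/
  ζ : L
  hζ : IsPrimitiveRoot ζ m
  /-- the generator of the Galois group -/
  σ : F ≃ₐ[F0] F
  σ_pow : ∀ h : F, (σ ^ m) h = h
  /-- the fixed field is `F0` -/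
  fixed : ∀ h : F, σ h = h → ∃ h0 : F0, algebraMap F0 F h0 = h
  /-- a Kummer eigenvector -/
  z : F
  z_ne : z ≠ 0
  σ_z : σ z = algebraMap L F ζ * z
  /-- the branch over the first component -/
  U1 : BranchOver (F := F) N0.R1.toBranch σ K1
  /-- the branch over the second component -/
  U2 : BranchOver (F := F) N0.R2.toBranch σ K2
  /-- the coordinates of the base -/
  x1 : GoodCoord N0.R1
  x2 : GoodCoord N0.R2
  /-- `F / F0` is unramified over the good discs -/
  unram1 : UnramOver N0.R1 F
  unram2 : UnramOver N0.R2 F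
  /-- the nodes upstairs -/
  e1 : ι → Place k K1
  e2 : ι → Place k K2
  e1_over : ∀ e, (e1 e).restrict κ1 = N0.e1 e
  e2_over : ∀ e, (e2 e).restrict κ2 = N0.e2 e
  /-- `(I2)`: ONE place over each node -/
  e1_unique : ∀ (e : ι) (Q : Place k K1), Q.restrict κ1 = N0.e1 e → Q = e1 e
  e2_unique : ∀ (e : ι) (Q : Place k K2), Q.restrict κ2 = N0.e2 e → Q = e2 e

/-- the admissible pairs upstairs: the full preimages of the admissible pairs of the base -/
def AdmOver (N0 : GNodalDatum A π F0 κ1 κ2 ι) (S1 : Set (Place k K1)) (S2 : Set (Place k K2)) :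
    Prop :=
  ∃ T1 T2, N0.Adm T1 T2 ∧ S1 = {Q | Q.restrict κ1 ∈ T1} ∧ S2 = {Q | Q.restrict κ2 ∈ T2}

/-- **What C2 PRODUCES**: a nodal datum of `F` with the two branches of the cover, the nodes of the
cover, and the canonical specialisation maps, good sets and admissible pairs. -/
def LiftStatement (N0 : GNodalDatum A π F0 κ1 κ2 ι) (X : KummerCover N0 K1 K2 F) : Prop :=
  ∃ N : GNodalDatum A π F K1 K2 ι,
    N.R1.toBranch = X.U1.B ∧ N.R2.toBranch = X.U2.B ∧
    (∀ e, N.e1 e = X.e1 e) ∧ (∀ e, N.e2 e = X.e2 e) ∧
    N.R1.good = goodOver N0.R1 K1 ∧ N.R2.good = goodOver N0.R2 K2 ∧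
    IsSpecMap N0.R1 X.U1.B N.R1.r ∧ IsSpecMap N0.R2 X.U2.B N.R2.r ∧
    ∀ S1 S2, N.Adm S1 S2 ↔ AdmOver N0 S1 S2

end Fermat.Agent.S43.LG1.C2.Seam

end
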