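import Mathlib
import Fermat.Prelude.Def_AlgebraicCurve_DivisorPushPull
import Fermat.Agent.S24.PlacePrime

/-!
# PROJECT R (S43), gate, C2 (relative lift along `F/F0`): a place over every place

`F / F0` a finite separable extension of fields over `L`.  Every place of `F0 / L` is the restriction
of a place of `F / L` (`exists_place_over`): the integral closure of the valuation ring in `F` is a
Dedekind domain, a maximal ideal over the maximal ideal gives the place
(`S24/PlacePrime.placeOfPrime`), and a discrete valuation ring is a maximal proper subring.

This discharges the hypothesis `hlift` of `C2/Pcg.pcg_over` (in the instance the characteristic of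
`F0` is `0`: `exists_place_over_of_charZero`).
-/

set_option autoImplicit false
set_option linter.unusedSectionVars false

noncomputable section

namespace Fermat.Agent.S43.LG1.C2.LiftPlace

open AlgebraicCurve IsDedekindDomain

variable {L : Type*} [Field L] {F0 : Type*} [Field F0] [Algebra L F0] {F : Type*} [Field F]
  [Algebra L F] [Algebra F0 F] [IsScalarTower L F0 F]

/-- **a place of `F` over every place of `F0`**, `F / F0` finite separable -/
theorem exists_place_over [FiniteDimensional F0 F] [Algebra.IsSeparable F0 F] (P0 : Place L F0) :
    ∃ Pl : Place L F, Pl.restrict F0 = P0 := by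
  classical
  let algOF : Algebra P0.toValuationSubring F :=
    ((algebraMap F0 F).comp P0.toValuationSubring.subtype).toAlgebra
  have : IsScalarTower P0.toValuationSubring F0 F := IsScalarTower.of_algebraMap_eq fun _ => rfl
  have hD : IsDedekindDomain (integralClosure P0.toValuationSubring F) :=
    integralClosure.isDedekindDomain P0.toValuationSubring F0 F
  have hFr : IsFractionRing (integralClosure P0.toValuationSubring F) F :=
    integralClosure.isFractionRing_of_finite_extension F0 F
  -- the constants lie in the integral closure
  have hconst : ∀ a : L, algebraMap L F a ∈ integralClosure P0.toValuationSubring F := by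
    intro a
    have h1 : algebraMap L F a =
        algebraMap P0.toValuationSubring F ⟨algebraMap L F0 a, P0.algebraMap_mem' a⟩ := by
      rw [IsScalarTower.algebraMap_apply L F0 F]
      rfl
    rw [h1]
    exact Subalgebra.algebraMap_mem _ _
  let algLC : Algebra L (integralClosure P0.toValuationSubring F) :=
    ((algebraMap L F).codRestrict (integralClosure P0.toValuationSubring F).toSubring
      hconst).toAlgebra
  have : IsScalarTower L (integralClosure P0.toValuationSubring F) F :=
    IsScalarTower.of_algebraMap_eq fun _ => rfl
  -- a maximal ideal over the maximal ideal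
  have hinj : Function.Injective
      (algebraMap P0.toValuationSubring (integralClosure P0.toValuationSubring F)) := by
    intro x y hxy
    have h1 := congrArg (algebraMap (integralClosure P0.toValuationSubring F) F) hxy
    have h2 : algebraMap F0 F (x : F0) = algebraMap F0 F (y : F0) := h1
    exact Subtype.ext ((algebraMap F0 F).injective h2)
  obtain ⟨Q, hQmax, hQ⟩ := Ideal.exists_ideal_over_maximal_of_isIntegral
    (S := integralClosure P0.toValuationSubring F)
    (IsLocalRing.maximalIdeal P0.toValuationSubring)
    (by rw [(RingHom.injective_iff_ker_eq_bot _).mp hinj]; exact bot_le)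
  have hQne : Q ≠ ⊥ := by
    rintro rfl
    have hbot : IsLocalRing.maximalIdeal P0.toValuationSubring = ⊥ := by
      rw [← hQ]
      exact (RingHom.injective_iff_ker_eq_bot _).mp hinj
    exact IsDiscreteValuationRing.not_a_field P0.toValuationSubring hbot
  let Q' : HeightOneSpectrum (integralClosure P0.toValuationSubring F) :=
    ⟨Q, hQmax.isPrime, hQne⟩
  refine ⟨Fermat.Agent.S24.PlacePrime.placeOfPrime (K := L) Q', ?_⟩
  apply Place.ext
  symm
  refine ValuationSubring.eq_of_le_of_ne_top _ ?_ (Place.ne_top' _)
  intro x hx
  rw [Place.restrict_toValuationSubring, ValuationSubring.mem_comap,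
    Fermat.Agent.S24.PlacePrime.mem_placeOfPrime]
  have hmem : algebraMap F0 F x ∈ integralClosure P0.toValuationSubring F := by
    have h1 : algebraMap F0 F x = algebraMap P0.toValuationSubring F ⟨x, hx⟩ := rfl
    rw [h1]
    exact Subalgebra.algebraMap_mem _ _
  have h2 : algebraMap F0 F x =
      algebraMap (integralClosure P0.toValuationSubring F) F ⟨algebraMap F0 F x, hmem⟩ := rfl
  rw [h2]
  exact Q'.valuation_le_one _

/-- the same in characteristic zero, for an algebraic finite extension -/
theorem exists_place_over_of_charZero [CharZero F0] [FiniteDimensional F0 F] (P0 : Place L F0) :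
    ∃ Pl : Place L F, Pl.restrict F0 = P0 :=
  exists_place_over P0

end Fermat.Agent.S43.LG1.C2.LiftPlace

end
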