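/-
PROJECT R (row 37 by S43), gate G, block C2 = THE RELATIVE LIFT (helper10): THE COMPATIBILITY
`r_* div(u) = div(red u)` AT ONE PLACE FROM POLE CONTROL AND TEST FUNCTIONS (abstract form of the
argument of main's `S34/Generic/Compat`).

`B : Branch A π F K`, `r : Place L F → Option (Place k K)` any partial map, `Q'` a place of `K`.
If (pc) every `h ∈ B.O` without pole on the disc `{r = some Q'}` has `red h` regular at `Q'`, and
(test) for every `P` of the disc there is a unit `a` of `B.O` with `ord_{Q'} (red a) = 1`, a simple zero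
at `P` and no other zero or pole on the disc, then for every unit `u` of `B.O`
`(r_* div u)(Q') = ord_{Q'} (red u)`.
-/
import Mathlib
import Fermat.Agent.S34.NodalDefs
import Fermat.Agent.S34.NodalDisc
import Fermat.Agent.S18.Disc.Datum

set_option autoImplicit false
set_option linter.unusedSectionVars false

noncomputable section

namespace Fermat.Agent.S43.LG1.C2.AbsCompat

open AlgebraicCurve Fermat.Agent.S24.Ord Fermat.Agent.S34.NodalDefs Fermat.Agent.S34.NodalDisc

variable {L : Type*} [Field L] {k : Type*} [Field k] {A : ValuationSubring L} {π : A →+* k}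
variable {F : Type*} [Field F] [Algebra L F] {K : Type*} [Field K] [Algebra k K]

variable (B : Branch A π F K)

/-- `u ↦ ord_P u` on the units of the Gauss ring -/
def vHom (P : Place L F) : B.Oˣ →* Multiplicative ℤ where
  toFun u := Multiplicative.ofAdd (P.ord ((u : B.O) : F))
  map_one' := by simp [Place.ord_one]
  map_mul' u v := by
    rw [Units.val_mul, MulMemClass.coe_mul,
      P.ord_mul (coe_unit_ne_zero B u) (coe_unit_ne_zero B v), ofAdd_add]

theorem vHom_apply (P : Place L F) (u : B.Oˣ) :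
    Multiplicative.toAdd (vHom B P u) = P.ord ((u : B.O) : F) := rfl

/-- `u ↦ ord_Q (red u)` on the units of the Gauss ring -/
def wHom (Q : Place k K) : B.Oˣ →* Multiplicative ℤ where
  toFun u := Multiplicative.ofAdd (Q.ord (B.red (u : B.O)))
  map_one' := by simp [Place.ord_one]
  map_mul' u v := by
    rw [Units.val_mul, map_mul, Q.ord_mul (red_unit_ne_zero B u) (red_unit_ne_zero B v), ofAdd_add]

theorem wHom_apply (Q : Place k K) (u : B.Oˣ) :
    Multiplicative.toAdd (wHom B Q u) = Q.ord (B.red (u : B.O)) := rfl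

theorem toAdd_prod_zpow {ι : Type*} (s : Finset ι) (f : B.Oˣ →* Multiplicative ℤ)
    (a : ι → B.Oˣ) (n : ι → ℤ) :
    Multiplicative.toAdd (f (∏ i ∈ s, a i ^ n i)) =
      ∑ i ∈ s, n i * Multiplicative.toAdd (f (a i)) := by
  rw [map_prod, toAdd_prod]
  refine Finset.sum_congr rfl fun i _ => ?_
  rw [map_zpow, toAdd_zpow, smul_eq_mul]

variable {B} {r : Place L F → Option (Place k K)} {Q' : Place k K}

/-- a unit without zero or pole on the disc has `ord_{Q'} (red u) = 0` -/
theorem wHom_eq_one_of_clean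
    (pc : ∀ h : B.O, (∀ P : Place L F, r P = some Q' → P.adicValuation ((h : B.O) : F) ≤ 1) →
      Q'.adicValuation (B.red h) ≤ 1)
    (u : B.Oˣ) (hu : ∀ P : Place L F, r P = some Q' → P.ord ((u : B.O) : F) = 0) :
    wHom B Q' u = 1 := by
  have h1 : Q'.adicValuation (B.red (u : B.O)) ≤ 1 := by
    apply pc
    intro P hP
    exact (ord_nonneg_iff P (coe_unit_ne_zero B u)).mp (le_of_eq (hu P hP).symm)
  have h2 : Q'.adicValuation (B.red ((u⁻¹ : B.Oˣ) : B.O)) ≤ 1 := by
    apply pc
    intro P hP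
    refine (ord_nonneg_iff P (coe_unit_ne_zero B u⁻¹)).mp ?_
    rw [coe_inv_unit, P.ord_inv, hu P hP, neg_zero]
  have hn1 := red_unit_ne_zero B u
  have hn2 := red_unit_ne_zero B u⁻¹
  have o1 : 0 ≤ Q'.ord (B.red (u : B.O)) := (ord_nonneg_iff Q' hn1).mpr h1
  have o2 : 0 ≤ Q'.ord (B.red ((u⁻¹ : B.Oˣ) : B.O)) := (ord_nonneg_iff Q' hn2).mpr h2
  have hmul : B.red (u : B.O) * B.red ((u⁻¹ : B.Oˣ) : B.O) = 1 := by
    rw [← map_mul, ← Units.val_mul, mul_inv_cancel, Units.val_one, map_one]
  have o3 : Q'.ord (B.red (u : B.O)) + Q'.ord (B.red ((u⁻¹ : B.Oˣ) : B.O)) = 0 := by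
    rw [← Q'.ord_mul hn1 hn2, hmul, Place.ord_one]
  have : Q'.ord (B.red (u : B.O)) = 0 := by omega
  apply Multiplicative.toAdd.injective
  rw [wHom_apply, this]
  rfl

/-- **the compatibility at `Q'`** -/
theorem compat_of_pc_test [DecidableEq (Place L F)]
    (pc : ∀ h : B.O, (∀ P : Place L F, r P = some Q' → P.adicValuation ((h : B.O) : F) ≤ 1) →
      Q'.adicValuation (B.red h) ≤ 1)
    (test : ∀ P : Place L F, r P = some Q' → ∃ a : B.Oˣ, Q'.ord (B.red (a : B.O)) = 1 ∧
      ∀ P' : Place L F, r P' = some Q' → P'.ord ((a : B.O) : F) = if P' = P then 1 else 0)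
    (u : B.Oˣ) (D : Divisor L F) (hD : ∀ P : Place L F, D P = P.ord ((u : B.O) : F)) :
    Finsupp.mapDomain r D (some Q') = Q'.ord (B.red (u : B.O)) := by
  classical
  rw [Fermat.Agent.S18.Disc.mapDomain_apply_eq_sum]
  set T : Finset (Place L F) := D.support.filter fun P => r P = some Q' with hT
  have hTmem : ∀ P ∈ T, r P = some Q' := fun P hP => (Finset.mem_filter.mp hP).2
  have hTof : ∀ P : Place L F, r P = some Q' → P.ord ((u : B.O) : F) ≠ 0 → P ∈ T := by
    intro P h1 h2
    rw [hT, Finset.mem_filter, Finsupp.mem_support_iff, hD]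
    exact ⟨h2, h1⟩
  choose! a haw hav using test
  set n : Place L F → ℤ := fun P => P.ord ((u : B.O) : F) with hn
  set u' : B.Oˣ := u * (∏ P ∈ T, a P ^ n P)⁻¹ with hu'
  have hclean : ∀ P : Place L F, r P = some Q' → P.ord (((u' : B.Oˣ) : B.O) : F) = 0 := by
    intro P hP
    have h1 : Multiplicative.toAdd (vHom B P u') =
        P.ord ((u : B.O) : F) - ∑ P' ∈ T, n P' * Multiplicative.toAdd (vHom B P (a P')) := by
      rw [hu', map_mul, map_inv, toAdd_mul, toAdd_inv, toAdd_prod_zpow, vHom_apply]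
      ring
    rw [← vHom_apply, h1]
    have h2 : ∑ P' ∈ T, n P' * Multiplicative.toAdd (vHom B P (a P')) =
        ∑ P' ∈ T, if P = P' then n P' else 0 := by
      refine Finset.sum_congr rfl fun P' hP' => ?_
      rw [vHom_apply, hav P' (hTmem P' hP') P hP]
      split_ifs <;> simp
    rw [h2, Finset.sum_ite_eq]
    by_cases hPT : P ∈ T
    · rw [if_pos hPT]; simp [hn]
    · rw [if_neg hPT, sub_zero]
      by_contra hne
      exact hPT (hTof P hP hne)
  have hw' := wHom_eq_one_of_clean pc u' hclean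
  have hw : wHom B Q' u = wHom B Q' u' * wHom B Q' (∏ P ∈ T, a P ^ n P) := by
    rw [hu', map_mul, map_inv, inv_mul_cancel_right]
  rw [← wHom_apply, hw, hw', one_mul, toAdd_prod_zpow]
  refine Finset.sum_congr rfl fun P hP => ?_
  rw [wHom_apply, haw P (hTmem P hP), mul_one, hD]

end Fermat.Agent.S43.LG1.C2.AbsCompat

end
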