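/-
PROJECT R (row 37 by S43), gate G, block C2 = THE RELATIVE LIFT (helper10): THE EIGEN-PROJECTIONS OF A
CYCLIC KUMMER EXTENSION.  Mathlib only.

`F / F0` fields over `L`, `σ : F ≃ₐ[F0] F` with `σ ^ m = 1`, `ζ ∈ L` a primitive `m`-th root of unity,
`m` invertible in `L`.  For `a : ℕ` and `h : F`

  `proj σ m ζ a h = (1/m) ∑_{b < m} ζ^{-ab} σ^b h`.

* `σ_proj` : `σ (proj a h) = ζ^a · proj a h`;
* `sum_proj` : `∑_{a < m} proj a h = h`;
* `proj_mem` : `proj a h` lies in every subring containing `1/m`, `ζ⁻¹` and the conjugates of `h`;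
* `σ_proj_pow` : `(proj a h)^m` is fixed by `σ`.
-/
import Mathlib

set_option autoImplicit false
set_option linter.unusedSectionVars false

noncomputable section

namespace Fermat.Agent.S43.LG1.C2.Proj

variable {L : Type*} [Field L] {F0 : Type*} [Field F0] [Algebra L F0] {F : Type*} [Field F]
  [Algebra L F] [Algebra F0 F] [IsScalarTower L F0 F]

/-- a cyclic sum is invariant under the shift -/
theorem sum_shift {M : Type*} [AddCommGroup M] (f : ℕ → M) (m : ℕ) (h : f m = f 0) :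
    ∑ b ∈ Finset.range m, f (b + 1) = ∑ b ∈ Finset.range m, f b := by
  have h1 := Finset.sum_range_succ' f m
  have h2 := Finset.sum_range_succ f m
  rw [h2, h] at h1
  exact (add_right_cancel h1).symm

/-- `σ` fixes the constants -/
theorem σ_const (σ : F ≃ₐ[F0] F) (c : L) : σ (algebraMap L F c) = algebraMap L F c := by
  rw [IsScalarTower.algebraMap_apply L F0 F, AlgEquiv.commutes]

theorem pow_succ_apply (σ : F ≃ₐ[F0] F) (b : ℕ) (h : F) : (σ ^ (b + 1)) h = σ ((σ ^ b) h) := by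
  rw [pow_succ', AlgEquiv.mul_apply]

/-- powers of `σ` fix the constants -/
theorem σ_pow_const (σ : F ≃ₐ[F0] F) (b : ℕ) (c : L) :
    (σ ^ b) (algebraMap L F c) = algebraMap L F c := by
  induction b with
  | zero => simp
  | succ b ih => rw [pow_succ_apply, ih, σ_const]

/-- **the `a`-th eigen-projection** -/
def proj (σ : F ≃ₐ[F0] F) (m : ℕ) (ζ : L) (a : ℕ) (h : F) : F :=
  algebraMap L F (m : L)⁻¹ *
    ∑ b ∈ Finset.range m, algebraMap L F (ζ⁻¹ ^ (a * b)) * (σ ^ b) h

variable {σ : F ≃ₐ[F0] F} {m : ℕ} {ζ : L}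

/-- `σ (e_a h) = ζ^a e_a h` -/
theorem σ_proj (hζ : IsPrimitiveRoot ζ m) (hσ : ∀ h : F, (σ ^ m) h = h) (a : ℕ) (h : F) :
    σ (proj σ m ζ a h) = algebraMap L F (ζ ^ a) * proj σ m ζ a h := by
  rcases Nat.eq_zero_or_pos m with hm | hm
  · subst hm
    simp [proj]
  have hζ0 : ζ ≠ 0 := by
    rintro rfl
    have := hζ.pow_eq_one
    rw [zero_pow hm.ne'] at this
    exact zero_ne_one this
  set f : ℕ → F := fun b => algebraMap L F (ζ⁻¹ ^ (a * b)) * (σ ^ b) h with hf
  have hfm : f m = f 0 := by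
    simp only [hf]
    rw [hσ h, mul_zero, pow_zero, pow_zero, mul_comm a m, pow_mul, inv_pow, hζ.pow_eq_one,
      inv_one, one_pow]
    simp
  have hstep : ∀ b, σ (f b) = algebraMap L F (ζ ^ a) * f (b + 1) := by
    intro b
    simp only [hf]
    rw [map_mul, σ_const, ← pow_succ_apply, ← mul_assoc, ← map_mul]
    congr 2
    rw [mul_add, mul_one, pow_add, ← mul_assoc, mul_comm (ζ ^ a), mul_assoc, inv_pow ζ a,
      mul_inv_cancel₀ (pow_ne_zero a hζ0), mul_one]
  unfold proj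
  rw [map_mul, σ_const, map_sum]
  have : ∑ b ∈ Finset.range m, σ (f b) = algebraMap L F (ζ ^ a) * ∑ b ∈ Finset.range m, f b := by
    rw [Finset.sum_congr rfl fun b _ => hstep b, ← Finset.mul_sum, sum_shift f m hfm]
  rw [this]
  ring

/-- `∑_{a<m} x^a = 0` for an `m`-th root of unity `x ≠ 1` -/
theorem geom_sum_eq_zero' {x : L} (hx : x ^ m = 1) (hx1 : x ≠ 1) :
    ∑ a ∈ Finset.range m, x ^ a = 0 := by
  have h := geom_sum_mul x m
  rw [hx, sub_self] at h
  rcases mul_eq_zero.mp h with h0 | h0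
  · exact h0
  · exact absurd (sub_eq_zero.mp h0) hx1

/-- `∑_{a<m} e_a h = h` -/
theorem sum_proj (hζ : IsPrimitiveRoot ζ m) (hm : (m : L) ≠ 0) (h : F) :
    ∑ a ∈ Finset.range m, proj σ m ζ a h = h := by
  have hm0 : m ≠ 0 := by
    rintro rfl
    exact hm (by simp)
  have hζi : IsPrimitiveRoot ζ⁻¹ m := hζ.inv
  unfold proj
  rw [← Finset.mul_sum, Finset.sum_comm]
  have hinner : ∀ b ∈ Finset.range m,
      ∑ a ∈ Finset.range m, algebraMap L F (ζ⁻¹ ^ (a * b)) * (σ ^ b) h =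
        if b = 0 then algebraMap L F (m : L) * h else 0 := by
    intro b hb
    rw [← Finset.sum_mul, ← map_sum]
    have hpow : ∀ a, ζ⁻¹ ^ (a * b) = (ζ⁻¹ ^ b) ^ a := fun a => by rw [mul_comm, pow_mul]
    rw [Finset.sum_congr rfl fun a _ => hpow a]
    split_ifs with hb0
    · subst hb0
      simp
    · have hne : ζ⁻¹ ^ b ≠ 1 :=
        hζi.pow_ne_one_of_pos_of_lt hb0 (Finset.mem_range.mp hb)
      have h1 : (ζ⁻¹ ^ b) ^ m = 1 := by rw [← pow_mul, mul_comm, pow_mul, hζi.pow_eq_one, one_pow]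
      rw [geom_sum_eq_zero' h1 hne, map_zero, zero_mul]
  rw [Finset.sum_congr rfl hinner, Finset.sum_ite_eq' (Finset.range m) 0,
    if_pos (Finset.mem_range.mpr (Nat.pos_of_ne_zero hm0)), ← mul_assoc, ← map_mul,
    inv_mul_cancel₀ hm, map_one, one_mul]

/-- `e_a h` lies in every subring containing `1/m`, `ζ⁻¹` and the conjugates of `h` -/
theorem proj_mem (O : Subring F) (h1 : algebraMap L F (m : L)⁻¹ ∈ O)
    (h2 : algebraMap L F ζ⁻¹ ∈ O) (a : ℕ) {h : F} (hh : ∀ b < m, (σ ^ b) h ∈ O) :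
    proj σ m ζ a h ∈ O := by
  unfold proj
  refine O.mul_mem h1 (O.sum_mem fun b hb => O.mul_mem ?_ (hh b (Finset.mem_range.mp hb)))
  rw [map_pow]
  exact O.pow_mem h2 _

/-- `(e_a h)^m` is fixed by `σ` -/
theorem σ_proj_pow (hζ : IsPrimitiveRoot ζ m) (hσ : ∀ h : F, (σ ^ m) h = h) (a : ℕ) (h : F) :
    σ (proj σ m ζ a h ^ m) = proj σ m ζ a h ^ m := by
  rw [map_pow, σ_proj hζ hσ, mul_pow, ← map_pow, ← pow_mul, mul_comm a m, pow_mul, hζ.pow_eq_one,
    one_pow, map_one, one_mul]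

/-- the projections are additive -/
theorem proj_add (a : ℕ) (h h' : F) :
    proj σ m ζ a (h + h') = proj σ m ζ a h + proj σ m ζ a h' := by
  unfold proj
  rw [← mul_add, ← Finset.sum_add_distrib]
  congr 1
  refine Finset.sum_congr rfl fun b _ => ?_
  rw [map_add, mul_add]

/-- the projections are `F0`-linear -/
theorem proj_base_mul (a : ℕ) (x : F0) (h : F) :
    proj σ m ζ a (algebraMap F0 F x * h) = algebraMap F0 F x * proj σ m ζ a h := by
  unfold proj
  have : ∑ b ∈ Finset.range m, algebraMap L F (ζ⁻¹ ^ (a * b)) * (σ ^ b) (algebraMap F0 F x * h) =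
      algebraMap F0 F x * ∑ b ∈ Finset.range m, algebraMap L F (ζ⁻¹ ^ (a * b)) * (σ ^ b) h := by
    rw [Finset.mul_sum]
    refine Finset.sum_congr rfl fun b _ => ?_
    rw [map_mul, AlgEquiv.commutes]
    ring
  rw [this]
  ring

/-- an eigenvector of eigenvalue `ζ^a` is its own `a`-th projection -/
theorem proj_eigen (hζ : IsPrimitiveRoot ζ m) (hm : (m : L) ≠ 0) (a : ℕ) {h : F}
    (hh : σ h = algebraMap L F (ζ ^ a) * h) : proj σ m ζ a h = h := by
  have hζ0 : ζ ≠ 0 := by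
    rintro rfl
    have hm0 : m ≠ 0 := by
      rintro rfl
      exact hm (by simp)
    have := hζ.pow_eq_one
    rw [zero_pow hm0] at this
    exact zero_ne_one this
  have hpow : ∀ b, (σ ^ b) h = algebraMap L F (ζ ^ (a * b)) * h := by
    intro b
    induction b with
    | zero => simp
    | succ b ih =>
      rw [pow_succ_apply, ih, map_mul, σ_const, hh, ← mul_assoc, ← map_mul, mul_add, mul_one,
        pow_add]
  unfold proj
  have hterm : ∀ b ∈ Finset.range m, algebraMap L F (ζ⁻¹ ^ (a * b)) * (σ ^ b) h = h := by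
    intro b _
    rw [hpow, ← mul_assoc, ← map_mul, inv_pow, inv_mul_cancel₀ (pow_ne_zero _ hζ0), map_one,
      one_mul]
  rw [Finset.sum_congr rfl hterm, Finset.sum_const, Finset.card_range, nsmul_eq_mul, ← mul_assoc]
  have : algebraMap L F (m : L)⁻¹ * (m : F) = 1 := by
    rw [← map_natCast (algebraMap L F) m, ← map_mul, inv_mul_cancel₀ hm, map_one]
  rw [this, one_mul]

end Fermat.Agent.S43.LG1.C2.Proj

end
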