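/-
PROJECT R (row 37 by S43), gate G, block C2 = THE RELATIVE LIFT (helper10): A CYCLIC KUMMER EXTENSION
HAS THE POWER BASIS `1, z, …, z^(m-1)` FOR EVERY EIGENVECTOR `z ≠ 0`.  Mathlib + `C2/Proj`.

`Cyc σ m ζ` : `σ : F ≃ₐ[F0] F`, `σ^m = 1`, fixed field `F0`, `ζ ∈ L` a primitive `m`-th root of
unity, `m ≠ 0` in `L`.  For `z ≠ 0` with `σ z = ζ z`:

* `coord a h : F0` with `algebraMap (coord a h) = e_a h / z^a`, and `h = ∑_{a<m} coord a h · z^a`;
* `tOf : F0` with `algebraMap tOf = z^m`;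
* `powerBasis` : the power basis of `F / F0` with generator `z`, of dimension `m`;
* `minpoly_eq` : `minpoly F0 z = X^m - C tOf`.
-/
import Mathlib
import Fermat.Agent.S43.LG1.C2.Proj

set_option autoImplicit false
set_option linter.unusedSectionVars false

noncomputable section

namespace Fermat.Agent.S43.LG1.C2.Kummer

open Polynomial Fermat.Agent.S43.LG1.C2.Proj

variable {L : Type*} [Field L] {F0 : Type*} [Field F0] [Algebra L F0] {F : Type*} [Field F]
  [Algebra L F] [Algebra F0 F] [IsScalarTower L F0 F]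

/-- **a cyclic Kummer structure** on `F / F0` -/
structure Cyc (σ : F ≃ₐ[F0] F) (m : ℕ) (ζ : L) : Prop where
  hζ : IsPrimitiveRoot ζ m
  hm : (m : L) ≠ 0
  hσ : ∀ h : F, (σ ^ m) h = h
  fixed : ∀ h : F, σ h = h → ∃ h0 : F0, algebraMap F0 F h0 = h

variable {σ : F ≃ₐ[F0] F} {m : ℕ} {ζ : L}

namespace Cyc

variable (H : Cyc σ m ζ)

include H

theorem m_ne_zero : m ≠ 0 := by
  rintro rfl
  exact H.hm (by simp)

theorem ζ_ne_zero : ζ ≠ 0 := by
  rintro rfl
  have := H.hζ.pow_eq_one
  rw [zero_pow H.m_ne_zero] at this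
  exact zero_ne_one this

/-- powers of an eigenvector are eigenvectors -/
theorem σ_pow_eigen {z : F} (hz : σ z = algebraMap L F ζ * z) (a : ℕ) :
    σ (z ^ a) = algebraMap L F (ζ ^ a) * z ^ a := by
  rw [map_pow, hz, mul_pow, map_pow]

/-- an eigenvector of eigenvalue `ζ^a` has no component of index `a' ≠ a` -/
theorem proj_eigen_ne {a a' : ℕ} (ha : a < m) (ha' : a' < m) (hne : a ≠ a') {h : F}
    (hh : σ h = algebraMap L F (ζ ^ a) * h) : proj σ m ζ a' h = 0 := by
  have hpow : ∀ b, (σ ^ b) h = algebraMap L F (ζ ^ (a * b)) * h := by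
    intro b
    induction b with
    | zero => simp
    | succ b ih =>
      rw [pow_succ_apply, ih, map_mul, σ_const, hh, ← mul_assoc, ← map_mul, mul_add, mul_one,
        pow_add]
  -- `e_{a'} h` is a constant multiple of `h`
  have hc : proj σ m ζ a' h = algebraMap L F ((m : L)⁻¹ *
      ∑ b ∈ Finset.range m, ζ⁻¹ ^ (a' * b) * ζ ^ (a * b)) * h := by
    unfold proj
    rw [map_mul, map_sum, mul_assoc, Finset.sum_mul]
    congr 1
    refine Finset.sum_congr rfl fun b _ => ?_
    rw [hpow, map_mul, mul_assoc]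
  set x := proj σ m ζ a' h with hx
  have h1 : σ x = algebraMap L F (ζ ^ a') * x := σ_proj H.hζ H.hσ a' h
  have h2 : σ x = algebraMap L F (ζ ^ a) * x := by
    rw [hc, map_mul, σ_const, hh]
    ring
  have h3 : algebraMap L F (ζ ^ a - ζ ^ a') * x = 0 := by
    rw [map_sub, sub_mul, ← h1, ← h2, sub_self]
  rcases mul_eq_zero.mp h3 with h4 | h4
  · exfalso
    have h5 : ζ ^ a - ζ ^ a' = 0 := (map_eq_zero (algebraMap L F)).mp h4
    exact hne (H.hζ.pow_inj ha ha' (sub_eq_zero.mp h5))
  · exact h4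

section Eigen

variable {z : F} (hz0 : z ≠ 0) (hz : σ z = algebraMap L F ζ * z)

include hz0 hz

theorem σ_proj_div (a : ℕ) (h : F) :
    σ (proj σ m ζ a h * (z ^ a)⁻¹) = proj σ m ζ a h * (z ^ a)⁻¹ := by
  rw [map_mul, map_inv₀, σ_proj H.hζ H.hσ, H.σ_pow_eigen hz, mul_inv]
  have h1 : algebraMap L F (ζ ^ a) ≠ 0 :=
    (map_ne_zero (algebraMap L F)).mpr (pow_ne_zero a H.ζ_ne_zero)
  field_simp

/-- the `a`-th coordinate of `h` in the basis `z^a` -/
def coord (a : ℕ) (h : F) : F0 := (H.fixed _ (H.σ_proj_div hz0 hz a h)).choose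

theorem coord_spec (a : ℕ) (h : F) :
    algebraMap F0 F (H.coord hz0 hz a h) = proj σ m ζ a h * (z ^ a)⁻¹ :=
  (H.fixed _ (H.σ_proj_div hz0 hz a h)).choose_spec

theorem coord_mul_pow (a : ℕ) (h : F) :
    algebraMap F0 F (H.coord hz0 hz a h) * z ^ a = proj σ m ζ a h := by
  rw [H.coord_spec hz0 hz, mul_assoc, inv_mul_cancel₀ (pow_ne_zero a hz0), mul_one]

/-- **the expansion** `h = ∑_{a<m} coord a h · z^a` -/
theorem sum_coord (h : F) :
    ∑ a ∈ Finset.range m, algebraMap F0 F (H.coord hz0 hz a h) * z ^ a = h := by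
  rw [Finset.sum_congr rfl fun a _ => H.coord_mul_pow hz0 hz a h]
  exact sum_proj H.hζ H.hm h

/-- `z^m` lies in `F0` -/
theorem σ_pow_m : σ (z ^ m) = z ^ m := by
  rw [H.σ_pow_eigen hz, H.hζ.pow_eq_one, map_one, one_mul]

/-- the element `t` of `F0` with `z^m = t` -/
def tOf : F0 := (H.fixed _ (H.σ_pow_m hz0 hz)).choose

theorem tOf_spec : algebraMap F0 F (H.tOf hz0 hz) = z ^ m :=
  (H.fixed _ (H.σ_pow_m hz0 hz)).choose_spec

theorem tOf_ne_zero : H.tOf hz0 hz ≠ 0 := by
  intro h0
  have := H.tOf_spec hz0 hz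
  rw [h0, map_zero] at this
  exact pow_ne_zero m hz0 this.symm

/-- the uniqueness of the expansion -/
theorem coeff_eq_zero (c : ℕ → F0)
    (hc : ∑ a ∈ Finset.range m, algebraMap F0 F (c a) * z ^ a = 0) {a' : ℕ} (ha' : a' < m) :
    c a' = 0 := by
  have h1 : proj σ m ζ a' (∑ a ∈ Finset.range m, algebraMap F0 F (c a) * z ^ a) =
      algebraMap F0 F (c a') * z ^ a' := by
    have hadd : ∀ (s : Finset ℕ) (f : ℕ → F),
        proj σ m ζ a' (∑ a ∈ s, f a) = ∑ a ∈ s, proj σ m ζ a' (f a) := by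
      intro s f
      classical
      induction s using Finset.induction_on with
      | empty => simp [proj]
      | insert a s has ih => rw [Finset.sum_insert has, Finset.sum_insert has, proj_add, ih]
    rw [hadd]
    have hterm : ∀ a ∈ Finset.range m, proj σ m ζ a' (algebraMap F0 F (c a) * z ^ a) =
        if a = a' then algebraMap F0 F (c a') * z ^ a' else 0 := by
      intro a ha
      rw [proj_base_mul]
      split_ifs with h
      · subst h
        rw [proj_eigen H.hζ H.hm a (H.σ_pow_eigen hz a)]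
      · rw [H.proj_eigen_ne (Finset.mem_range.mp ha) ha' h (H.σ_pow_eigen hz a), mul_zero]
    rw [Finset.sum_congr rfl hterm, Finset.sum_ite_eq' (Finset.range m) a',
      if_pos (Finset.mem_range.mpr ha')]
  rw [hc] at h1
  have h2 : proj σ m ζ a' (0 : F) = 0 := by simp [proj]
  rw [h2] at h1
  rcases mul_eq_zero.mp h1.symm with h3 | h3
  · exact (map_eq_zero (algebraMap F0 F)).mp h3
  · exact absurd h3 (pow_ne_zero a' hz0)

theorem linearIndependent_pow :
    LinearIndependent F0 (fun i : Fin m => z ^ (i : ℕ)) := by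
  rw [Fintype.linearIndependent_iff]
  intro g hg i
  have h1 : ∑ a ∈ Finset.range m,
      algebraMap F0 F ((fun a => if h : a < m then g ⟨a, h⟩ else 0) a) * z ^ a = 0 := by
    rw [Finset.sum_range]
    rw [← hg]
    refine Finset.sum_congr rfl fun j _ => ?_
    simp only [dif_pos j.2, Algebra.smul_def]
  have := H.coeff_eq_zero hz0 hz _ h1 i.2
  rwa [dif_pos i.2] at this

theorem span_pow : ⊤ ≤ Submodule.span F0 (Set.range fun i : Fin m => z ^ (i : ℕ)) := by
  intro h _
  rw [← H.sum_coord hz0 hz h, Finset.sum_range]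
  refine Submodule.sum_mem _ fun j _ => ?_
  rw [← Algebra.smul_def]
  exact Submodule.smul_mem _ _ (Submodule.subset_span ⟨j, rfl⟩)

/-- the basis `z^a`, `a < m` -/
def basis : Module.Basis (Fin m) F0 F :=
  Module.Basis.mk (H.linearIndependent_pow hz0 hz) (H.span_pow hz0 hz)

theorem basis_apply (i : Fin m) : H.basis hz0 hz i = z ^ (i : ℕ) := by
  rw [basis, Module.Basis.mk_apply]

/-- **the power basis with generator `z`** -/
def powerBasis : PowerBasis F0 F where
  gen := z
  dim := m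
  basis := H.basis hz0 hz
  basis_eq_pow := H.basis_apply hz0 hz

@[simp] theorem powerBasis_gen : (H.powerBasis hz0 hz).gen = z := rfl

@[simp] theorem powerBasis_dim : (H.powerBasis hz0 hz).dim = m := rfl

/-- **the minimal polynomial of `z`** -/
theorem minpoly_eq : minpoly F0 z = X ^ m - Polynomial.C (H.tOf hz0 hz) := by
  have hmon : (X ^ m - Polynomial.C (H.tOf hz0 hz) : F0[X]).Monic :=
    monic_X_pow_sub_C _ H.m_ne_zero
  have hroot : aeval z (X ^ m - Polynomial.C (H.tOf hz0 hz) : F0[X]) = 0 := by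
    rw [map_sub, map_pow, aeval_X, aeval_C, H.tOf_spec hz0 hz, sub_self]
  have hdvd := minpoly.dvd F0 z hroot
  have hdeg : (minpoly F0 z).natDegree = m := by
    have := (H.powerBasis hz0 hz).natDegree_minpoly
    simpa using this
  have hint : IsIntegral F0 z := (H.powerBasis hz0 hz).isIntegral_gen
  symm
  refine Polynomial.eq_of_monic_of_dvd_of_natDegree_le (minpoly.monic hint) hmon hdvd ?_
  rw [hdeg, natDegree_X_pow_sub_C]

end Eigen

end Cyc

end Fermat.Agent.S43.LG1.C2.Kummer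

end
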