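/-
PROJECT R (row 37 by S43), gate G, block C2 = THE RELATIVE LIFT (helper10): FIRST CONSEQUENCES OF
`Seam.BranchOver` FOR A CYCLIC KUMMER EXTENSION.

`U : BranchOver R0 σ K`, `H : Cyc σ m ζ`, `(m : k) ≠ 0`.

* `ζ_mem`, `ζ_inv_mem`, `m_inv_mem` : the constants `ζ`, `ζ⁻¹`, `1/m` lie in `A`;
* `proj_mem` : the eigen-projections preserve the Gauss ring `B.O`;
* `baseHom : R0.O →+* B.O` and `red_baseHom`;
* `redζ`, `isPrimitiveRoot_redζ` : the reduction of `ζ` is a primitive `m`-th root of unity of `k`;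
* `red_proj` : reduction commutes with the eigen-projections;
* `cycBar : Cyc σbar m redζ` : the residue extension `K / κ` is again cyclic Kummer;
* `exists_unit_eigen` : a Kummer eigenvector which is a unit of `B.O`;
* `coord_mem`, `red_eq_sum` : the coordinates of `y ∈ B.O` in the basis `u^a` lie in `R0.O`, and
  `red y = ∑ algebraMap (red (coord a y)) · (red u)^a`.
-/
import Mathlib
import Fermat.Agent.S43.LG1.C2.Seam
import Fermat.Agent.S43.LG1.C2.Kummer

set_option autoImplicit false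
set_option linter.unusedSectionVars false

noncomputable section

namespace Fermat.Agent.S43.LG1.C2.Branch

open AlgebraicCurve Fermat.Agent.S34.NodalDefs Fermat.Agent.S34.NodalDisc
  Fermat.Agent.S43.LG1.C2.Seam Fermat.Agent.S43.LG1.C2.Proj Fermat.Agent.S43.LG1.C2.Kummer

variable {L : Type*} [Field L] {k : Type*} [Field k] {A : ValuationSubring L} {π : A →+* k}
variable {F0 : Type*} [Field F0] [Algebra L F0] {F : Type*} [Field F] [Algebra L F]
variable [Algebra F0 F] [IsScalarTower L F0 F] [Algebra.IsIntegral F0 F]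
variable {κ : Type*} [Field κ] [Algebra k κ] {K : Type*} [Field K] [Algebra k K]
variable [Algebra κ K] [IsScalarTower k κ K] [Algebra.IsIntegral κ K]
variable {R0 : Branch A π F0 κ} {σ : F ≃ₐ[F0] F} {m : ℕ} {ζ : L}

/-! ### the constants -/

section Const

variable (H : Cyc σ m ζ)

include H

theorem ζ_pow_m : ζ ^ m = 1 := H.hζ.pow_eq_one

/-- `ζ ∈ A` -/
theorem ζ_mem (A : ValuationSubring L) : ζ ∈ A := by
  rcases A.mem_or_inv_mem ζ with h | h
  · exact h
  · have h1 : ζ = ζ⁻¹ ^ (m - 1) := by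
      have hm : m - 1 + 1 = m := Nat.sub_add_cancel (Nat.pos_of_ne_zero H.m_ne_zero)
      have h2 : ζ * ζ ^ (m - 1) = 1 := by rw [← pow_succ', hm, H.hζ.pow_eq_one]
      rw [inv_pow]
      exact eq_inv_of_mul_eq_one_left h2
    rw [h1]
    exact A.pow_mem h _

/-- `ζ⁻¹ ∈ A` -/
theorem ζ_inv_mem (A : ValuationSubring L) : ζ⁻¹ ∈ A := by
  have h1 : ζ⁻¹ = ζ ^ (m - 1) := by
    have hm : m - 1 + 1 = m := Nat.sub_add_cancel (Nat.pos_of_ne_zero H.m_ne_zero)
    have h2 : ζ ^ (m - 1) * ζ = 1 := by rw [← pow_succ, hm, H.hζ.pow_eq_one]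
    exact (eq_inv_of_mul_eq_one_left h2).symm
  rw [h1]
  exact A.pow_mem (ζ_mem H A) _

end Const

/-- `1/m ∈ A` -/
theorem m_inv_mem (R : Branch A π F0 κ) (hmk : (m : k) ≠ 0) : ((m : L)⁻¹) ∈ A := by
  have hmA : (m : L) ∈ A := natCast_mem A m
  have h1 : π ⟨(m : L), hmA⟩ ≠ 0 := by
    have : (⟨(m : L), hmA⟩ : A) = (m : A) := Subtype.ext (by simp)
    rw [this, map_natCast]
    exact hmk
  have h2 : IsUnit (⟨(m : L), hmA⟩ : A) := by
    by_contra hnu
    exact h1 ((pi_eq_zero_iff R _).mpr hnu)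
  obtain ⟨⟨u, v, huv, hvu⟩, hu⟩ := h2
  have hu' : (u : L) = (m : L) := congrArg Subtype.val hu
  have h3 : (m : L) * (v : L) = 1 := by
    have := congrArg Subtype.val huv
    simpa [hu'] using this
  have : (v : L) = (m : L)⁻¹ := eq_inv_of_mul_eq_one_right h3
  rw [← this]
  exact v.2

/-! ### the branch upstairs -/

variable (U : BranchOver (F := F) R0 σ K)

theorem σ_pow_mem (b : ℕ) (h : F) : (σ ^ b) h ∈ U.B.O ↔ h ∈ U.B.O := by
  induction b with
  | zero => simp
  | succ b ih => rw [pow_succ_apply, U.σ_mem, ih]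

theorem mem_base_iff (x : F0) : algebraMap F0 F x ∈ U.B.O ↔ x ∈ R0.O := by
  rw [← U.comap_eq, ValuationSubring.mem_comap]

/-- the inclusion `R0.O → B.O` -/
def baseHom : R0.O →+* U.B.O where
  toFun y := ⟨algebraMap F0 F (y : F0), (mem_base_iff U _).2 y.2⟩
  map_one' := Subtype.ext (by simp)
  map_mul' a b := Subtype.ext (by simp)
  map_zero' := Subtype.ext (by simp)
  map_add' a b := Subtype.ext (by simp)

@[simp] theorem coe_baseHom (y : R0.O) : ((baseHom U y : U.B.O) : F) = algebraMap F0 F (y : F0) :=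
  rfl

theorem red_baseHom (y : R0.O) : U.B.red (baseHom U y) = algebraMap κ K (R0.red y) :=
  U.red_base y _

/-- the constants `A → B.O` -/
theorem constHom_eq (a : A) : constHom U.B a = baseHom U (constHom R0 a) := by
  apply Subtype.ext
  rw [coe_constHom, coe_baseHom, coe_constHom, ← IsScalarTower.algebraMap_apply]

section CycSection

variable (H : Cyc σ m ζ) (hmk : (m : k) ≠ 0)

include H hmk

/-- the eigen-projections preserve the Gauss ring -/
theorem proj_mem (a : ℕ) {h : F} (hh : h ∈ U.B.O) : proj σ m ζ a h ∈ U.B.O := by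
  have h1 : algebraMap L F (m : L)⁻¹ ∈ U.B.O.toSubring :=
    U.B.algebraMap_mem ⟨_, m_inv_mem R0 hmk⟩
  have h2 : algebraMap L F ζ⁻¹ ∈ U.B.O.toSubring := U.B.algebraMap_mem ⟨_, ζ_inv_mem H A⟩
  exact Proj.proj_mem U.B.O.toSubring h1 h2 a fun b _ => (σ_pow_mem U b h).2 hh

omit hmk in
/-- the reduction of `ζ` -/
def redζ : k := π ⟨ζ, ζ_mem H A⟩

omit hmk in
theorem redζ_pow : redζ (π := π) H ^ m = 1 := by
  unfold redζ
  rw [← map_pow]
  have : (⟨ζ, ζ_mem H A⟩ : A) ^ m = 1 := Subtype.ext (by simp [H.hζ.pow_eq_one])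
  rw [this, map_one]

/-- **the reduction of `ζ` is a primitive `m`-th root of unity** -/
theorem isPrimitiveRoot_redζ : IsPrimitiveRoot (redζ (π := π) H) m := by
  have hm0 : m ≠ 0 := H.m_ne_zero
  obtain ⟨n, rfl⟩ : ∃ n, m = n + 1 := Nat.exists_eq_succ_of_ne_zero hm0
  set ζA : A := ⟨ζ, ζ_mem H A⟩ with hζA
  have hprimA : IsPrimitiveRoot ζA (n + 1) :=
    IsPrimitiveRoot.of_map_of_injective (f := A.subtype)
      (show IsPrimitiveRoot (A.subtype ζA) (n + 1) from H.hζ) Subtype.val_injective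
  have hprod := hprimA.prod_one_sub_pow_eq_order
  have hprod' : ∏ j ∈ Finset.range n, (1 - redζ (π := π) H ^ (j + 1)) = ((n + 1 : ℕ) : k) := by
    have := congrArg π hprod
    rw [map_prod] at this
    simp only [map_sub, map_one, map_pow, map_add, map_natCast] at this
    rw [Nat.cast_add, Nat.cast_one]
    exact this
  refine IsPrimitiveRoot.mk_of_lt _ (Nat.succ_pos n) (redζ_pow H) ?_
  intro l hl0 hln hl1
  have hmem : l - 1 ∈ Finset.range n := Finset.mem_range.mpr (by omega)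
  have hzero : (1 - redζ (π := π) H ^ (l - 1 + 1)) = 0 := by
    rw [Nat.sub_add_cancel hl0, hl1, sub_self]
  have := Finset.prod_eq_zero (f := fun j => 1 - redζ (π := π) H ^ (j + 1)) hmem hzero
  rw [hprod'] at this
  exact hmk this

omit hmk in
theorem red_const (a : A) :
    U.B.red ⟨algebraMap L F (a : L), U.B.algebraMap_mem a⟩ = algebraMap k K (π a) :=
  U.B.red_algebraMap a

omit H hmk in
theorem red_σ_pow (b : ℕ) (h : U.B.O) :
    U.B.red ⟨(σ ^ b) (h : F), (σ_pow_mem U b _).2 h.2⟩ = (U.σbar ^ b) (U.B.red h) := by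
  induction b with
  | zero => simp
  | succ b ih =>
    have h1 : (⟨(σ ^ (b + 1)) (h : F), (σ_pow_mem U (b + 1) _).2 h.2⟩ : U.B.O) =
        ⟨σ (((⟨(σ ^ b) (h : F), (σ_pow_mem U b _).2 h.2⟩ : U.B.O) : U.B.O) : F),
          (U.σ_mem _).2 ((σ_pow_mem U b _).2 h.2)⟩ := Subtype.ext (pow_succ_apply σ b _)
    rw [h1, U.red_σ, ih, pow_succ_apply]

/-- **reduction commutes with the eigen-projections** -/
theorem red_proj (a : ℕ) (h : U.B.O) :
    U.B.red ⟨proj σ m ζ a (h : F), proj_mem U H hmk a h.2⟩ =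
      proj U.σbar m (redζ (π := π) H) a (U.B.red h) := by
  -- the constants as elements of `B.O`
  set cm : U.B.O := constHom U.B ⟨(m : L)⁻¹, m_inv_mem R0 hmk⟩ with hcm
  set cz : U.B.O := constHom U.B ⟨ζ⁻¹, ζ_inv_mem H A⟩ with hcz
  have hsum : (⟨proj σ m ζ a (h : F), proj_mem U H hmk a h.2⟩ : U.B.O) =
      cm * ∑ b ∈ Finset.range m, cz ^ (a * b) *
        ⟨(σ ^ b) (h : F), (σ_pow_mem U b _).2 h.2⟩ := by
    apply Subtype.ext
    unfold proj
    simp only [MulMemClass.coe_mul, AddSubmonoidClass.coe_finsetSum, SubmonoidClass.coe_pow,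
      hcm, hcz, coe_constHom, map_pow]
  rw [hsum, map_mul, map_sum]
  unfold proj
  have hredm : U.B.red cm = algebraMap k K ((m : k)⁻¹) := by
    rw [hcm, red_constHom]
    congr 1
    have hmA : (m : L) ∈ A := natCast_mem A m
    have h1 : (⟨(m : L)⁻¹, m_inv_mem R0 hmk⟩ : A) * ⟨(m : L), hmA⟩ = 1 :=
      Subtype.ext (inv_mul_cancel₀ H.hm)
    have h2 : π ⟨(m : L), hmA⟩ = (m : k) := by
      have : (⟨(m : L), hmA⟩ : A) = (m : A) := Subtype.ext (by simp)
      rw [this, map_natCast]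
    have h3 := congrArg π h1
    rw [map_mul, map_one, h2] at h3
    exact eq_inv_of_mul_eq_one_left h3
  have hredz : U.B.red cz = algebraMap k K ((redζ (π := π) H)⁻¹) := by
    rw [hcz, red_constHom]
    congr 1
    have h1 : (⟨ζ⁻¹, ζ_inv_mem H A⟩ : A) * ⟨ζ, ζ_mem H A⟩ = 1 :=
      Subtype.ext (inv_mul_cancel₀ H.ζ_ne_zero)
    have h3 := congrArg π h1
    rw [map_mul, map_one] at h3
    exact eq_inv_of_mul_eq_one_left h3
  rw [hredm]
  congr 1
  refine Finset.sum_congr rfl fun b _ => ?_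
  rw [map_mul, map_pow, hredz, red_σ_pow, map_pow]

/-- **the residue extension is cyclic Kummer** -/
theorem cycBar : Cyc U.σbar m (redζ (π := π) H) where
  hζ := isPrimitiveRoot_redζ H hmk
  hm := hmk
  hσ := by
    intro x
    obtain ⟨h, rfl⟩ := U.red_surj x
    rw [← red_σ_pow U m h]
    congr 1
    exact Subtype.ext (H.hσ _)
  fixed := by
    intro x hx
    obtain ⟨h, rfl⟩ := U.red_surj x
    -- `e_0 h` is fixed by `σ`, lies in `F0 ∩ B.O = R0.O`, and reduces to `x`
    have hfix : σ (proj σ m ζ 0 (h : F)) = proj σ m ζ 0 (h : F) := by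
      rw [σ_proj H.hζ H.hσ, pow_zero, map_one, one_mul]
    obtain ⟨h0, hh0⟩ := H.fixed _ hfix
    have hmem : h0 ∈ R0.O := by
      rw [← mem_base_iff U, hh0]
      exact proj_mem U H hmk 0 h.2
    refine ⟨R0.red ⟨h0, hmem⟩, ?_⟩
    rw [← red_baseHom U ⟨h0, hmem⟩]
    have h1 : baseHom U ⟨h0, hmem⟩ = ⟨proj σ m ζ 0 (h : F), proj_mem U H hmk 0 h.2⟩ :=
      Subtype.ext hh0
    rw [h1, red_proj U H hmk]
    refine proj_eigen (isPrimitiveRoot_redζ H hmk) hmk 0 ?_
    rw [pow_zero, map_one, one_mul]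
    exact hx

end CycSection

/-! ### Kummer units of the branch -/

omit [Algebra.IsIntegral F0 F] [Algebra.IsIntegral κ K] in
/-- a Kummer eigenvector which is a unit of the Gauss ring -/
theorem exists_unit_eigen {z : F} (hz0 : z ≠ 0) (hz : σ z = algebraMap L F ζ * z) :
    ∃ u : U.B.Oˣ, σ ((u : U.B.O) : F) = algebraMap L F ζ * ((u : U.B.O) : F) ∧
      ∃ c : L, c ≠ 0 ∧ z = algebraMap L F c * ((u : U.B.O) : F) := by
  obtain ⟨c, hc, u, hu⟩ := U.B.exists_const_mul_unit z hz0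
  refine ⟨u, ?_, c, hc, hu⟩
  have hc' : algebraMap L F c ≠ 0 := (map_ne_zero (algebraMap L F)).mpr hc
  have h1 : algebraMap L F c * σ ((u : U.B.O) : F) =
      algebraMap L F c * (algebraMap L F ζ * ((u : U.B.O) : F)) := by
    rw [← σ_const σ c, ← map_mul, ← hu, hz, hu, σ_const]
    ring
  exact mul_left_cancel₀ hc' h1

section UnitSection

variable (H : Cyc σ m ζ) (hmk : (m : k) ≠ 0) (u : U.B.Oˣ)
  (hu : σ ((u : U.B.O) : F) = algebraMap L F ζ * ((u : U.B.O) : F))

include H hmk hu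

omit hmk in
theorem red_unit_eigen :
    U.σbar (U.B.red (u : U.B.O)) =
      algebraMap k K (redζ (π := π) H) * U.B.red (u : U.B.O) := by
  rw [← U.red_σ]
  have h1 : (⟨σ ((u : U.B.O) : F), (U.σ_mem _).2 (u : U.B.O).2⟩ : U.B.O) =
      constHom U.B ⟨ζ, ζ_mem H A⟩ * (u : U.B.O) := Subtype.ext hu
  rw [h1, map_mul, red_constHom]
  rfl

/-- the coordinates of `y ∈ B.O` in the basis `u^a` lie in `R0.O` -/
theorem coord_mem (a : ℕ) {y : F} (hy : y ∈ U.B.O) :
    H.coord (coe_unit_ne_zero U.B u) hu a y ∈ R0.O := by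
  rw [← mem_base_iff U, H.coord_spec]
  refine U.B.O.mul_mem _ _ (proj_mem U H hmk a hy) ?_
  rw [← inv_pow, ← coe_inv_unit U.B u]
  exact U.B.O.pow_mem ((u⁻¹ : U.B.Oˣ) : U.B.O).2 _

/-- **the reduction in coordinates** -/
theorem red_eq_sum (y : U.B.O) :
    U.B.red y = ∑ a ∈ Finset.range m,
      algebraMap κ K (R0.red ⟨H.coord (coe_unit_ne_zero U.B u) hu a (y : F),
        coord_mem U H hmk u hu a y.2⟩) * U.B.red (u : U.B.O) ^ a := by
  have h1 : y = ∑ a ∈ Finset.range m,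
      baseHom U ⟨H.coord (coe_unit_ne_zero U.B u) hu a (y : F), coord_mem U H hmk u hu a y.2⟩ *
        (u : U.B.O) ^ a := by
    apply Subtype.ext
    push_cast
    simp only [coe_baseHom]
    exact (H.sum_coord (coe_unit_ne_zero U.B u) hu (y : F)).symm
  conv_lhs => rw [h1]
  rw [map_sum]
  refine Finset.sum_congr rfl fun a _ => ?_
  rw [map_mul, map_pow, red_baseHom]

end UnitSection

end Fermat.Agent.S43.LG1.C2.Branch

end
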