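/-
PROJECT R (row 37 by S43), gate G, block C2 = THE RELATIVE LIFT (helper10): THE LOCAL KUMMER UNIT AT
A GOOD PLACE OF THE BASE.

`R0 : SmoothRed A π F0 κ` the component of the base, `U : BranchOver R0.toBranch σ K` the branch of
`F` over it, `H : Cyc σ m ζ`, `x : GoodCoord R0`, `F / F0` unramified over the good discs
(`UnramOver`), every place of `F0` has a place of `F` over it, the places of `F0` have degree one.

* `exists_goodParam` : for `P0` in the disc of a good `Q` the function `x - x(P0)` is a good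
  parameter at `Q` (in the sense of `S34/NodalDisc`) vanishing at `P0`;
* `exists_localUnit` : for every good `Q` there are a unit `w` of `B.O` with `σ w = ζ w` and a unit
  `T` of `R0.O` with `w^m = T`, such that `T` has neither zero nor pole on the disc of `Q` and
  `red T` has neither zero nor pole at `Q`.
-/
import Mathlib
import Fermat.Agent.S43.LG1.C2.Branch

set_option autoImplicit false
set_option linter.unusedSectionVars false

noncomputable section

namespace Fermat.Agent.S43.LG1.C2.LocalUnit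

open AlgebraicCurve Fermat.Agent.S24.Ord Fermat.Agent.S34.NodalDefs Fermat.Agent.S34.NodalDisc
  Fermat.Agent.S34.Generic.Dich
  Fermat.Agent.S43.LG1.C2.Seam Fermat.Agent.S43.LG1.C2.Proj Fermat.Agent.S43.LG1.C2.Kummer
  Fermat.Agent.S43.LG1.C2.Branch

variable {L : Type*} [Field L] {k : Type*} [Field k] {A : ValuationSubring L} {π : A →+* k}
variable {F0 : Type*} [Field F0] [Algebra L F0] {F : Type*} [Field F] [Algebra L F]
variable [Algebra F0 F] [IsScalarTower L F0 F] [Algebra.IsIntegral F0 F]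
variable {κ : Type*} [Field κ] [Algebra k κ] {K : Type*} [Field K] [Algebra k K]
variable [Algebra κ K] [IsScalarTower k κ K] [Algebra.IsIntegral κ K]

/-! ### good parameters of the base -/

section GoodParam

variable [HasPrincipalDivisors L F0] {R0 : SmoothRed A π F0 κ} (x : GoodCoord R0)

include x in
/-- **`x - x(P0)` is a good parameter vanishing at `P0`** -/
theorem exists_goodParam (hdeg0 : ∀ P0 : Place L F0, P0.deg = 1) {Q : Place k κ}
    (hQ : Q ∈ R0.good) {P0 : Place L F0} (hP0 : R0.r P0 = some Q) :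
    ∃ g : R0.O, IsGoodParam R0 g Q ∧ P0.adicValuation ((g : R0.O) : F0) < 1 := by
  obtain ⟨c, hc⟩ := exists_hasVal P0 (hdeg0 P0) (x.reg Q hQ P0 hP0)
  have hcA : c ∈ A := value_mem' R0 x.x Q hQ (x.reg Q hQ) P0 hP0 c hc
  obtain ⟨γ, hγ⟩ := x.unr Q hQ
  have hval := red_value R0 x.x Q hQ (x.reg Q hQ) P0 hP0 ⟨c, hcA⟩ hc
  have hne : R0.red x.x - algebraMap k κ γ ≠ 0 := by
    intro h0
    rw [h0, Place.ord_zero] at hγ
    exact zero_ne_one hγ
  have hγ' : HasVal Q (R0.red x.x) γ := (ord_pos_iff Q hne).mp (by rw [hγ]; exact one_pos)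
  have hπc : π ⟨c, hcA⟩ = γ := HasVal.unique hval hγ'
  refine ⟨x.x - constHom R0.toBranch ⟨c, hcA⟩, ⟨hQ, ?_, ?_⟩, ?_⟩
  · have : ((x.x - constHom R0.toBranch ⟨c, hcA⟩ : R0.O) : F0) =
        ((x.x : R0.O) : F0) - algebraMap L F0 c := by
      push_cast; simp
    rw [this]
    exact (x.reg Q hQ).sub (regOn_const R0.r _ Q)
  · rw [map_sub, red_constHom, hπc]
    exact hγ
  · have : ((x.x - constHom R0.toBranch ⟨c, hcA⟩ : R0.O) : F0) =
        ((x.x : R0.O) : F0) - algebraMap L F0 c := by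
      push_cast; simp
    rw [this]
    exact hc

end GoodParam

/-! ### orders of products of powers of units -/

section OrdProd

variable {E : Type*} [Field E] [Algebra L E] (O : ValuationSubring E)

/-- `u ↦ ord_P u` on the units of a valuation subring -/
def ordU (P : Place L E) : Oˣ →* Multiplicative ℤ where
  toFun u := Multiplicative.ofAdd (P.ord ((u : O) : E))
  map_one' := by simp [Place.ord_one]
  map_mul' u v := by
    have hu : ((u : O) : E) ≠ 0 := fun h => u.ne_zero (Subtype.ext h)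
    have hv : ((v : O) : E) ≠ 0 := fun h => v.ne_zero (Subtype.ext h)
    rw [Units.val_mul, MulMemClass.coe_mul, P.ord_mul hu hv, ofAdd_add]

theorem ordU_apply (P : Place L E) (u : Oˣ) :
    Multiplicative.toAdd (ordU O P u) = P.ord ((u : O) : E) := rfl

theorem ord_prod_zpow {ι : Type*} (P : Place L E) (s : Finset ι) (a : ι → Oˣ) (n : ι → ℤ) :
    P.ord (((∏ i ∈ s, a i ^ n i : Oˣ) : O) : E) = ∑ i ∈ s, n i * P.ord (((a i : Oˣ) : O) : E) := by
  rw [← ordU_apply, map_prod, toAdd_prod]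
  refine Finset.sum_congr rfl fun i _ => ?_
  rw [map_zpow, toAdd_zpow, smul_eq_mul, ordU_apply]

theorem ord_unit_mul (P : Place L E) (u v : Oˣ) :
    P.ord (((u * v : Oˣ) : O) : E) = P.ord ((u : O) : E) + P.ord ((v : O) : E) := by
  rw [← ordU_apply, map_mul, toAdd_mul, ordU_apply, ordU_apply]

theorem ord_unit_pow (P : Place L E) (u : Oˣ) (n : ℕ) :
    P.ord (((u ^ n : Oˣ) : O) : E) = n * P.ord ((u : O) : E) := by
  rw [← ordU_apply, map_pow, toAdd_pow, ordU_apply, nsmul_eq_mul]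

end OrdProd

/-! ### the local Kummer unit -/

section Local

variable [HasPrincipalDivisors L F0] {R0 : SmoothRed A π F0 κ} {σ : F ≃ₐ[F0] F} {m : ℕ} {ζ : L}
  (U : BranchOver (F := F) R0.toBranch σ K) (H : Cyc σ m ζ) (hmk : (m : k) ≠ 0)
  (x : GoodCoord R0) (hun : UnramOver R0 F)
  (hfib : ∀ P0 : Place L F0, ∃ P : Place L F, P.restrict F0 = P0)
  (hdeg0 : ∀ P0 : Place L F0, P0.deg = 1)

include H in
/-- the unit of `R0.O` below the `m`-th power of an eigen-unit of `B.O` -/
theorem exists_base_unit (u : U.B.Oˣ)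
    (hu : σ ((u : U.B.O) : F) = algebraMap L F ζ * ((u : U.B.O) : F)) :
    ∃ T : R0.Oˣ, algebraMap F0 F (((T : R0.Oˣ) : R0.O) : F0) = ((u : U.B.O) : F) ^ m := by
  have hu0 := coe_unit_ne_zero U.B u
  have hmem : H.tOf hu0 hu ∈ R0.O := by
    rw [← mem_base_iff U, H.tOf_spec]
    exact U.B.O.pow_mem (u : U.B.O).2 _
  have hred : R0.red ⟨H.tOf hu0 hu, hmem⟩ ≠ 0 := by
    intro h0
    have h1 := red_baseHom U ⟨H.tOf hu0 hu, hmem⟩
    rw [h0, map_zero] at h1
    have h2 : baseHom U ⟨H.tOf hu0 hu, hmem⟩ = (u : U.B.O) ^ m :=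
      Subtype.ext (by rw [coe_baseHom]; exact H.tOf_spec hu0 hu)
    rw [h2, map_pow] at h1
    exact red_unit_ne_zero U.B u (pow_eq_zero_iff H.m_ne_zero |>.mp h1)
  exact ⟨unitOfRed R0.toBranch _ hred, by rw [coe_unitOfRed]; exact H.tOf_spec hu0 hu⟩

include hun hfib in
/-- `m` divides the orders of `T` on the good discs -/
theorem ord_base_unit (u : U.B.Oˣ) (T : R0.Oˣ)
    (hT : algebraMap F0 F (((T : R0.Oˣ) : R0.O) : F0) = ((u : U.B.O) : F) ^ m)
    {Q : Place k κ} (hQ : Q ∈ R0.good) {P0 : Place L F0} (hP0 : R0.r P0 = some Q) :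
    ∃ n : ℤ, P0.ord (((T : R0.Oˣ) : R0.O) : F0) = m * n := by
  obtain ⟨P, hP⟩ := hfib P0
  have he : P.ramificationIndex F0 = 1 := hun P Q hQ (by rw [hP]; exact hP0)
  refine ⟨P.ord ((u : U.B.O) : F), ?_⟩
  have h1 := P.ord_restrict (F := F0) (((T : R0.Oˣ) : R0.O) : F0)
  rw [he, hP, Nat.cast_one, one_mul, hT, Fermat.Agent.S18.CoreOrd.ord_pow] at h1
  exact h1.symm

include H x hun hfib hdeg0 in
/-- **the local Kummer unit at a good place `Q`** -/
theorem exists_localUnit {z : F} (hz0 : z ≠ 0) (hz : σ z = algebraMap L F ζ * z)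
    {Q : Place k κ} (hQ : Q ∈ R0.good) :
    ∃ (w : U.B.Oˣ) (T : R0.Oˣ),
      σ ((w : U.B.O) : F) = algebraMap L F ζ * ((w : U.B.O) : F) ∧
      algebraMap F0 F (((T : R0.Oˣ) : R0.O) : F0) = ((w : U.B.O) : F) ^ m ∧
      (∀ P0 : Place L F0, R0.r P0 = some Q → P0.ord (((T : R0.Oˣ) : R0.O) : F0) = 0) ∧
      Q.ord (R0.red ((T : R0.Oˣ) : R0.O)) = 0 := by
  classical
  obtain ⟨u, hu, -⟩ := exists_unit_eigen U hz0 hz
  obtain ⟨T, hT⟩ := exists_base_unit U H u hu
  have hT0 : (((T : R0.Oˣ) : R0.O) : F0) ≠ 0 := coe_unit_ne_zero R0.toBranch T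
  -- the zeros and poles of `T` on the disc of `Q`
  obtain ⟨D, hD, -⟩ := HasPrincipalDivisors.exists_divisor (K := L) _ hT0
  set S : Finset (Place L F0) := D.support.filter fun P0 => R0.r P0 = some Q with hS
  have hSmem : ∀ P0 ∈ S, R0.r P0 = some Q := fun P0 h => (Finset.mem_filter.mp h).2
  have hSof : ∀ P0 : Place L F0, R0.r P0 = some Q →
      P0.ord (((T : R0.Oˣ) : R0.O) : F0) ≠ 0 → P0 ∈ S := by
    intro P0 h1 h2
    rw [hS, Finset.mem_filter, Finsupp.mem_support_iff, hD]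
    exact ⟨h2, h1⟩
  -- the exponents and the good parameters
  choose! n hn using fun (P0 : Place L F0) (h : R0.r P0 = some Q) =>
    ord_base_unit U hun hfib u T hT hQ h
  choose! g hg hgz using fun (P0 : Place L F0) (h : R0.r P0 = some Q) =>
    exists_goodParam x hdeg0 hQ h
  set G : Place L F0 → R0.Oˣ := fun P0 =>
    if h : R0.r P0 = some Q then unitOfRed R0.toBranch (g P0) (hg P0 h).red_ne_zero else 1 with hG
  have hGcoe : ∀ P0 (h : R0.r P0 = some Q), ((G P0 : R0.Oˣ) : R0.O) = g P0 := by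
    intro P0 h
    simp only [hG, dif_pos h, coe_unitOfRed]
  set f : R0.Oˣ := ∏ P0 ∈ S, G P0 ^ (-(n P0)) with hf
  -- the orders of `f` on the disc
  have hordf : ∀ P0' : Place L F0, R0.r P0' = some Q →
      P0'.ord (((f : R0.Oˣ) : R0.O) : F0) = if P0' ∈ S then -(n P0') else 0 := by
    intro P0' h'
    rw [hf, ord_prod_zpow]
    have hterm : ∀ P0 ∈ S, -(n P0) * P0'.ord (((G P0 : R0.Oˣ) : R0.O) : F0) =
        if P0' = P0 then -(n P0') else 0 := by
      intro P0 hP0
      rw [hGcoe P0 (hSmem P0 hP0),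
        (hg P0 (hSmem P0 hP0)).ord_eq_ite (hSmem P0 hP0) (hgz P0 (hSmem P0 hP0)) P0' h']
      split_ifs with h
      · rw [h, mul_one]
      · rw [mul_zero]
    rw [Finset.sum_congr rfl hterm, Finset.sum_ite_eq S P0']
  -- the new units
  set w : U.B.Oˣ := u * Units.map (baseHom U : R0.O →* U.B.O) f with hw
  set T' : R0.Oˣ := T * f ^ m with hT'
  have hwcoe : ((w : U.B.O) : F) = ((u : U.B.O) : F) * algebraMap F0 F (((f : R0.Oˣ) : R0.O) : F0) := by
    rw [hw, Units.val_mul, MulMemClass.coe_mul]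
    rfl
  refine ⟨w, T', ?_, ?_, ?_, ?_⟩
  · rw [hwcoe, map_mul, hu, AlgEquiv.commutes]
    ring
  · rw [hwcoe, hT', Units.val_mul, Units.val_pow_eq_pow_val, MulMemClass.coe_mul,
      SubmonoidClass.coe_pow, map_mul, map_pow, hT, mul_pow]
  · intro P0' h'
    rw [hT', ord_unit_mul, ord_unit_pow, hordf P0' h']
    by_cases hmem : P0' ∈ S
    · rw [if_pos hmem, hn P0' h']
      ring
    · rw [if_neg hmem, mul_zero, add_zero]
      by_contra hne
      exact hmem (hSof P0' h' hne)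
  · have hne : R0.red ((T' : R0.Oˣ) : R0.O) ≠ 0 := red_unit_ne_zero R0.toBranch T'
    obtain ⟨s, hs, -, hsum⟩ := exists_ord_red_eq_sum R0 ((T' : R0.Oˣ) : R0.O) hne Q hQ
    rw [hsum]
    refine Finset.sum_eq_zero fun P0' hP0' => ?_
    have h' := hs P0' hP0'
    rw [hT', ord_unit_mul, ord_unit_pow, hordf P0' h']
    by_cases hmem : P0' ∈ S
    · rw [if_pos hmem, hn P0' h']
      ring
    · rw [if_neg hmem, mul_zero, add_zero]
      by_contra hne'
      exact hmem (hSof P0' h' hne')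

end Local

end Fermat.Agent.S43.LG1.C2.LocalUnit

end
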