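/-
PROJECT R (row 37 by S43), gate G, block C2 = THE RELATIVE LIFT (helper10): THE PLACES OF A CYCLIC
KUMMER EXTENSION OVER A PLACE WHERE `t = w^m` IS A UNIT (Dedekind-Kummer at the simple roots of
`X^m - t`, via main's `S34/SimpleRootPlace`).

Generic in the constant field `c`: `E / E0` function fields over `c`, `H : Cyc σ m ζ`, `w ≠ 0` with
`σ w = ζ w`, `t = H.tOf` (`w^m = t`).  `P0` a place of `E0` with `ord_{P0} t = 0`, `t(P0) = τ`.

* `hasVal_algebraMap_iff` : values of elements of `E0` at a place of `E` and at its restriction;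
* `exists_place` : for every root `γ^m = τ` a place `P` over `P0` with `w(P) = γ`, unramified;
* `eq_of_hasVal` : two places over `P0` with the same value of `w` are equal;
* `pow_eq_of_hasVal` : the value of `w` at a place over `P0` is a root of `X^m = τ`;
* `ord_eigen_eq_zero` : `w` has neither zero nor pole at a place over `P0`.
-/
import Mathlib
import Fermat.Agent.S34.SimpleRootPlace
import Fermat.Agent.S34.Generic.Dich
import Fermat.Agent.S43.LG1.C2.Kummer

set_option autoImplicit false
set_option linter.unusedSectionVars false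

noncomputable section

namespace Fermat.Agent.S43.LG1.C2.Torsor

open AlgebraicCurve Polynomial Fermat.Agent.S24.Ord Fermat.Agent.S34.Generic.Dich
  Fermat.Agent.S34.SimpleRoot Fermat.Agent.S34.SimpleRootPlace
  Fermat.Agent.S43.LG1.C2.Proj Fermat.Agent.S43.LG1.C2.Kummer

variable {c : Type*} [Field c] {E0 : Type*} [Field E0] [Algebra c E0] {E : Type*} [Field E]
  [Algebra c E] [Algebra E0 E] [IsScalarTower c E0 E] [Algebra.IsIntegral E0 E]

/-! ### values and restriction -/

theorem adicValuation_algebraMap_lt_one_iff (P : Place c E) (y : E0) :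
    P.adicValuation (algebraMap E0 E y) < 1 ↔ (P.restrict E0).adicValuation y < 1 := by
  rcases eq_or_ne y 0 with rfl | hy
  · simp
  have hy' : algebraMap E0 E y ≠ 0 := (map_ne_zero (algebraMap E0 E)).mpr hy
  rw [← ord_pos_iff P hy', ← ord_pos_iff (P.restrict E0) hy, P.ord_restrict y]
  have he : (0 : ℤ) < (P.ramificationIndex E0 : ℤ) := by
    exact_mod_cast P.ramificationIndex_pos (F := E0)
  exact mul_pos_iff_of_pos_left he

theorem adicValuation_algebraMap_le_one_iff (P : Place c E) (y : E0) :
    P.adicValuation (algebraMap E0 E y) ≤ 1 ↔ (P.restrict E0).adicValuation y ≤ 1 := by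
  rw [← mem_iff, ← mem_iff, Place.mem_restrict_iff]

/-- values of elements of `E0` at a place of `E` and at its restriction -/
theorem hasVal_algebraMap_iff (P : Place c E) (y : E0) (d : c) :
    HasVal P (algebraMap E0 E y) d ↔ HasVal (P.restrict E0) y d := by
  unfold HasVal
  have h : algebraMap E0 E y - algebraMap c E d = algebraMap E0 E (y - algebraMap c E0 d) := by
    rw [map_sub, ← IsScalarTower.algebraMap_apply]
  rw [h, adicValuation_algebraMap_lt_one_iff]

/-- a nonzero constant is a unit of the valuation ring of a place -/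
theorem isUnit_const (P0 : Place c E0) {d : c} (hd : d ≠ 0) :
    IsUnit (⟨algebraMap c E0 d, P0.algebraMap_mem' d⟩ : P0.toValuationSubring) := by
  refine ⟨⟨⟨algebraMap c E0 d, P0.algebraMap_mem' d⟩, ⟨algebraMap c E0 d⁻¹, P0.algebraMap_mem' d⁻¹⟩,
    Subtype.ext ?_, Subtype.ext ?_⟩, rfl⟩
  · show algebraMap c E0 d * algebraMap c E0 d⁻¹ = 1
    rw [← map_mul, mul_inv_cancel₀ hd, map_one]
  · show algebraMap c E0 d⁻¹ * algebraMap c E0 d = 1
    rw [← map_mul, inv_mul_cancel₀ hd, map_one]

/-! ### the Kummer places -/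

section KummerPlaces

variable {σ : E ≃ₐ[E0] E} {m : ℕ} {ζ : c} (H : Cyc σ m ζ) {w : E} (hw0 : w ≠ 0)
  (hw : σ w = algebraMap c E ζ * w)
  (P0 : Place c E0) (ht : P0.ord (H.tOf hw0 hw) = 0) {τ : c} (hτ : HasVal P0 (H.tOf hw0 hw) τ)

include ht in
theorem t_mem : H.tOf hw0 hw ∈ P0.toValuationSubring := by
  rw [mem_iff]
  exact (ord_nonneg_iff P0 (H.tOf_ne_zero hw0 hw)).mp (le_of_eq ht.symm)

include ht hτ in
theorem τ_ne_zero : τ ≠ 0 := by
  rintro rfl
  unfold HasVal at hτ
  rw [map_zero, sub_zero] at hτ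
  have := (ord_pos_iff P0 (H.tOf_ne_zero hw0 hw)).mpr hτ
  omega

/-- the Dedekind-Kummer datum at a root `γ` of `X^m = τ` -/
def datum {γ : c} (hγ : γ ^ m = τ) : Datum P0.toValuationSubring E :=
  Datum.ofPowerBasis (H.powerBasis hw0 hw)
    (X ^ m - C (⟨H.tOf hw0 hw, t_mem H hw0 hw P0 ht⟩ : P0.toValuationSubring))
    ⟨algebraMap c E0 γ, P0.algebraMap_mem' γ⟩
    (monic_X_pow_sub_C _ H.m_ne_zero)
    (by
      rw [Cyc.powerBasis_gen, H.minpoly_eq hw0 hw, Polynomial.map_sub, Polynomial.map_pow, map_X,
        map_C]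
      rfl)
    (by
      rw [mem_maximalIdeal_iff, eval_sub, eval_pow, eval_X, eval_C]
      have h1 : (((⟨algebraMap c E0 γ, P0.algebraMap_mem' γ⟩ : P0.toValuationSubring) ^ m -
          ⟨H.tOf hw0 hw, t_mem H hw0 hw P0 ht⟩ : P0.toValuationSubring) : E0) =
          -(H.tOf hw0 hw - algebraMap c E0 τ) := by
        push_cast
        rw [← map_pow, hγ]
        ring
      rw [h1, Valuation.map_neg]
      exact hτ)
    (by
      rw [derivative_sub, derivative_C, sub_zero, derivative_X_pow, eval_mul, eval_pow, eval_X,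
        eval_C]
      have hγ0 : γ ≠ 0 := by
        rintro rfl
        rw [zero_pow H.m_ne_zero] at hγ
        exact τ_ne_zero H hw0 hw P0 ht hτ hγ.symm
      refine IsUnit.mul ?_ ((isUnit_const P0 hγ0).pow _)
      have h1 : ((m : ℕ) : P0.toValuationSubring) =
          ⟨algebraMap c E0 (m : c), P0.algebraMap_mem' (m : c)⟩ := Subtype.ext (by simp)
      rw [h1]
      exact isUnit_const P0 H.hm)

theorem datum_t {γ : c} (hγ : γ ^ m = τ) : (datum H hw0 hw P0 ht hτ hγ).t = w := rfl

theorem datum_a {γ : c} (hγ : γ ^ m = τ) :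
    (((datum H hw0 hw P0 ht hτ hγ).a : P0.toValuationSubring) : E0) = algebraMap c E0 γ := rfl

include H hw0 hw ht hτ in
/-- **existence**: for every root `γ` a place over `P0` with `w(P) = γ`, unramified -/
theorem exists_place {γ : c} (hγ : γ ^ m = τ) :
    ∃ P : Place c E, P.restrict E0 = P0 ∧ HasVal P w γ ∧ P.ramificationIndex E0 = 1 := by
  set S := datum H hw0 hw P0 ht hτ hγ with hS
  refine ⟨place S, restrict_place S, ?_, ramificationIndex_place S⟩
  have := adicValuation_place_sub_lt_one S
  rw [datum_t, datum_a, ← IsScalarTower.algebraMap_apply] at this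
  exact this

include H hw0 hw ht hτ in
/-- **uniqueness**: two places over `P0` with the same value of `w` are equal -/
theorem eq_of_hasVal {γ : c} (hγ : γ ^ m = τ) {P P' : Place c E} (hP : P.restrict E0 = P0)
    (hP' : P'.restrict E0 = P0) (hv : HasVal P w γ) (hv' : HasVal P' w γ) : P = P' := by
  set S := datum H hw0 hw P0 ht hτ hγ with hS
  have h1 : P = place S := by
    refine eq_place_of_restrict S hP ?_
    rw [datum_t, datum_a, ← IsScalarTower.algebraMap_apply]
    exact hv
  have h2 : P' = place S := by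
    refine eq_place_of_restrict S hP' ?_
    rw [datum_t, datum_a, ← IsScalarTower.algebraMap_apply]
    exact hv'
  rw [h1, h2]

include H hw0 hw ht hτ in
/-- a place over `P0` with value `γ` of `w` is unramified -/
theorem ramificationIndex_eq_one {γ : c} (hγ : γ ^ m = τ) {P : Place c E}
    (hP : P.restrict E0 = P0) (hv : HasVal P w γ) : P.ramificationIndex E0 = 1 := by
  obtain ⟨P', hP', hv', he⟩ := exists_place H hw0 hw P0 ht hτ hγ
  rw [eq_of_hasVal H hw0 hw P0 ht hτ hγ hP hP' hv hv']
  exact he

include H hw0 hw ht in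
/-- `w` has neither zero nor pole at a place over `P0` -/
theorem ord_eigen_eq_zero {P : Place c E} (hP : P.restrict E0 = P0) : P.ord w = 0 := by
  have h1 := P.ord_restrict (F := E0) (H.tOf hw0 hw)
  rw [hP, ht, mul_zero, H.tOf_spec, Fermat.Agent.S18.CoreOrd.ord_pow] at h1
  have hm : (m : ℤ) ≠ 0 := by exact_mod_cast H.m_ne_zero
  rcases mul_eq_zero.mp h1 with h | h
  · exact absurd h hm
  · exact h

include H hw0 hw ht hτ in
/-- the value of `w` at a place over `P0` is a root of `X^m = τ` -/
theorem pow_eq_of_hasVal {P : Place c E} (hP : P.restrict E0 = P0) {γ : c} (hv : HasVal P w γ) :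
    γ ^ m = τ := by
  have h1 : HasVal P (w ^ m) (γ ^ m) := hv.pow m
  have h2 : HasVal P (w ^ m) τ := by
    rw [← H.tOf_spec hw0 hw, hasVal_algebraMap_iff, hP]
    exact hτ
  exact HasVal.unique h1 h2

include H hw0 hw ht in
/-- `w` is regular at a place over `P0` -/
theorem adicValuation_eigen_le_one {P : Place c E} (hP : P.restrict E0 = P0) :
    P.adicValuation w ≤ 1 :=
  (ord_nonneg_iff P hw0).mp (le_of_eq (ord_eigen_eq_zero H hw0 hw P0 ht hP).symm)

end KummerPlaces

end Fermat.Agent.S43.LG1.C2.Torsor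

end
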