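/-
PROJECT R (row 37 by S43), gate G, block C2 = THE RELATIVE LIFT (helper10): THE RESIDUE DISCS UPSTAIRS.

`X : Ctx R0 F K` collects the hypotheses on ONE branch: the cyclic Kummer structure `(σ, m, ζ, z)`,
the branch `U` of `F` over the component `R0` of the base, the coordinate `x`, unramifiedness over the
good discs, surjectivity of the restriction of places, degree-one places, `m`-th roots in `L`.

For a good place `Q` of `κ`: `wU X hQ` is the local Kummer unit, `TU X hQ` its `m`-th power in `R0.O`.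
`SpecAt X hQ P Q'` : `Q'` lies over `Q`, `P` lies over the disc of `Q`, and the value of `wU` at `P`
reduces to the value of `red wU` at `Q'`.

* `specAt_unique` : `Q'` is determined by `P`;
* `exists_specAt` : every `P` over the disc of `Q` specialises to some `Q'` over `Q`;
* `exists_over` / `unique_over` : for `P0` in the disc of `Q` and `Q'` over `Q` there is exactly one
  `P` over `P0` specialising to `Q'`;
* `ramificationIndex_bar` : `K / κ` is unramified over the good places.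
-/
import Mathlib
import Fermat.Agent.S43.LG1.C2.LocalUnit
import Fermat.Agent.S43.LG1.C2.Torsor

set_option autoImplicit false
set_option linter.unusedSectionVars false

noncomputable section

namespace Fermat.Agent.S43.LG1.C2.Disc

open AlgebraicCurve Fermat.Agent.S24.Ord Fermat.Agent.S34.NodalDefs Fermat.Agent.S34.NodalDisc
  Fermat.Agent.S34.Generic.Dich
  Fermat.Agent.S43.LG1.C2.Seam Fermat.Agent.S43.LG1.C2.Proj Fermat.Agent.S43.LG1.C2.Kummer
  Fermat.Agent.S43.LG1.C2.Branch Fermat.Agent.S43.LG1.C2.LocalUnit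

variable {L : Type*} [Field L] {k : Type*} [Field k] {A : ValuationSubring L} {π : A →+* k}
variable {F0 : Type*} [Field F0] [Algebra L F0] {F : Type*} [Field F] [Algebra L F]
variable [Algebra F0 F] [IsScalarTower L F0 F] [Algebra.IsIntegral F0 F]
variable {κ : Type*} [Field κ] [Algebra k κ] {K : Type*} [Field K] [Algebra k K]
variable [Algebra κ K] [IsScalarTower k κ K] [Algebra.IsIntegral κ K]

/-- **the hypotheses on one branch** -/
structure Ctx (R0 : SmoothRed A π F0 κ) (F : Type*) [Field F] [Algebra L F] [Algebra F0 F]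
    [IsScalarTower L F0 F] [Algebra.IsIntegral F0 F] (K : Type*) [Field K] [Algebra k K]
    [Algebra κ K] [IsScalarTower k κ K] [Algebra.IsIntegral κ K] where
  m : ℕ
  ζ : L
  σ : F ≃ₐ[F0] F
  H : Cyc σ m ζ
  hmk : (m : k) ≠ 0
  U : BranchOver (F := F) R0.toBranch σ K
  x : GoodCoord R0
  hun : UnramOver R0 F
  hfib : ∀ P0 : Place L F0, ∃ P : Place L F, P.restrict F0 = P0
  hdeg0 : ∀ P0 : Place L F0, P0.deg = 1
  hdegF : ∀ P : Place L F, P.deg = 1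
  hdegκ : ∀ Q : Place k κ, Q.deg = 1
  hdegK : ∀ Q' : Place k K, Q'.deg = 1
  z : F
  z_ne : z ≠ 0
  σ_z : σ z = algebraMap L F ζ * z
  hrootL : ∀ a : L, ∃ b : L, b ^ m = a

variable [HasPrincipalDivisors L F0] {R0 : SmoothRed A π F0 κ} (X : Ctx R0 F K)

/-! ### the local Kummer unit at a good place -/

section LocalUnit

theorem exists_units {Q : Place k κ} (hQ : Q ∈ R0.good) :
    ∃ (w : X.U.B.Oˣ) (T : R0.Oˣ),
      X.σ ((w : X.U.B.O) : F) = algebraMap L F X.ζ * ((w : X.U.B.O) : F) ∧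
      algebraMap F0 F (((T : R0.Oˣ) : R0.O) : F0) = ((w : X.U.B.O) : F) ^ X.m ∧
      (∀ P0 : Place L F0, R0.r P0 = some Q → P0.ord (((T : R0.Oˣ) : R0.O) : F0) = 0) ∧
      Q.ord (R0.red ((T : R0.Oˣ) : R0.O)) = 0 :=
  exists_localUnit X.U X.H X.x X.hun X.hfib X.hdeg0 X.z_ne X.σ_z hQ

/-- the local Kummer unit at `Q` -/
def wU {Q : Place k κ} (hQ : Q ∈ R0.good) : X.U.B.Oˣ := (exists_units X hQ).choose

/-- its `m`-th power, a unit of `R0.O` -/
def TU {Q : Place k κ} (hQ : Q ∈ R0.good) : R0.Oˣ := (exists_units X hQ).choose_spec.choose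

theorem σ_wU {Q : Place k κ} (hQ : Q ∈ R0.good) : X.σ ((wU X hQ : X.U.B.O) : F) = algebraMap L F X.ζ * ((wU X hQ : X.U.B.O) : F) :=
  (exists_units X hQ).choose_spec.choose_spec.1

theorem TU_eq {Q : Place k κ} (hQ : Q ∈ R0.good) : algebraMap F0 F (((TU X hQ : R0.Oˣ) : R0.O) : F0) = ((wU X hQ : X.U.B.O) : F) ^ X.m :=
  (exists_units X hQ).choose_spec.choose_spec.2.1

theorem TU_ord {Q : Place k κ} (hQ : Q ∈ R0.good) {P0 : Place L F0} (hP0 : R0.r P0 = some Q) :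
    P0.ord (((TU X hQ : R0.Oˣ) : R0.O) : F0) = 0 :=
  (exists_units X hQ).choose_spec.choose_spec.2.2.1 P0 hP0

theorem TU_red_ord {Q : Place k κ} (hQ : Q ∈ R0.good) : Q.ord (R0.red ((TU X hQ : R0.Oˣ) : R0.O)) = 0 :=
  (exists_units X hQ).choose_spec.choose_spec.2.2.2

theorem wU_ne {Q : Place k κ} (hQ : Q ∈ R0.good) : ((wU X hQ : X.U.B.O) : F) ≠ 0 := coe_unit_ne_zero X.U.B _

theorem TU_ne {Q : Place k κ} (hQ : Q ∈ R0.good) : (((TU X hQ : R0.Oˣ) : R0.O) : F0) ≠ 0 := coe_unit_ne_zero R0.toBranch _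

/-- `T` is the `tOf` of the local unit -/
theorem tOf_eq {Q : Place k κ} (hQ : Q ∈ R0.good) : X.H.tOf (wU_ne X hQ) (σ_wU X hQ) = (((TU X hQ : R0.Oˣ) : R0.O) : F0) := by
  apply (algebraMap F0 F).injective
  rw [X.H.tOf_spec, TU_eq]

theorem TU_regOn {Q : Place k κ} (hQ : Q ∈ R0.good) : RegOn R0.r ((((TU X hQ : R0.Oˣ) : R0.O) : F0)) Q :=
  regOn_of_ord_nonneg fun _ hP0 => le_of_eq (TU_ord X hQ hP0).symm

/-- the residue Kummer structure -/
theorem HB : Cyc X.U.σbar X.m (redζ (π := π) X.H) := cycBar X.U X.H X.hmk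

/-- the reduction of the local unit -/
def wbar {Q : Place k κ} (hQ : Q ∈ R0.good) : K := X.U.B.red (wU X hQ : X.U.B.O)

theorem wbar_ne {Q : Place k κ} (hQ : Q ∈ R0.good) : wbar X hQ ≠ 0 := red_unit_ne_zero X.U.B _

theorem σbar_wbar {Q : Place k κ} (hQ : Q ∈ R0.good) :
    X.U.σbar (wbar X hQ) = algebraMap k K (redζ (π := π) X.H) * wbar X hQ :=
  red_unit_eigen X.U X.H (wU X hQ) (σ_wU X hQ)

/-- `red T` is the `tOf` of the reduced local unit -/
theorem tOfbar_eq {Q : Place k κ} (hQ : Q ∈ R0.good) :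
    (HB X).tOf (wbar_ne X hQ) (σbar_wbar X hQ) = R0.red ((TU X hQ : R0.Oˣ) : R0.O) := by
  apply (algebraMap κ K).injective
  rw [(HB X).tOf_spec, ← red_baseHom X.U, wbar, ← map_pow]
  congr 1
  apply Subtype.ext
  rw [coe_baseHom, TU_eq]
  rfl

/-- the value of `T` at a point of the disc, and its reduction -/
theorem exists_TU_val {Q : Place k κ} (hQ : Q ∈ R0.good) {P0 : Place L F0} (hP0 : R0.r P0 = some Q) :
    ∃ τ : A, HasVal P0 ((((TU X hQ : R0.Oˣ) : R0.O) : F0)) (τ : L) ∧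
      HasVal Q (R0.red ((TU X hQ : R0.Oˣ) : R0.O)) (π τ) := by
  obtain ⟨τ, hτ⟩ := exists_hasVal P0 (X.hdeg0 P0) (TU_regOn X hQ P0 hP0)
  have hτA : τ ∈ A := value_mem' R0 _ Q hQ (TU_regOn X hQ) P0 hP0 τ hτ
  exact ⟨⟨τ, hτA⟩, hτ, red_value R0 _ Q hQ (TU_regOn X hQ) P0 hP0 ⟨τ, hτA⟩ hτ⟩

/-- `c^m ∈ A → c ∈ A` -/
theorem mem_of_pow_mem {c : L} {n : ℕ} (hn : n ≠ 0) (h : c ^ n ∈ A) : c ∈ A := by
  by_contra hc
  obtain ⟨hinv, hmax⟩ := inv_mem_maximalIdeal_of_not_mem (A := A) hc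
  have h1 : (⟨c⁻¹, hinv⟩ : A) ^ n * ⟨c ^ n, h⟩ = 1 := by
    apply Subtype.ext
    have hc0 : c ≠ 0 := fun h0 => hc (h0 ▸ A.zero_mem)
    push_cast
    rw [inv_pow, inv_mul_cancel₀ (pow_ne_zero n hc0)]
  have h2 : (⟨c⁻¹, hinv⟩ : A) ^ n * ⟨c ^ n, h⟩ ∈ IsLocalRing.maximalIdeal A :=
    Ideal.mul_mem_right _ _ (Ideal.pow_mem_of_mem _ hmax n (Nat.pos_of_ne_zero hn))
  rw [h1] at h2
  exact (Ideal.ne_top_iff_one _).mp (IsLocalRing.maximalIdeal.isMaximal A).ne_top h2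

/-- the value of the local unit at a point over the disc: it lies in `A` and is a root of
`X^m = τ` -/
theorem exists_wU_val {Q : Place k κ} (hQ : Q ∈ R0.good) {P : Place L F} (hP : R0.r (P.restrict F0) = some Q) {τ : A}
    (hτ : HasVal (P.restrict F0) ((((TU X hQ : R0.Oˣ) : R0.O) : F0)) (τ : L)) :
    ∃ c : A, HasVal P ((wU X hQ : X.U.B.O) : F) (c : L) ∧ (c : L) ^ X.m = τ := by
  have ht : (P.restrict F0).ord (X.H.tOf (wU_ne X hQ) (σ_wU X hQ)) = 0 := by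
    rw [tOf_eq]; exact TU_ord X hQ hP
  have hτ' : HasVal (P.restrict F0) (X.H.tOf (wU_ne X hQ) (σ_wU X hQ)) (τ : L) := by
    rw [tOf_eq]; exact hτ
  have hreg := Torsor.adicValuation_eigen_le_one X.H (wU_ne X hQ) (σ_wU X hQ) (P.restrict F0) ht rfl
  obtain ⟨c, hc⟩ := exists_hasVal P (X.hdegF P) hreg
  have hpow := Torsor.pow_eq_of_hasVal X.H (wU_ne X hQ) (σ_wU X hQ) (P.restrict F0) ht hτ' rfl hc
  have hcA : c ∈ A := mem_of_pow_mem X.H.m_ne_zero (hpow ▸ τ.2)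
  exact ⟨⟨c, hcA⟩, hc, hpow⟩

end LocalUnit

/-! ### the specialisation relation -/

/-- `P` specialises to `Q'` over the good place `Q` -/
def SpecAt {Q : Place k κ} (hQ : Q ∈ R0.good) (P : Place L F) (Q' : Place k K) : Prop :=
  Q'.restrict κ = Q ∧ R0.r (P.restrict F0) = some Q ∧
    ∃ c : A, HasVal P ((wU X hQ : X.U.B.O) : F) (c : L) ∧ HasVal Q' (wbar X hQ) (π c)

/-- the hypotheses of `Torsor` downstairs -/
theorem bar_ht {Q : Place k κ} (hQ : Q ∈ R0.good) :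
    Q.ord ((HB X).tOf (wbar_ne X hQ) (σbar_wbar X hQ)) = 0 := by
  rw [tOfbar_eq]; exact TU_red_ord X hQ

/-- **`Q'` is determined by `P`** -/
theorem specAt_unique {Q1 Q2 : Place k κ} (hQ1 : Q1 ∈ R0.good) (hQ2 : Q2 ∈ R0.good)
    {P : Place L F} {Q1' Q2' : Place k K} (h1 : SpecAt X hQ1 P Q1') (h2 : SpecAt X hQ2 P Q2') :
    Q1' = Q2' := by
  obtain ⟨hr1, hP1, c1, hv1, hb1⟩ := h1
  obtain ⟨hr2, hP2, c2, hv2, hb2⟩ := h2
  obtain rfl : Q1 = Q2 := Option.some.inj (hP1.symm.trans hP2)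
  have hc : (c1 : L) = c2 := HasVal.unique hv1 hv2
  have hc' : c1 = c2 := Subtype.ext hc
  subst hc'
  obtain ⟨τ, hτ, hτb⟩ := exists_TU_val X hQ1 hP1
  have hτb' : HasVal Q1 ((HB X).tOf (wbar_ne X hQ1) (σbar_wbar X hQ1)) (π τ) := by
    rw [tOfbar_eq]; exact hτb
  have hroot : (π c1) ^ X.m = π τ :=
    Torsor.pow_eq_of_hasVal (HB X) (wbar_ne X hQ1) (σbar_wbar X hQ1) Q1 (bar_ht X hQ1) hτb' hr1 hb1
  exact Torsor.eq_of_hasVal (HB X) (wbar_ne X hQ1) (σbar_wbar X hQ1) Q1 (bar_ht X hQ1) hτb' hroot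
    hr1 hr2 hb1 hb2

/-- **every place over the disc of `Q` specialises to a place over `Q`** -/
theorem exists_specAt {Q : Place k κ} (hQ : Q ∈ R0.good) {P : Place L F}
    (hP : R0.r (P.restrict F0) = some Q) : ∃ Q' : Place k K, SpecAt X hQ P Q' := by
  obtain ⟨τ, hτ, hτb⟩ := exists_TU_val X hQ hP
  obtain ⟨c, hc, hpow⟩ := exists_wU_val X hQ hP hτ
  have hτb' : HasVal Q ((HB X).tOf (wbar_ne X hQ) (σbar_wbar X hQ)) (π τ) := by
    rw [tOfbar_eq]; exact hτb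
  have hroot : (π c) ^ X.m = π τ := by
    rw [← map_pow]
    congr 1
    exact Subtype.ext (by push_cast; exact hpow)
  obtain ⟨Q', hQ', hv, -⟩ :=
    Torsor.exists_place (HB X) (wbar_ne X hQ) (σbar_wbar X hQ) Q (bar_ht X hQ) hτb' hroot
  exact ⟨Q', hQ', hP, c, hc, hv⟩

/-! ### roots of `X^m = τ` and their reductions -/

/-- two roots of `X^m = τ` in `A` with the same nonzero reduction are equal -/
theorem eq_of_pow_eq_of_red_eq {c1 c2 : A} (h : (c1 : L) ^ X.m = (c2 : L) ^ X.m)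
    (hπ : π c1 = π c2) (hne : π c2 ≠ 0) : c1 = c2 := by
  have : NeZero X.m := ⟨X.H.m_ne_zero⟩
  have hc2 : (c2 : L) ≠ 0 := coe_ne_zero_of_pi_ne_zero hne
  have hξ : ((c1 : L) / c2) ^ X.m = 1 := by
    rw [div_pow, h, div_self (pow_ne_zero _ hc2)]
  obtain ⟨i, hi, hζi⟩ := X.H.hζ.eq_pow_of_pow_eq_one hξ
  have h1 : (c1 : L) = c2 * X.ζ ^ i := by
    rw [hζi, mul_div_cancel₀ _ hc2]
  have h2 : c1 = c2 * (⟨X.ζ, ζ_mem X.H A⟩ : A) ^ i := Subtype.ext (by push_cast; exact h1)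
  have h3 : π c2 * redζ (π := π) X.H ^ i = π c2 := by
    have := congrArg π h2
    rw [map_mul, map_pow, hπ] at this
    exact this.symm
  have h4 : redζ (π := π) X.H ^ i = 1 := by
    have h5 : π c2 * redζ (π := π) X.H ^ i = π c2 * 1 := by rw [h3, mul_one]
    exact mul_left_cancel₀ hne h5
  have h6 : X.m ∣ i := (isPrimitiveRoot_redζ X.H X.hmk).pow_eq_one_iff_dvd i |>.mp h4
  have hi0 : i = 0 := Nat.eq_zero_of_dvd_of_lt h6 hi
  rw [hi0, pow_zero, mul_one] at h2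
  exact h2

/-- a root of `X^m = π τ` lifts to a root of `X^m = τ` in `A` -/
theorem exists_root_lift {τ : A} {γ : k} (hγ : γ ^ X.m = π τ) (hne : π τ ≠ 0) :
    ∃ c : A, (c : L) ^ X.m = τ ∧ π c = γ := by
  have : NeZero X.m := ⟨X.H.m_ne_zero⟩
  obtain ⟨c0, hc0⟩ := X.hrootL (τ : L)
  have hc0A : c0 ∈ A := mem_of_pow_mem X.H.m_ne_zero (hc0 ▸ τ.2)
  have hπc0 : π ⟨c0, hc0A⟩ ^ X.m = π τ := by
    rw [← map_pow]
    congr 1
    exact Subtype.ext (by push_cast; exact hc0)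
  have hπc0ne : π ⟨c0, hc0A⟩ ≠ 0 := by
    intro h0
    rw [h0, zero_pow X.H.m_ne_zero] at hπc0
    exact hne hπc0.symm
  have hξ : (γ / π ⟨c0, hc0A⟩) ^ X.m = 1 := by
    rw [div_pow, hγ, hπc0, div_self hne]
  obtain ⟨i, -, hζi⟩ := (isPrimitiveRoot_redζ X.H X.hmk).eq_pow_of_pow_eq_one hξ
  refine ⟨⟨c0, hc0A⟩ * (⟨X.ζ, ζ_mem X.H A⟩ : A) ^ i, ?_, ?_⟩
  · push_cast
    rw [mul_pow, hc0, ← pow_mul, mul_comm i, pow_mul, X.H.hζ.pow_eq_one, one_pow, mul_one]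
  · rw [map_mul, map_pow]
    change π ⟨c0, hc0A⟩ * redζ (π := π) X.H ^ i = γ
    rw [hζi, mul_div_cancel₀ _ hπc0ne]

/-! ### the fibres -/

theorem exists_TUbar_val {Q : Place k κ} (hQ : Q ∈ R0.good) :
    ∃ τ : k, HasVal Q ((HB X).tOf (wbar_ne X hQ) (σbar_wbar X hQ)) τ := by
  refine exists_hasVal Q (X.hdegκ Q) ?_
  exact (ord_nonneg_iff Q ((HB X).tOf_ne_zero _ _)).mp (le_of_eq (bar_ht X hQ).symm)

/-- the value of the reduced local unit at a place over `Q` -/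
theorem exists_wbar_val {Q : Place k κ} (hQ : Q ∈ R0.good) {Q' : Place k K}
    (hQ' : Q'.restrict κ = Q) : ∃ γ : k, HasVal Q' (wbar X hQ) γ :=
  exists_hasVal Q' (X.hdegK Q')
    (Torsor.adicValuation_eigen_le_one (HB X) (wbar_ne X hQ) (σbar_wbar X hQ) Q (bar_ht X hQ) hQ')

include X in
/-- **`K / κ` is unramified over the good places** -/
theorem ramificationIndex_bar {Q : Place k κ} (hQ : Q ∈ R0.good) {Q' : Place k K}
    (hQ' : Q'.restrict κ = Q) : Q'.ramificationIndex κ = 1 := by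
  obtain ⟨τ, hτ⟩ := exists_TUbar_val X hQ
  obtain ⟨γ, hγ⟩ := exists_wbar_val X hQ hQ'
  have hroot := Torsor.pow_eq_of_hasVal (HB X) (wbar_ne X hQ) (σbar_wbar X hQ) Q (bar_ht X hQ) hτ
    hQ' hγ
  exact Torsor.ramificationIndex_eq_one (HB X) (wbar_ne X hQ) (σbar_wbar X hQ) Q (bar_ht X hQ) hτ
    hroot hQ' hγ

/-- the hypotheses of `Torsor` upstairs -/
theorem up_ht {Q : Place k κ} (hQ : Q ∈ R0.good) {P0 : Place L F0} (hP0 : R0.r P0 = some Q) :
    P0.ord (X.H.tOf (wU_ne X hQ) (σ_wU X hQ)) = 0 := by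
  rw [tOf_eq]; exact TU_ord X hQ hP0

/-- **existence**: over `P0` in the disc of `Q` there is a place specialising to a given `Q'`
over `Q` -/
theorem exists_over {Q : Place k κ} (hQ : Q ∈ R0.good) {P0 : Place L F0}
    (hP0 : R0.r P0 = some Q) {Q' : Place k K} (hQ' : Q'.restrict κ = Q) :
    ∃ P : Place L F, P.restrict F0 = P0 ∧ SpecAt X hQ P Q' := by
  obtain ⟨τ, hτ, hτb⟩ := exists_TU_val X hQ hP0
  have hτ' : HasVal P0 (X.H.tOf (wU_ne X hQ) (σ_wU X hQ)) (τ : L) := by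
    rw [tOf_eq]; exact hτ
  have hτb' : HasVal Q ((HB X).tOf (wbar_ne X hQ) (σbar_wbar X hQ)) (π τ) := by
    rw [tOfbar_eq]; exact hτb
  obtain ⟨γ, hγ⟩ := exists_wbar_val X hQ hQ'
  have hroot := Torsor.pow_eq_of_hasVal (HB X) (wbar_ne X hQ) (σbar_wbar X hQ) Q (bar_ht X hQ) hτb'
    hQ' hγ
  have hne : π τ ≠ 0 :=
    Torsor.τ_ne_zero (HB X) (wbar_ne X hQ) (σbar_wbar X hQ) Q (bar_ht X hQ) hτb'
  obtain ⟨c, hc, hπc⟩ := exists_root_lift X hroot hne
  obtain ⟨P, hP, hv, -⟩ :=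
    Torsor.exists_place X.H (wU_ne X hQ) (σ_wU X hQ) P0 (up_ht X hQ hP0) hτ' hc
  exact ⟨P, hP, hQ', by rw [hP]; exact hP0, c, hv, by rw [hπc]; exact hγ⟩

/-- **uniqueness**: two places over the same point of the disc specialising to the same `Q'`
are equal -/
theorem unique_over {Q : Place k κ} (hQ : Q ∈ R0.good) {P1 P2 : Place L F}
    (h12 : P1.restrict F0 = P2.restrict F0) {Q' : Place k K} (h1 : SpecAt X hQ P1 Q')
    (h2 : SpecAt X hQ P2 Q') : P1 = P2 := by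
  obtain ⟨hQ', hP1, c1, hv1, hb1⟩ := h1
  obtain ⟨-, hP2, c2, hv2, hb2⟩ := h2
  obtain ⟨τ, hτ, hτb⟩ := exists_TU_val X hQ hP1
  have hτ' : HasVal (P1.restrict F0) (X.H.tOf (wU_ne X hQ) (σ_wU X hQ)) (τ : L) := by
    rw [tOf_eq]; exact hτ
  have hτb' : HasVal Q ((HB X).tOf (wbar_ne X hQ) (σbar_wbar X hQ)) (π τ) := by
    rw [tOfbar_eq]; exact hτb
  have hpow1 := Torsor.pow_eq_of_hasVal X.H (wU_ne X hQ) (σ_wU X hQ) (P1.restrict F0)
    (up_ht X hQ hP1) hτ' rfl hv1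
  have hpow2 := Torsor.pow_eq_of_hasVal X.H (wU_ne X hQ) (σ_wU X hQ) (P1.restrict F0)
    (up_ht X hQ hP1) hτ' h12.symm hv2
  have hπ : π c1 = π c2 := HasVal.unique hb1 hb2
  have hne : π τ ≠ 0 :=
    Torsor.τ_ne_zero (HB X) (wbar_ne X hQ) (σbar_wbar X hQ) Q (bar_ht X hQ) hτb'
  have hroot := Torsor.pow_eq_of_hasVal (HB X) (wbar_ne X hQ) (σbar_wbar X hQ) Q (bar_ht X hQ) hτb'
    hQ' hb2
  have hne2 : π c2 ≠ 0 := by
    intro h0
    rw [h0, zero_pow X.H.m_ne_zero] at hroot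
    exact hne hroot.symm
  have hc : c1 = c2 := eq_of_pow_eq_of_red_eq X (hpow1.trans hpow2.symm) hπ hne2
  subst hc
  exact Torsor.eq_of_hasVal X.H (wU_ne X hQ) (σ_wU X hQ) (P1.restrict F0) (up_ht X hQ hP1) hτ'
    hpow1 rfl h12.symm hv1 hv2

end Fermat.Agent.S43.LG1.C2.Disc

end
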