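/-
PROJECT R (row 37 by S43), gate G, block C2 = THE RELATIVE LIFT (helper10): THE PARTIAL SPECIALISATION
MAP UPSTAIRS AND ITS VALUE CALCULUS (`Seam.IsSpecMap`).

* `sP σ P` : the translate of a place of `F` by `σ`; it lies over the same place of `F0`;
* `regOver_σ_pow` : the conjugates of a function regular over a whole disc are regular over it;
* `specAt_value` : **the value calculus upstairs**: if `P` specialises to `Q'` and `y ∈ B.O` is regular
  over the whole disc, then `y(P) ∈ A` and it reduces to `(red y)(Q')`;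
* `rUp` : the partial specialisation map; `rUp_eq_some_iff`; `isSpecMap_rUp : IsSpecMap R0 B (rUp X)`;
* `rUp_restrict`, `exists_rUp`, `exists_rUp_over`, `rUp_unique_over` : the discs upstairs lie over the
  discs of the base, bijectively on the fibres.
-/
import Mathlib
import Fermat.Agent.S43.LG1.C2.Disc

set_option autoImplicit false
set_option linter.unusedSectionVars false

noncomputable section

namespace Fermat.Agent.S43.LG1.C2.Spec

open AlgebraicCurve Fermat.Agent.S24.Ord Fermat.Agent.S34.NodalDefs Fermat.Agent.S34.NodalDisc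
  Fermat.Agent.S34.Generic.Dich
  Fermat.Agent.S43.LG1.C2.Seam Fermat.Agent.S43.LG1.C2.Proj Fermat.Agent.S43.LG1.C2.Kummer
  Fermat.Agent.S43.LG1.C2.Branch Fermat.Agent.S43.LG1.C2.LocalUnit Fermat.Agent.S43.LG1.C2.Disc

variable {L : Type*} [Field L] {k : Type*} [Field k] {A : ValuationSubring L} {π : A →+* k}
variable {F0 : Type*} [Field F0] [Algebra L F0] {F : Type*} [Field F] [Algebra L F]
variable [Algebra F0 F] [IsScalarTower L F0 F] [Algebra.IsIntegral F0 F]
variable {κ : Type*} [Field κ] [Algebra k κ] {K : Type*} [Field K] [Algebra k K]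
variable [Algebra κ K] [IsScalarTower k κ K] [Algebra.IsIntegral κ K]

/-! ### translates of places -/

section Translate

variable (σ : F ≃ₐ[F0] F)

/-- the translate of a place by `σ` -/
def sP (P : Place L F) : Place L F := (σ.restrictScalars L) • P

theorem ord_sP (P : Place L F) (f : F) : (sP σ P).ord (σ f) = P.ord f :=
  Place.ord_smul (σ.restrictScalars L) P f

theorem adicValuation_sP (P : Place L F) (f : F) :
    (sP σ P).adicValuation (σ f) = P.adicValuation f := by
  rcases eq_or_ne f 0 with rfl | hf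
  · simp
  have hf' : σ f ≠ 0 := (map_ne_zero σ).mpr hf
  rw [adicValuation_eq _ hf', adicValuation_eq _ hf, ord_sP]

theorem restrict_sP (P : Place L F) : (sP σ P).restrict F0 = P.restrict F0 := by
  apply Place.ext
  ext x
  rw [Place.mem_restrict_iff, Place.mem_restrict_iff, mem_iff, mem_iff]
  have : algebraMap F0 F x = σ (algebraMap F0 F x) := (σ.commutes x).symm
  conv_lhs => rw [this]
  rw [adicValuation_sP]

/-- every place is a translate -/
theorem exists_sP_eq (P : Place L F) : ∃ P' : Place L F, sP σ P' = P ∧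
    P'.restrict F0 = P.restrict F0 := by
  refine ⟨(σ.restrictScalars L)⁻¹ • P, ?_, ?_⟩
  · unfold sP
    rw [smul_inv_smul]
  · have h := restrict_sP σ ((σ.restrictScalars L)⁻¹ • P)
    unfold sP at h
    rw [smul_inv_smul] at h
    exact h.symm

end Translate

variable [HasPrincipalDivisors L F0] {R0 : SmoothRed A π F0 κ} (X : Ctx R0 F K)

/-- the conjugates of a function regular over a whole disc are regular over it -/
theorem regOver_σ {Q : Place k κ} {y : F} (hy : RegOver (F := F) R0 Q y) :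
    RegOver (F := F) R0 Q (X.σ y) := by
  intro P hP
  obtain ⟨P', hP', hres⟩ := exists_sP_eq X.σ P
  rw [← hP', adicValuation_sP]
  refine hy P' ?_
  show R0.r (P'.restrict F0) = some Q
  rw [hres]
  exact hP

theorem regOver_σ_pow {Q : Place k κ} {y : F} (hy : RegOver (F := F) R0 Q y) (b : ℕ) :
    RegOver (F := F) R0 Q ((X.σ ^ b) y) := by
  induction b with
  | zero => simpa using hy
  | succ b ih =>
    rw [pow_succ_apply]
    exact regOver_σ X ih

/-- the eigen-projections of a function regular over a whole disc are regular over it -/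
theorem regOver_proj {Q : Place k κ} {y : F} (hy : RegOver (F := F) R0 Q y) (a : ℕ) :
    RegOver (F := F) R0 Q (proj X.σ X.m X.ζ a y) := by
  intro P hP
  rw [← mem_iff]
  refine Proj.proj_mem P.toValuationSubring.toSubring (P.algebraMap_mem' _) (P.algebraMap_mem' _) a
    fun b _ => ?_
  show (X.σ ^ b) y ∈ P.toValuationSubring
  rw [mem_iff]
  exact regOver_σ_pow X hy b P hP

/-- the local unit has neither zero nor pole over the disc -/
theorem ord_wU {Q : Place k κ} (hQ : Q ∈ R0.good) {P : Place L F}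
    (hP : R0.r (P.restrict F0) = some Q) : P.ord ((wU X hQ : X.U.B.O) : F) = 0 :=
  Torsor.ord_eigen_eq_zero X.H (wU_ne X hQ) (σ_wU X hQ) (P.restrict F0) (up_ht X hQ hP) rfl

theorem regOver_wU {Q : Place k κ} (hQ : Q ∈ R0.good) :
    RegOver (F := F) R0 Q ((wU X hQ : X.U.B.O) : F) := fun P hP =>
  (ord_nonneg_iff P (wU_ne X hQ)).mp (le_of_eq (ord_wU X hQ hP).symm)

/-! ### the coordinates of a regular function -/

section Coord

variable {Q : Place k κ} (hQ : Q ∈ R0.good)

/-- the `a`-th coordinate of `y` in the basis of the powers of the local unit -/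
def co (a : ℕ) (y : F) : F0 := X.H.coord (wU_ne X hQ) (σ_wU X hQ) a y

theorem co_mem (a : ℕ) {y : F} (hy : y ∈ X.U.B.O) : co X hQ a y ∈ R0.O :=
  coord_mem X.U X.H X.hmk (wU X hQ) (σ_wU X hQ) a hy

theorem co_spec (a : ℕ) (y : F) : algebraMap F0 F (co X hQ a y) =
    proj X.σ X.m X.ζ a y * (((wU X hQ : X.U.B.O) : F) ^ a)⁻¹ :=
  X.H.coord_spec (wU_ne X hQ) (σ_wU X hQ) a y

/-- the coordinates of a function regular over the whole disc are regular on the disc -/
theorem co_regOn (a : ℕ) {y : F} (hy : RegOver (F := F) R0 Q y) :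
    RegOn R0.r (co X hQ a y) Q := by
  intro P0 hP0
  obtain ⟨P, hP⟩ := X.hfib P0
  have hPd : R0.r (P.restrict F0) = some Q := by rw [hP]; exact hP0
  rw [← hP, ← Torsor.adicValuation_algebraMap_le_one_iff, co_spec, map_mul]
  refine mul_le_one' (regOver_proj X hy a P hPd) ?_
  have hne : (((wU X hQ : X.U.B.O) : F) ^ a)⁻¹ ≠ 0 := inv_ne_zero (pow_ne_zero a (wU_ne X hQ))
  refine (ord_nonneg_iff P hne).mp ?_
  rw [Place.ord_inv, Fermat.Agent.S18.CoreOrd.ord_pow, ord_wU X hQ hPd, mul_zero, neg_zero]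

end Coord

/-! ### the value calculus upstairs -/

/-- **the value calculus**: if `P` specialises to `Q'`, every `y ∈ B.O` regular over the whole disc
takes at `P` a value of `A`, which reduces to the value of `red y` at `Q'`. -/
theorem specAt_value {Q : Place k κ} (hQ : Q ∈ R0.good) {P : Place L F} {Q' : Place k K}
    (h : SpecAt X hQ P Q') (y : X.U.B.O) (hy : RegOver (F := F) R0 Q (y : F)) {c : L}
    (hc : HasVal P (y : F) c) : ∃ hcA : c ∈ A, HasVal Q' (X.U.B.red y) (π ⟨c, hcA⟩) := by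
  obtain ⟨hQ', hP, c0, hv0, hb0⟩ := h
  -- the coordinates, their values and the reductions of the values
  have hval : ∀ a : ℕ, ∃ d : A, HasVal (P.restrict F0) (co X hQ a (y : F)) (d : L) ∧
      HasVal Q (R0.red ⟨co X hQ a (y : F), co_mem X hQ a y.2⟩) (π d) := by
    intro a
    have hreg := co_regOn X hQ a hy
    obtain ⟨d, hd⟩ := exists_hasVal (P.restrict F0) (X.hdeg0 _) (hreg _ hP)
    have hdA : d ∈ A :=
      value_mem' R0 ⟨co X hQ a (y : F), co_mem X hQ a y.2⟩ Q hQ hreg _ hP d hd
    exact ⟨⟨d, hdA⟩, hd,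
      red_value R0 ⟨co X hQ a (y : F), co_mem X hQ a y.2⟩ Q hQ hreg _ hP ⟨d, hdA⟩ hd⟩
  choose d hd hdb using hval
  -- the value of `y` at `P`
  have hsum : HasVal P (y : F)
      ((∑ a ∈ Finset.range X.m, d a * c0 ^ a : A) : L) := by
    have h1 := X.H.sum_coord (wU_ne X hQ) (σ_wU X hQ) (y : F)
    rw [← h1]
    push_cast
    refine HasVal.sum _ _ _ fun a _ => ?_
    exact ((Torsor.hasVal_algebraMap_iff P _ _).mpr (hd a)).mul (hv0.pow a)
  have hceq : c = ((∑ a ∈ Finset.range X.m, d a * c0 ^ a : A) : L) := HasVal.unique hc hsum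
  refine ⟨hceq ▸ (∑ a ∈ Finset.range X.m, d a * c0 ^ a : A).2, ?_⟩
  have hcA : (⟨c, hceq ▸ (∑ a ∈ Finset.range X.m, d a * c0 ^ a : A).2⟩ : A) =
      ∑ a ∈ Finset.range X.m, d a * c0 ^ a := Subtype.ext hceq
  rw [hcA, red_eq_sum X.U X.H X.hmk (wU X hQ) (σ_wU X hQ) y, map_sum]
  refine HasVal.sum _ _ _ fun a _ => ?_
  rw [map_mul, map_pow]
  refine HasVal.mul ?_ (hb0.pow a)
  rw [Torsor.hasVal_algebraMap_iff, hQ']
  exact hdb a

/-! ### the partial specialisation map -/

open Classical in
/-- **the partial specialisation map upstairs** -/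
def rUp (P : Place L F) : Option (Place k K) :=
  if h : ∃ (Q : Place k κ) (hQ : Q ∈ R0.good) (Q' : Place k K), SpecAt X hQ P Q' then
    some h.choose_spec.choose_spec.choose
  else none

theorem rUp_eq_some_iff (P : Place L F) (Q' : Place k K) :
    rUp X P = some Q' ↔ ∃ (Q : Place k κ) (hQ : Q ∈ R0.good), SpecAt X hQ P Q' := by
  classical
  unfold rUp
  split_ifs with h
  · constructor
    · intro h1
      have h2 : h.choose_spec.choose_spec.choose = Q' := Option.some.inj h1
      exact ⟨h.choose, h.choose_spec.choose, h2 ▸ h.choose_spec.choose_spec.choose_spec⟩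
    · rintro ⟨Q, hQ, hs⟩
      congr 1
      exact specAt_unique X _ hQ h.choose_spec.choose_spec.choose_spec hs
  · constructor
    · intro h1
      exact absurd h1 (by simp)
    · rintro ⟨Q, hQ, hs⟩
      exact absurd ⟨Q, hQ, Q', hs⟩ h

/-- the discs upstairs lie over the discs of the base -/
theorem rUp_restrict {P : Place L F} {Q' : Place k K} (h : rUp X P = some Q') :
    Q'.restrict κ ∈ R0.good ∧ R0.r (P.restrict F0) = some (Q'.restrict κ) := by
  obtain ⟨Q, hQ, hQ', hP, -⟩ := (rUp_eq_some_iff X P Q').mp h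
  rw [hQ']
  exact ⟨hQ, hP⟩

/-- totality over the good discs -/
theorem exists_rUp {Q : Place k κ} (hQ : Q ∈ R0.good) {P : Place L F}
    (hP : R0.r (P.restrict F0) = some Q) :
    ∃ Q' : Place k K, rUp X P = some Q' ∧ Q'.restrict κ = Q := by
  obtain ⟨Q', hs⟩ := exists_specAt X hQ hP
  exact ⟨Q', (rUp_eq_some_iff X P Q').mpr ⟨Q, hQ, hs⟩, hs.1⟩

/-- existence on the fibres -/
theorem exists_rUp_over {Q : Place k κ} (hQ : Q ∈ R0.good) {P0 : Place L F0}
    (hP0 : R0.r P0 = some Q) {Q' : Place k K} (hQ' : Q'.restrict κ = Q) :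
    ∃ P : Place L F, P.restrict F0 = P0 ∧ rUp X P = some Q' := by
  obtain ⟨P, hP, hs⟩ := exists_over X hQ hP0 hQ'
  exact ⟨P, hP, (rUp_eq_some_iff X P Q').mpr ⟨Q, hQ, hs⟩⟩

/-- uniqueness on the fibres -/
theorem rUp_unique_over {P1 P2 : Place L F} (h12 : P1.restrict F0 = P2.restrict F0)
    {Q' : Place k K} (h1 : rUp X P1 = some Q') (h2 : rUp X P2 = some Q') : P1 = P2 := by
  obtain ⟨Q1, hQ1, hs1⟩ := (rUp_eq_some_iff X P1 Q').mp h1
  obtain ⟨Q2, hQ2, hs2⟩ := (rUp_eq_some_iff X P2 Q').mp h2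
  obtain rfl : Q1 = Q2 := hs1.1.symm.trans hs2.1
  exact unique_over X hQ1 h12 hs1 hs2

/-- **the specialisation map upstairs is the canonical one** -/
theorem isSpecMap_rUp : IsSpecMap R0 X.U.B (rUp X) := by
  intro P Q'
  constructor
  · intro h
    obtain ⟨Q, hQ, hs⟩ := (rUp_eq_some_iff X P Q').mp h
    have hQ' := hs.1
    subst hQ'
    exact ⟨hQ, hs.2.1, fun y hy c hc => specAt_value X hQ hs y hy hc⟩
  · rintro ⟨hgood, hdisc, hval⟩
    have hQ : Q'.restrict κ ∈ R0.good := hgood
    obtain ⟨c0, hc0⟩ := exists_hasVal P (X.hdegF P) (regOver_wU X hQ P hdisc)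
    obtain ⟨hcA, hb⟩ := hval (wU X hQ : X.U.B.O) (regOver_wU X hQ) c0 hc0
    exact (rUp_eq_some_iff X P Q').mpr ⟨_, hQ, rfl, hdisc, ⟨c0, hcA⟩, hc0, hb⟩

end Fermat.Agent.S43.LG1.C2.Spec

end
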