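/-
PROJECT R (row 37 by S43), gate G, block C2 = THE RELATIVE LIFT (helper10): POLE CONTROL UPSTAIRS AND THE
SMOOTH REDUCTION `smoothUp X : SmoothRed A π F K`.

* `red_regular_of_regOver` : a function of `B.O` regular over the WHOLE disc of a good `Q` has a
  reduction regular at every place over `Q` (coordinates + `S34/NodalDisc.red_regular` of the base);
* `pc_rUp` : **pole control at ONE disc upstairs**: the poles in the other discs over `Q` are cleared
  by a product of functions `w - w(P)`, `w` the local Kummer unit;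
* `test_rUp` : the test functions = the good parameters of the base;
* `smoothUp` : the `SmoothRed` upstairs (branch `X.U.B`, map `rUp X`, good set `goodOver R0 K`).
-/
import Mathlib
import Fermat.Agent.S43.LG1.C2.Spec
import Fermat.Agent.S43.LG1.C2.AbsCompat

set_option autoImplicit false
set_option linter.unusedSectionVars false

noncomputable section

namespace Fermat.Agent.S43.LG1.C2.PoleControl

open AlgebraicCurve Fermat.Agent.S24.Ord Fermat.Agent.S34.NodalDefs Fermat.Agent.S34.NodalDisc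
  Fermat.Agent.S34.Generic.Dich
  Fermat.Agent.S43.LG1.C2.Seam Fermat.Agent.S43.LG1.C2.Proj Fermat.Agent.S43.LG1.C2.Kummer
  Fermat.Agent.S43.LG1.C2.Branch Fermat.Agent.S43.LG1.C2.LocalUnit Fermat.Agent.S43.LG1.C2.Disc
  Fermat.Agent.S43.LG1.C2.Spec

variable {L : Type*} [Field L] {k : Type*} [Field k] {A : ValuationSubring L} {π : A →+* k}
variable {F0 : Type*} [Field F0] [Algebra L F0] {F : Type*} [Field F] [Algebra L F]
variable [Algebra F0 F] [IsScalarTower L F0 F] [Algebra.IsIntegral F0 F]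
variable {κ : Type*} [Field κ] [Algebra k κ] {K : Type*} [Field K] [Algebra k K]
variable [Algebra κ K] [IsScalarTower k κ K] [Algebra.IsIntegral κ K]
variable [HasPrincipalDivisors L F0] {R0 : SmoothRed A π F0 κ} (X : Ctx R0 F K)

/-! ### regularity over a whole disc -/

/-- the reduced local unit is regular at the places over `Q` -/
theorem wbar_regular {Q : Place k κ} (hQ : Q ∈ R0.good) {Q' : Place k K}
    (hQ' : Q'.restrict κ = Q) : Q'.adicValuation (wbar X hQ) ≤ 1 :=
  Torsor.adicValuation_eigen_le_one (HB X) (wbar_ne X hQ) (σbar_wbar X hQ) Q (bar_ht X hQ) hQ'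

/-- **a function regular over the whole disc of `Q` has a reduction regular over `Q`** -/
theorem red_regular_of_regOver {Q : Place k κ} (hQ : Q ∈ R0.good) (y : X.U.B.O)
    (hy : RegOver (F := F) R0 Q (y : F)) {Q' : Place k K} (hQ' : Q'.restrict κ = Q) :
    Q'.adicValuation (X.U.B.red y) ≤ 1 := by
  rw [red_eq_sum X.U X.H X.hmk (wU X hQ) (σ_wU X hQ) y]
  refine Valuation.map_sum_le _ fun a _ => ?_
  rw [map_mul, map_pow]
  refine mul_le_one' ?_ (pow_le_one' (wbar_regular X hQ hQ') a)
  rw [Torsor.adicValuation_algebraMap_le_one_iff, hQ']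
  exact red_regular R0 ⟨co X hQ a (y : F), co_mem X hQ a y.2⟩ Q hQ (co_regOn X hQ a hy)

/-! ### a function with a nonzero value is a unit at the place -/

theorem adicValuation_eq_one_of_hasVal {c : Type*} [Field c] {E : Type*} [Field E] [Algebra c E]
    {P : Place c E} {f : E} {d : c} (h : HasVal P f d) (hd : d ≠ 0) : P.adicValuation f = 1 := by
  have h1 : P.adicValuation (algebraMap c E d) = 1 := adicValuation_algebraMap P hd
  have h2 : f = (f - algebraMap c E d) + algebraMap c E d := by ring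
  rw [h2, Valuation.map_add_eq_of_lt_right]
  · exact h1
  · rw [h1]; exact h

/-! ### pole control at one disc -/

section PC

variable [HasPrincipalDivisors L F]

/-- **pole control at one disc upstairs** -/
theorem pc_rUp {Q' : Place k K} (hgood : Q'.restrict κ ∈ R0.good) (h : X.U.B.O)
    (hreg : ∀ P : Place L F, rUp X P = some Q' → P.adicValuation ((h : X.U.B.O) : F) ≤ 1) :
    Q'.adicValuation (X.U.B.red h) ≤ 1 := by
  classical
  obtain ⟨Q, hQ'⟩ : ∃ Q, Q'.restrict κ = Q := ⟨_, rfl⟩
  have hQ : Q ∈ R0.good := hQ' ▸ hgood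
  rcases eq_or_ne ((h : X.U.B.O) : F) 0 with h0 | h0
  · have : h = 0 := Subtype.ext h0
    rw [this, map_zero, map_zero]
    exact zero_le_one
  -- the poles of `h` over the disc of `Q`
  obtain ⟨D, hD, -⟩ := HasPrincipalDivisors.exists_divisor (K := L) _ h0
  set T : Finset (Place L F) :=
    D.support.filter fun P => R0.r (P.restrict F0) = some Q ∧ P.ord ((h : X.U.B.O) : F) < 0 with hT
  have hTd : ∀ P ∈ T, R0.r (P.restrict F0) = some Q := fun P hP => (Finset.mem_filter.mp hP).2.1
  have hTneg : ∀ P ∈ T, P.ord ((h : X.U.B.O) : F) < 0 := fun P hP => (Finset.mem_filter.mp hP).2.2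
  have hTof : ∀ P : Place L F, R0.r (P.restrict F0) = some Q → P.ord ((h : X.U.B.O) : F) < 0 →
      P ∈ T := by
    intro P h1 h2
    rw [hT, Finset.mem_filter, Finsupp.mem_support_iff, hD]
    exact ⟨ne_of_lt h2, h1, h2⟩
  -- the value of the reduced local unit at `Q'`
  obtain ⟨γ', hγ'⟩ := exists_wbar_val X hQ hQ'
  -- the values of the local unit at the poles
  have hval : ∀ P : Place L F, R0.r (P.restrict F0) = some Q →
      ∃ c : A, HasVal P ((wU X hQ : X.U.B.O) : F) (c : L) := by
    intro P hP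
    obtain ⟨τ, hτ, -⟩ := exists_TU_val X hQ hP
    obtain ⟨c, hc, -⟩ := exists_wU_val X hQ hP hτ
    exact ⟨c, hc⟩
  choose! cv hcv using hval
  -- at a pole the reduced value differs from `γ'`
  have hne : ∀ P ∈ T, π (cv P) ≠ γ' := by
    intro P hP heq
    obtain ⟨Q'', hs⟩ := exists_specAt X hQ (hTd P hP)
    have hs' : SpecAt X hQ P Q' := ⟨hQ', hTd P hP, cv P, hcv P (hTd P hP), heq ▸ hγ'⟩
    have hr : rUp X P = some Q' := (rUp_eq_some_iff X P Q').mpr ⟨Q, hQ, hs'⟩
    have h1 := hreg P hr
    have h2 := (ord_nonneg_iff P h0).mpr h1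
    have h3 := hTneg P hP
    omega
  -- the factors
  set fac : Place L F → X.U.B.O := fun P => (wU X hQ : X.U.B.O) - constHom X.U.B (cv P) with hfac
  have hfac_coe : ∀ P, ((fac P : X.U.B.O) : F) =
      ((wU X hQ : X.U.B.O) : F) - algebraMap L F (cv P : L) := fun P => rfl
  have hfac_red : ∀ P, X.U.B.red (fac P) = wbar X hQ - algebraMap k K (π (cv P)) := by
    intro P
    rw [hfac, map_sub, red_constHom]
    rfl
  have hfac_unit : ∀ P ∈ T, Q'.adicValuation (X.U.B.red (fac P)) = 1 := by
    intro P hP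
    rw [hfac_red]
    have hv : HasVal Q' (wbar X hQ - algebraMap k K (π (cv P))) (γ' - π (cv P)) :=
      hγ'.sub (hasVal_const Q' _)
    exact adicValuation_eq_one_of_hasVal hv (sub_ne_zero.mpr (hne P hP).symm)
  have hfac_reg : ∀ (P P' : Place L F), R0.r (P'.restrict F0) = some Q →
      P'.adicValuation ((fac P : X.U.B.O) : F) ≤ 1 := by
    intro P P' hP'
    rw [hfac_coe]
    exact Valuation.map_sub_le _ (regOver_wU X hQ P' hP') (adicValuation_const_le_one P' _)
  set δ : X.U.B.O := ∏ P ∈ T, fac P with hδ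
  have hδ_red : Q'.adicValuation (X.U.B.red δ) = 1 := by
    rw [hδ, map_prod, map_prod]
    exact Finset.prod_eq_one hfac_unit
  have hδ_ne : X.U.B.red δ ≠ 0 := by
    intro h
    rw [h, map_zero] at hδ_red
    exact zero_ne_one hδ_red
  have hδ0 : ((δ : X.U.B.O) : F) ≠ 0 := coe_ne_zero_of_red_ne_zero X.U.B hδ_ne
  have hδ_coe : ((δ : X.U.B.O) : F) = ∏ P ∈ T, ((fac P : X.U.B.O) : F) := by
    rw [hδ]
    exact map_prod X.U.B.O.subtype _ _
  have hδ_reg : ∀ P' : Place L F, R0.r (P'.restrict F0) = some Q →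
      P'.adicValuation ((δ : X.U.B.O) : F) ≤ 1 := by
    intro P' hP'
    rw [hδ_coe, map_prod]
    exact Finset.prod_le_one' fun P _ => hfac_reg P P' hP'
  have hδ_pos : ∀ P' ∈ T, 1 ≤ P'.ord ((δ : X.U.B.O) : F) := by
    intro P' hP'
    have hlt : P'.adicValuation ((δ : X.U.B.O) : F) < 1 := by
      rw [hδ_coe, map_prod, ← Finset.mul_prod_erase T _ hP']
      have h1 : P'.adicValuation ((fac P' : X.U.B.O) : F) < 1 := by
        rw [hfac_coe]
        exact hcv P' (hTd P' hP')
      have h2 : ∏ P ∈ T.erase P', P'.adicValuation ((fac P : X.U.B.O) : F) ≤ 1 :=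
        Finset.prod_le_one' fun P _ => hfac_reg P P' (hTd P' hP')
      calc P'.adicValuation ((fac P' : X.U.B.O) : F) *
            ∏ P ∈ T.erase P', P'.adicValuation ((fac P : X.U.B.O) : F)
          ≤ P'.adicValuation ((fac P' : X.U.B.O) : F) * 1 := mul_le_mul' le_rfl h2
        _ < 1 := by rw [mul_one]; exact h1
    have := (ord_pos_iff P' hδ0).mpr hlt
    omega
  -- the exponent
  set n : ℕ := ∑ P ∈ T, (-(P.ord ((h : X.U.B.O) : F))).toNat with hn
  have hn_ge : ∀ P ∈ T, -(P.ord ((h : X.U.B.O) : F)) ≤ (n : ℤ) := by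
    intro P hP
    have h1 : (-(P.ord ((h : X.U.B.O) : F))).toNat ≤ n :=
      Finset.single_le_sum (f := fun P : Place L F => (-(P.ord ((h : X.U.B.O) : F))).toNat)
        (fun _ _ => Nat.zero_le _) hP
    have h2 : -(P.ord ((h : X.U.B.O) : F)) ≤ ((-(P.ord ((h : X.U.B.O) : F))).toNat : ℤ) :=
      Int.self_le_toNat _
    exact h2.trans (by exact_mod_cast h1)
  -- `y = h δ^n` is regular over the whole disc
  set y : X.U.B.O := h * δ ^ n with hy
  have hy_coe : ((y : X.U.B.O) : F) = ((h : X.U.B.O) : F) * ((δ : X.U.B.O) : F) ^ n := rfl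
  have hy_reg : RegOver (F := F) R0 Q ((y : X.U.B.O) : F) := by
    intro P' hP'
    have hy0 : ((y : X.U.B.O) : F) ≠ 0 := by
      rw [hy_coe]; exact mul_ne_zero h0 (pow_ne_zero n hδ0)
    refine (ord_nonneg_iff P' hy0).mp ?_
    rw [hy_coe, P'.ord_mul h0 (pow_ne_zero n hδ0), Fermat.Agent.S18.CoreOrd.ord_pow]
    have hδnn : 0 ≤ P'.ord ((δ : X.U.B.O) : F) := (ord_nonneg_iff P' hδ0).mpr (hδ_reg P' hP')
    by_cases hneg : P'.ord ((h : X.U.B.O) : F) < 0
    · have hmem := hTof P' hP' hneg
      have h1 := hδ_pos P' hmem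
      have h2 := hn_ge P' hmem
      nlinarith
    · have : 0 ≤ (n : ℤ) * P'.ord ((δ : X.U.B.O) : F) := mul_nonneg (by positivity) hδnn
      omega
  have hy_red := red_regular_of_regOver X hQ y hy_reg hQ'
  rw [hy, map_mul, map_pow, map_mul, map_pow, hδ_red, one_pow, mul_one] at hy_red
  exact hy_red

/-! ### the test functions -/

omit [HasPrincipalDivisors L F] in
open Classical in
/-- **the test functions**: the good parameters of the base -/
theorem test_rUp {Q' : Place k K} {P : Place L F} (hP : rUp X P = some Q') :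
    ∃ a : X.U.B.Oˣ, Q'.ord (X.U.B.red (a : X.U.B.O)) = 1 ∧
      ∀ P' : Place L F, rUp X P' = some Q' →
        P'.ord (((a : X.U.B.Oˣ) : X.U.B.O) : F) = if P' = P then 1 else 0 := by
  obtain ⟨hQ, hPd⟩ := rUp_restrict X hP
  obtain ⟨g, hg, hz⟩ := exists_goodParam X.x X.hdeg0 hQ hPd
  have hred : X.U.B.red (baseHom X.U g) ≠ 0 := by
    rw [red_baseHom]
    exact (map_ne_zero (algebraMap κ K)).mpr hg.red_ne_zero
  refine ⟨unitOfRed X.U.B _ hred, ?_, ?_⟩
  · rw [coe_unitOfRed, red_baseHom, Q'.ord_restrict (F := κ), ramificationIndex_bar X hQ rfl,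
      hg.ord_one]
    simp
  · intro P' hP'
    obtain ⟨-, hP'd⟩ := rUp_restrict X hP'
    rw [coe_unitOfRed, coe_baseHom, P'.ord_restrict (F := F0), X.hun P' _ hQ hP'd,
      hg.ord_eq_ite hPd hz (P'.restrict F0) hP'd]
    by_cases hPP : P' = P
    · rw [if_pos hPP, if_pos (by rw [hPP])]
      simp
    · rw [if_neg hPP, if_neg]
      · simp
      · intro hres
        exact hPP (rUp_unique_over X hres hP' hP)

/-! ### the smooth reduction upstairs -/

/-- **the smooth reduction upstairs** -/
def smoothUp : SmoothRed A π F K where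
  toBranch := X.U.B
  r := rUp X
  good := goodOver R0 K
  compat u D hD Q' hQ' := by
    classical
    exact AbsCompat.compat_of_pc_test (pc_rUp X hQ') (fun P hP => test_rUp X hP) u D hD

@[simp] theorem smoothUp_toBranch : (smoothUp X).toBranch = X.U.B := rfl

@[simp] theorem smoothUp_r : (smoothUp X).r = rUp X := rfl

@[simp] theorem smoothUp_good : (smoothUp X).good = goodOver R0 K := rfl

end PC

end Fermat.Agent.S43.LG1.C2.PoleControl

end
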