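/-
PROJECT R (row 37 by S43), gate G, block C2 = THE RELATIVE LIFT (helper10): POLE CONTROL AND GLUING AT ALL
PLACES, ONE BRANCH AT A TIME (the ingredients of `pcg` upstairs).

For `h ∈ B.O` and `a < m` put `e_a = proj a h ∈ B.O`; then `(e_a)^m = algebraMap w_a` with `w_a ∈ R0.O`.

* `exists_translate`, `exists_pole_of_proj` : a pole of `e_a` at `P` gives a pole of `h` at a place with
  the same restriction to `F0`;
* `exists_base_of_proj_pow` : the element `w_a`;
* `red_proj_regular` : if `red w_a` is regular at `Q' ∩ κ` then `red e_a` is regular at `Q'`;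
* `red_eq_sum_proj` : `red h = ∑_a red e_a`;
* `hasVal_of_fixed` : **gluing**: at a place `Q'` of `K` FIXED by `σbar` where all `red e_a` are regular,
  `red h` takes the value of `red e_0` (the components `a ≠ 0` vanish there).
-/
import Mathlib
import Fermat.Agent.S43.LG1.C2.PoleControl

set_option autoImplicit false
set_option linter.unusedSectionVars false

noncomputable section

namespace Fermat.Agent.S43.LG1.C2.Comp

open AlgebraicCurve Fermat.Agent.S24.Ord Fermat.Agent.S34.NodalDefs Fermat.Agent.S34.NodalDisc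
  Fermat.Agent.S34.Generic.Dich
  Fermat.Agent.S43.LG1.C2.Seam Fermat.Agent.S43.LG1.C2.Proj Fermat.Agent.S43.LG1.C2.Kummer
  Fermat.Agent.S43.LG1.C2.Branch Fermat.Agent.S43.LG1.C2.LocalUnit Fermat.Agent.S43.LG1.C2.Disc
  Fermat.Agent.S43.LG1.C2.Spec

variable {L : Type*} [Field L] {k : Type*} [Field k] {A : ValuationSubring L} {π : A →+* k}
variable {F0 : Type*} [Field F0] [Algebra L F0] {F : Type*} [Field F] [Algebra L F]
variable [Algebra F0 F] [IsScalarTower L F0 F] [Algebra.IsIntegral F0 F]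
variable {κ : Type*} [Field κ] [Algebra k κ] {K : Type*} [Field K] [Algebra k K]
variable [Algebra κ K] [IsScalarTower k κ K] [Algebra.IsIntegral κ K]

/-! ### poles of the eigen-projections -/

/-- the valuation of a conjugate at `P` is the valuation of the function at a translate of `P` -/
theorem exists_translate (σ : F ≃ₐ[F0] F) (b : ℕ) (h : F) (P : Place L F) :
    ∃ P'' : Place L F, P''.restrict F0 = P.restrict F0 ∧
      P''.adicValuation h = P.adicValuation ((σ ^ b) h) := by
  induction b generalizing P with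
  | zero => exact ⟨P, rfl, by simp⟩
  | succ b ih =>
    obtain ⟨P', hP', hres⟩ := exists_sP_eq σ P
    obtain ⟨P'', hres'', hval⟩ := ih P'
    refine ⟨P'', hres''.trans hres, ?_⟩
    rw [hval, pow_succ_apply, ← hP', adicValuation_sP]

/-- a pole of `e_a h` at `P` gives a pole of `h` over the same place of `F0` -/
theorem exists_pole_of_proj (σ : F ≃ₐ[F0] F) (m : ℕ) (ζ : L) (a : ℕ) (h : F) (P : Place L F)
    (hp : ¬ P.adicValuation (proj σ m ζ a h) ≤ 1) :
    ∃ P'' : Place L F, P''.restrict F0 = P.restrict F0 ∧ ¬ P''.adicValuation h ≤ 1 := by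
  by_contra hcon
  push Not at hcon
  apply hp
  rw [← mem_iff]
  refine Proj.proj_mem P.toValuationSubring.toSubring (P.algebraMap_mem' _) (P.algebraMap_mem' _) a
    fun b _ => ?_
  show (σ ^ b) h ∈ P.toValuationSubring
  rw [mem_iff]
  obtain ⟨P'', hres, hval⟩ := exists_translate σ b h P
  rw [← hval]
  exact hcon P'' hres

variable [HasPrincipalDivisors L F0] {R0 : SmoothRed A π F0 κ} (X : Ctx R0 F K)

/-! ### the eigen-components of an element of the Gauss ring -/

/-- the `a`-th eigen-component, as an element of `B.O` -/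
def comp (a : ℕ) (h : X.U.B.O) : X.U.B.O :=
  ⟨proj X.σ X.m X.ζ a (h : F), Branch.proj_mem X.U X.H X.hmk a h.2⟩

@[simp] theorem coe_comp (a : ℕ) (h : X.U.B.O) :
    ((comp X a h : X.U.B.O) : F) = proj X.σ X.m X.ζ a (h : F) := rfl

/-- `h = ∑_a e_a h` in `B.O` -/
theorem sum_comp (h : X.U.B.O) : ∑ a ∈ Finset.range X.m, comp X a h = h := by
  apply Subtype.ext
  rw [AddSubmonoidClass.coe_finsetSum]
  exact sum_proj X.H.hζ X.H.hm (h : F)

/-- `red h = ∑_a red (e_a h)` -/
theorem red_eq_sum_proj (h : X.U.B.O) :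
    X.U.B.red h = ∑ a ∈ Finset.range X.m, X.U.B.red (comp X a h) := by
  conv_lhs => rw [← sum_comp X h]
  rw [map_sum]

/-- `σbar (red e_a) = ζbar^a red e_a` -/
theorem σbar_red_comp (a : ℕ) (h : X.U.B.O) :
    X.U.σbar (X.U.B.red (comp X a h)) =
      algebraMap k K (redζ (π := π) X.H ^ a) * X.U.B.red (comp X a h) := by
  have h1 : X.U.B.red (comp X a h) = proj X.U.σbar X.m (redζ (π := π) X.H) a (X.U.B.red h) :=
    red_proj X.U X.H X.hmk a h
  rw [h1]
  exact σ_proj (HB X).hζ (HB X).hσ a _

/-- the element `w_a` of `R0.O` with `(e_a h)^m = w_a` -/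
theorem exists_base_of_proj_pow (a : ℕ) (h : X.U.B.O) :
    ∃ w0 : R0.O, baseHom X.U w0 = comp X a h ^ X.m := by
  obtain ⟨w0, hw0⟩ := X.H.fixed _ (σ_proj_pow X.H.hζ X.H.hσ a (h : F))
  have hmem : w0 ∈ R0.O := by
    rw [← mem_base_iff X.U, hw0]
    exact X.U.B.O.pow_mem (comp X a h).2 _
  exact ⟨⟨w0, hmem⟩, Subtype.ext hw0⟩

/-- the element `h_0` of `R0.O` with `e_0 h = h_0` -/
theorem exists_base_of_proj_zero (h : X.U.B.O) : ∃ h0 : R0.O, baseHom X.U h0 = comp X 0 h := by
  have hfix : X.σ (proj X.σ X.m X.ζ 0 (h : F)) = proj X.σ X.m X.ζ 0 (h : F) := by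
    rw [σ_proj X.H.hζ X.H.hσ, pow_zero, map_one, one_mul]
  obtain ⟨h0, hh0⟩ := X.H.fixed _ hfix
  have hmem : h0 ∈ R0.O := by
    rw [← mem_base_iff X.U, hh0]
    exact (comp X 0 h).2
  exact ⟨⟨h0, hmem⟩, Subtype.ext hh0⟩

/-- **regularity of `red e_a` from regularity of `red w_a`** -/
theorem red_proj_regular (a : ℕ) (h : X.U.B.O) {w0 : R0.O} (hw0 : baseHom X.U w0 = comp X a h ^ X.m)
    {Q' : Place k K} (hreg : (Q'.restrict κ).adicValuation (R0.red w0) ≤ 1) :
    Q'.adicValuation (X.U.B.red (comp X a h)) ≤ 1 := by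
  have h1 : X.U.B.red (comp X a h) ^ X.m = algebraMap κ K (R0.red w0) := by
    rw [← map_pow, ← hw0, red_baseHom]
  have h2 : Q'.adicValuation (X.U.B.red (comp X a h)) ^ X.m ≤ 1 := by
    rw [← map_pow, h1, Torsor.adicValuation_algebraMap_le_one_iff]
    exact hreg
  exact (pow_le_one_iff X.H.m_ne_zero).mp h2

/-- regularity of `red h` from regularity of all `red e_a` -/
theorem red_regular_of_comp (h : X.U.B.O) {Q' : Place k K}
    (hreg : ∀ a ∈ Finset.range X.m, Q'.adicValuation (X.U.B.red (comp X a h)) ≤ 1) :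
    Q'.adicValuation (X.U.B.red h) ≤ 1 := by
  rw [red_eq_sum_proj X h]
  exact Valuation.map_sum_le _ hreg

/-! ### gluing at a place fixed by `σbar` -/

/-- **at a place of `K` fixed by `σbar`, `red h` takes the value of `red (e_0 h)`** -/
theorem hasVal_of_fixed (h : X.U.B.O) {Q' : Place k K}
    (hfix : ∀ x : K, Q'.adicValuation (X.U.σbar x) = Q'.adicValuation x)
    (hreg : ∀ a ∈ Finset.range X.m, Q'.adicValuation (X.U.B.red (comp X a h)) ≤ 1)
    {γ0 : k} (hγ : HasVal Q' (X.U.B.red (comp X 0 h)) γ0) : HasVal Q' (X.U.B.red h) γ0 := by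
  classical
  have hm0 := X.H.m_ne_zero
  have hterm : ∀ a ∈ Finset.range X.m,
      HasVal Q' (X.U.B.red (comp X a h)) (if a = 0 then γ0 else 0) := by
    intro a ha
    split_ifs with h0
    · subst h0; exact hγ
    · obtain ⟨v, hv⟩ := exists_hasVal Q' (X.hdegK Q') (hreg a ha)
      -- the value of `σbar x_a`, computed in two ways
      have h1 : HasVal Q' (X.U.σbar (X.U.B.red (comp X a h))) v := by
        unfold HasVal at hv ⊢
        have : X.U.σbar (X.U.B.red (comp X a h)) - algebraMap k K v =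
            X.U.σbar (X.U.B.red (comp X a h) - algebraMap k K v) := by
          rw [map_sub, σ_const]
        rw [this, hfix]
        exact hv
      have h2 : HasVal Q' (X.U.σbar (X.U.B.red (comp X a h))) (redζ (π := π) X.H ^ a * v) := by
        rw [σbar_red_comp]
        exact hv.const_mul _
      have h3 : v = redζ (π := π) X.H ^ a * v := HasVal.unique h1 h2
      have hne : redζ (π := π) X.H ^ a ≠ 1 :=
        (HB X).hζ.pow_ne_one_of_pos_of_lt h0 (Finset.mem_range.mp ha)
      have hv0 : v = 0 := by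
        by_contra hv0
        apply hne
        have h4 : redζ (π := π) X.H ^ a * v = 1 * v := by rw [one_mul]; exact h3.symm
        exact mul_right_cancel₀ hv0 h4
      rw [← hv0]
      exact hv
  have hsum := HasVal.sum (P := Q') (Finset.range X.m) (fun a => X.U.B.red (comp X a h))
    (fun a => if a = 0 then γ0 else 0) hterm
  rw [← red_eq_sum_proj X h, Finset.sum_ite_eq' (Finset.range X.m) 0,
    if_pos (Finset.mem_range.mpr (Nat.pos_of_ne_zero hm0))] at hsum
  exact hsum

end Fermat.Agent.S43.LG1.C2.Comp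

end
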