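import Mathlib
import Fermat.Agent.S34.NodalDefs
import Fermat.Agent.S34.NodalRigidOfRiemann
import Fermat.Agent.S18.NonSpecialAdapter

/-!
# PROJECT R (S43), gate, C2 (relative lift along `E'/E''`), items (e) + (f): the count

`E'/E''` of degree `n`, unramified in characteristic `0`; the residue fields `F_i/K_i` of the two
Gauss rings have degree `n`, are tame, and are totally ramified over each of the `s` nodes (one
place over each node, `(I2)`).  With `g'`, `g₀`, `g_k`, `g₁`, `g₂` the Riemann genera of `E'`, `E''`,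
`K_1 = K_2 = κ`, `F_1`, `F_2`:

* (HE)  `g' - 1 = n (g₀ - 1)`                       (Hurwitz, characteristic `0`, étale);
* (Hi)  `n (2 g_k - 2) + s (n - 1) ≤ 2 g_i - 2`      (Hurwitz, tame, lower bound: only the
  ramification at the `s` node places is counted);
* (NC)'' `g₀ + 1 ≤ 2 g_k + s`                        (the count of the nodal datum of `E''`).

Then (NC)': `g' ≤ g₁ + (g₂ + s - 1)`, which is what `NodalCore.nodal_core` /
`CoreZOfInertia(Tw).principal_of_inertia(_tw)` consume through `RiemannGe L E' (g₁ + m₂)` and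
`NodalRigid k F₁ F₂ e₂' g₁ m₂`, `m₂ = g₂ + s - 1`.

* `genus_le_of_hurwitz` : the arithmetic;
* `riemannGe_and_nodalRigid` : the two hypotheses of the nodal core for `E'`, from Riemann's theorem
  on `E'`, `F_1`, `F_2`, the injectivity of the nodes on the second component and the count.
-/

set_option autoImplicit false

noncomputable section

namespace Fermat.Agent.S43.LG1.C2.Count

open AlgebraicCurve Fermat.Agent.S18.NonSpecial Fermat.Agent.S18.CoreDefs
open Fermat.Agent.S34.NodalDefs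

/-- **(NC)' from the two Hurwitz relations and (NC)''.** -/
theorem genus_le_of_hurwitz {n g' g0 gk g1 g2 s : ℕ} (hs : 0 < s)
    (hE : (g' : ℤ) - 1 ≤ n * ((g0 : ℤ) - 1))
    (h1 : (n : ℤ) * (2 * gk - 2) + s * ((n : ℤ) - 1) ≤ 2 * g1 - 2)
    (h2 : (n : ℤ) * (2 * gk - 2) + s * ((n : ℤ) - 1) ≤ 2 * g2 - 2)
    (hNC : (g0 : ℤ) + 1 ≤ gk + gk + s) :
    g' ≤ g1 + (g2 + s - 1) := by
  have hn : (0 : ℤ) ≤ n := Int.natCast_nonneg n
  have hmul : (n : ℤ) * ((g0 : ℤ) - 1) ≤ n * ((gk : ℤ) + gk + s - 2) :=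
    mul_le_mul_of_nonneg_left (by linarith) hn
  have key : (g' : ℤ) ≤ g1 + g2 + s - 1 := by nlinarith
  have hs' : (1 : ℤ) ≤ s := by exact_mod_cast hs
  zify [show 1 ≤ g2 + s by omega]
  linarith

variable {L : Type*} [Field L] {k : Type*} [Field k]
variable {FL : Type*} [Field FL] [Algebra L FL]
variable {F1 : Type*} [Field F1] [Algebra k F1] {F2 : Type*} [Field F2] [Algebra k F2]

/-- **The two numerical hypotheses of the nodal core for `E'`**: Riemann's inequality at the
arithmetic genus `g₁ + m₂` and the generic rigid divisors on the two components. -/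
theorem riemannGe_and_nodalRigid {g' g1 g2 : ℕ} (HL : RiemannHyp L FL g')
    (H1 : RiemannHyp k F1 g1) (H2 : RiemannHyp k F2 g2) {ι : Type*} [Fintype ι] [Nonempty ι]
    (e2 : ι → Place k F2) (he2 : Function.Injective e2)
    (hcount : g' ≤ g1 + (g2 + Fintype.card ι - 1)) :
    RiemannGe L FL (g1 + (g2 + Fintype.card ι - 1)) ∧
      NodalRigid k F1 F2 e2 g1 (g2 + Fintype.card ι - 1) :=
  ⟨Fermat.Agent.S18.NonSpecialAdapter.riemannGe_of_riemannHyp HL hcount,
    Fermat.Agent.S34.NodalRigidOfRiemann.nodalRigid H1 H2 e2 he2⟩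

/-- the same with the count discharged by the two Hurwitz relations and (NC)'' -/
theorem riemannGe_and_nodalRigid_of_hurwitz {n g' g0 gk g1 g2 : ℕ} (HL : RiemannHyp L FL g')
    (H1 : RiemannHyp k F1 g1) (H2 : RiemannHyp k F2 g2) {ι : Type*} [Fintype ι] [Nonempty ι]
    (e2 : ι → Place k F2) (he2 : Function.Injective e2)
    (hE : (g' : ℤ) - 1 ≤ n * ((g0 : ℤ) - 1))
    (h1 : (n : ℤ) * (2 * gk - 2) + (Fintype.card ι : ℤ) * ((n : ℤ) - 1) ≤ 2 * g1 - 2)
    (h2 : (n : ℤ) * (2 * gk - 2) + (Fintype.card ι : ℤ) * ((n : ℤ) - 1) ≤ 2 * g2 - 2)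
    (hNC : (g0 : ℤ) + 1 ≤ gk + gk + Fintype.card ι) :
    RiemannGe L FL (g1 + (g2 + Fintype.card ι - 1)) ∧
      NodalRigid k F1 F2 e2 g1 (g2 + Fintype.card ι - 1) :=
  riemannGe_and_nodalRigid HL H1 H2 e2 he2
    (genus_le_of_hurwitz Fintype.card_pos hE h1 h2 hNC)

end Fermat.Agent.S43.LG1.C2.Count
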