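/-
PROJECT R (row 37 by S43), gate G, block C2 = THE RELATIVE LIFT (helper10): THE NODAL DATUM UPSTAIRS AND
THE THEOREM `liftStatement : Seam.LiftStatement N0 Y`.

`Y : Seam.KummerCover N0 K1 K2 F`, `E : Extra Y` (restriction of places is onto, all places have degree
one, `m`-th roots exist in `L`).  `ctx1 Y E`, `ctx2 Y E` are the two one-branch contexts (same `σ, m, ζ`).

* `nodalUp Y E : GNodalDatum A π F K1 K2 ι` : the two components `smoothUp`, the nodes of `Y`, the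
  admissible pairs `AdmOver N0`; `pcg` by the eigen-components (`C2/Comp`) and the `pcg` of the base;
* `liftStatement`.
-/
import Mathlib
import Fermat.Agent.S43.LG1.C2.Comp

set_option autoImplicit false
set_option linter.unusedSectionVars false

noncomputable section

namespace Fermat.Agent.S43.LG1.C2.Datum

open AlgebraicCurve Fermat.Agent.S24.Ord Fermat.Agent.S34.NodalDefs Fermat.Agent.S34.NodalDisc
  Fermat.Agent.S34.Generic.Dich
  Fermat.Agent.S43.LG1.C2.Seam Fermat.Agent.S43.LG1.C2.Proj Fermat.Agent.S43.LG1.C2.Kummer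
  Fermat.Agent.S43.LG1.C2.Branch Fermat.Agent.S43.LG1.C2.LocalUnit Fermat.Agent.S43.LG1.C2.Disc
  Fermat.Agent.S43.LG1.C2.Spec Fermat.Agent.S43.LG1.C2.PoleControl Fermat.Agent.S43.LG1.C2.Comp

variable {L : Type*} [Field L] {k : Type*} [Field k] {A : ValuationSubring L} {π : A →+* k}
variable {F0 : Type*} [Field F0] [Algebra L F0] {F : Type*} [Field F] [Algebra L F]
variable [Algebra F0 F] [IsScalarTower L F0 F] [Algebra.IsIntegral F0 F]
variable {κ1 : Type*} [Field κ1] [Algebra k κ1] {κ2 : Type*} [Field κ2] [Algebra k κ2]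
variable {K1 : Type*} [Field K1] [Algebra k K1] [Algebra κ1 K1] [IsScalarTower k κ1 K1]
  [Algebra.IsIntegral κ1 K1]
variable {K2 : Type*} [Field K2] [Algebra k K2] [Algebra κ2 K2] [IsScalarTower k κ2 K2]
  [Algebra.IsIntegral κ2 K2]
variable {ι : Type*}

/-! ### `HasValue` and `HasVal` -/

theorem hasValue_iff {Fk : Type*} [Field Fk] [Algebra k Fk] (Q : Place k Fk) (φ : Fk) (γ : k) :
    HasValue Q φ γ ↔ HasVal Q φ γ := by
  unfold HasValue HasVal
  constructor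
  · rintro (h | h)
    · rw [h, sub_self, map_zero]; exact zero_lt_one
    · exact adicValuation_lt_one_of_ord_pos Q h
  · intro h
    by_cases h0 : φ - algebraMap k Fk γ = 0
    · exact Or.inl (sub_eq_zero.mp h0)
    · exact Or.inr ((ord_pos_iff Q h0).mpr h)

theorem ord_nonneg_of_adicValuation_le_one {Fk : Type*} [Field Fk] [Algebra k Fk] (Q : Place k Fk)
    {φ : Fk} (h : Q.adicValuation φ ≤ 1) : 0 ≤ Q.ord φ := by
  rcases eq_or_ne φ 0 with rfl | h0
  · rw [Place.ord_zero]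
  · exact (ord_nonneg_iff Q h0).mpr h

theorem adicValuation_le_one_of_ord_nonneg {Fk : Type*} [Field Fk] [Algebra k Fk] (Q : Place k Fk)
    {φ : Fk} (h : 0 ≤ Q.ord φ) : Q.adicValuation φ ≤ 1 := by
  rcases eq_or_ne φ 0 with rfl | h0
  · rw [map_zero]; exact zero_le_one
  · exact (ord_nonneg_iff Q h0).mp h

/-! ### the extra hypotheses and the two contexts -/

variable {N0 : GNodalDatum A π F0 κ1 κ2 ι}

/-- the hypotheses on places and roots -/
structure Extra (Y : KummerCover N0 K1 K2 F) : Prop where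
  hfib : ∀ P0 : Place L F0, ∃ P : Place L F, P.restrict F0 = P0
  hdeg0 : ∀ P0 : Place L F0, P0.deg = 1
  hdegF : ∀ P : Place L F, P.deg = 1
  hdegκ1 : ∀ Q : Place k κ1, Q.deg = 1
  hdegK1 : ∀ Q : Place k K1, Q.deg = 1
  hdegκ2 : ∀ Q : Place k κ2, Q.deg = 1
  hdegK2 : ∀ Q : Place k K2, Q.deg = 1
  hrootL : ∀ a : L, ∃ b : L, b ^ Y.m = a

variable (Y : KummerCover N0 K1 K2 F) (E : Extra Y)

/-- the cyclic Kummer structure of the cover -/
theorem cyc : Cyc Y.σ Y.m Y.ζ where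
  hζ := Y.hζ
  hm := by
    intro h0
    apply Y.hm
    have h1 : ((Y.m : A) : L) = 0 := by push_cast; exact h0
    have h2 : (Y.m : A) = 0 := Subtype.ext h1
    have h3 := congrArg π h2
    rwa [map_natCast, map_zero] at h3
  hσ := Y.σ_pow
  fixed := Y.fixed

/-- the context of the first branch -/
def ctx1 : Ctx N0.R1 F K1 where
  m := Y.m
  ζ := Y.ζ
  σ := Y.σ
  H := cyc Y
  hmk := Y.hm
  U := Y.U1
  x := Y.x1
  hun := Y.unram1
  hfib := E.hfib
  hdeg0 := E.hdeg0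
  hdegF := E.hdegF
  hdegκ := E.hdegκ1
  hdegK := E.hdegK1
  z := Y.z
  z_ne := Y.z_ne
  σ_z := Y.σ_z
  hrootL := E.hrootL

/-- the context of the second branch -/
def ctx2 : Ctx N0.R2 F K2 where
  m := Y.m
  ζ := Y.ζ
  σ := Y.σ
  H := cyc Y
  hmk := Y.hm
  U := Y.U2
  x := Y.x2
  hun := Y.unram2
  hfib := E.hfib
  hdeg0 := E.hdeg0
  hdegF := E.hdegF
  hdegκ := E.hdegκ2
  hdegK := E.hdegK2
  z := Y.z
  z_ne := Y.z_ne
  σ_z := Y.σ_z
  hrootL := E.hrootL

/-! ### poles downstairs -/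

include E in
/-- a pole of an element of `F0` whose image is a power of an eigen-component of `h` gives a pole
of `h` over the same place -/
theorem exists_pole_over (a n : ℕ) (hn : n ≠ 0) (h : F) (y0 : F0)
    (hy : algebraMap F0 F y0 = proj Y.σ Y.m Y.ζ a h ^ n) {P0 : Place L F0}
    (hP0 : P0.ord y0 < 0) : ∃ P'' : Place L F, P''.restrict F0 = P0 ∧ P''.ord h < 0 := by
  obtain ⟨P, hP⟩ := E.hfib P0
  have he : (0 : ℤ) < (P.ramificationIndex F0 : ℤ) := by
    exact_mod_cast P.ramificationIndex_pos (F := F0)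
  have h1 : P.ord (proj Y.σ Y.m Y.ζ a h ^ n) < 0 := by
    rw [← hy, P.ord_restrict (F := F0), hP]
    exact mul_neg_of_pos_of_neg he hP0
  rw [Fermat.Agent.S18.CoreOrd.ord_pow] at h1
  have h2 : P.ord (proj Y.σ Y.m Y.ζ a h) < 0 := by
    by_contra hcon
    push Not at hcon
    have : 0 ≤ (n : ℤ) * P.ord (proj Y.σ Y.m Y.ζ a h) := mul_nonneg (by positivity) hcon
    omega
  have hne : proj Y.σ Y.m Y.ζ a h ≠ 0 := by
    intro h0
    rw [h0, Place.ord_zero] at h2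
    exact lt_irrefl _ h2
  have h3 : ¬ P.adicValuation (proj Y.σ Y.m Y.ζ a h) ≤ 1 := by
    intro hle
    have := (ord_nonneg_iff P hne).mpr hle
    omega
  obtain ⟨P'', hres, hval⟩ := exists_pole_of_proj Y.σ Y.m Y.ζ a h P h3
  refine ⟨P'', hres.trans hP, ?_⟩
  have hh0 : h ≠ 0 := by
    rintro rfl
    apply hval
    rw [map_zero]
    exact zero_le_one
  by_contra hcon
  push Not at hcon
  exact hval ((ord_nonneg_iff P'' hh0).mp hcon)

/-! ### the nodal datum upstairs -/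

variable [HasPrincipalDivisors L F0] [HasPrincipalDivisors L F]

/-- the places of `F` over the admissible discs lie over the admissible discs of the base -/
theorem base_poles {T1 : Set (Place k κ1)} {T2 : Set (Place k κ2)} {h : F}
    (hp : ∀ P : Place L F, P.ord h < 0 →
      (∃ Q ∈ {Q : Place k K1 | Q.restrict κ1 ∈ T1}, rUp (ctx1 Y E) P = some Q) ∨
      (∃ Q ∈ {Q : Place k K2 | Q.restrict κ2 ∈ T2}, rUp (ctx2 Y E) P = some Q))
    (a n : ℕ) (hn : n ≠ 0) (y0 : F0) (hy : algebraMap F0 F y0 = proj Y.σ Y.m Y.ζ a h ^ n)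
    (P0 : Place L F0) (hP0 : P0.ord y0 < 0) :
    (∃ Q ∈ T1, N0.R1.r P0 = some Q) ∨ (∃ Q ∈ T2, N0.R2.r P0 = some Q) := by
  obtain ⟨P'', hres, hneg⟩ := exists_pole_over Y E a n hn h y0 hy hP0
  rcases hp P'' hneg with ⟨Q, hQ, hr⟩ | ⟨Q, hQ, hr⟩
  · left
    refine ⟨Q.restrict κ1, hQ, ?_⟩
    rw [← hres]
    exact (rUp_restrict (ctx1 Y E) hr).2
  · right
    refine ⟨Q.restrict κ2, hQ, ?_⟩
    rw [← hres]
    exact (rUp_restrict (ctx2 Y E) hr).2

/-- `σbar` fixes a place of `K` which is alone over its restriction -/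
theorem adicValuation_σbar_of_unique {κ : Type*} [Field κ] [Algebra k κ] {K : Type*} [Field K]
    [Algebra k K] [Algebra κ K] [IsScalarTower k κ K] [Algebra.IsIntegral κ K]
    (τ : K ≃ₐ[κ] K) (Q' : Place k K)
    (huniq : ∀ Q'' : Place k K, Q''.restrict κ = Q'.restrict κ → Q'' = Q') (x : K) :
    Q'.adicValuation (τ x) = Q'.adicValuation x := by
  have h1 : sP τ Q' = Q' := huniq _ (restrict_sP τ Q')
  have h2 := adicValuation_sP τ Q' x
  rwa [h1] at h2

variable [HasPrincipalDivisors k K1] [HasPrincipalDivisors k K2]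

/-- the complement of the good set upstairs is finite -/
theorem finite_compl_goodOver {κ : Type*} [Field κ] [Algebra k κ] {K : Type*} [Field K]
    [Algebra k K] [Algebra κ K] [IsScalarTower k κ K] [Algebra.IsIntegral κ K]
    [HasPrincipalDivisors k K] (R0 : SmoothRed A π F0 κ) (hfin : (R0.good)ᶜ.Finite) :
    (goodOver R0 K)ᶜ.Finite := by
  refine Set.Finite.subset
    (Set.Finite.biUnion hfin fun Q _ => Place.restrict_fiber_finite (F' := K) Q) ?_
  intro Q' hQ'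
  exact Set.mem_biUnion (show Q'.restrict κ ∈ (R0.good)ᶜ from hQ') rfl

/-- **pole control and gluing upstairs** -/
theorem pcg_up (T1 : Set (Place k κ1)) (T2 : Set (Place k κ2)) (hT : N0.Adm T1 T2)
    (h1 : Y.U1.B.O) (h2 : Y.U2.B.O) (heq : ((h1 : Y.U1.B.O) : F) = ((h2 : Y.U2.B.O) : F))
    (hp : ∀ P : Place L F, P.ord ((h1 : Y.U1.B.O) : F) < 0 →
      (∃ Q ∈ {Q : Place k K1 | Q.restrict κ1 ∈ T1}, rUp (ctx1 Y E) P = some Q) ∨
      (∃ Q ∈ {Q : Place k K2 | Q.restrict κ2 ∈ T2}, rUp (ctx2 Y E) P = some Q)) :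
    (∀ Q : Place k K1, Q ∉ {Q : Place k K1 | Q.restrict κ1 ∈ T1} → 0 ≤ Q.ord (Y.U1.B.red h1)) ∧
    (∀ Q : Place k K2, Q ∉ {Q : Place k K2 | Q.restrict κ2 ∈ T2} → 0 ≤ Q.ord (Y.U2.B.red h2)) ∧
    ∀ e, ∃ γ : k, HasValue (Y.e1 e) (Y.U1.B.red h1) γ ∧ HasValue (Y.e2 e) (Y.U2.B.red h2) γ := by
  set X1 := ctx1 Y E with hX1
  set X2 := ctx2 Y E with hX2
  have hmne : Y.m ≠ 0 := (cyc Y).m_ne_zero
  -- the `m`-th powers of the eigen-components, downstairs
  have hw : ∀ a : ℕ, ∃ (w1 : N0.R1.O) (w2 : N0.R2.O),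
      baseHom Y.U1 w1 = comp X1 a h1 ^ Y.m ∧ baseHom Y.U2 w2 = comp X2 a h2 ^ Y.m ∧
      (∀ Q : Place k κ1, Q ∉ T1 → 0 ≤ Q.ord (N0.R1.red w1)) ∧
      (∀ Q : Place k κ2, Q ∉ T2 → 0 ≤ Q.ord (N0.R2.red w2)) := by
    intro a
    obtain ⟨w1, hw1⟩ := exists_base_of_proj_pow X1 a h1
    obtain ⟨w2, hw2⟩ := exists_base_of_proj_pow X2 a h2
    have hw1' : algebraMap F0 F ((w1 : N0.R1.O) : F0) =
        proj Y.σ Y.m Y.ζ a ((h1 : Y.U1.B.O) : F) ^ Y.m := congrArg Subtype.val hw1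
    have hw2' : algebraMap F0 F ((w2 : N0.R2.O) : F0) =
        proj Y.σ Y.m Y.ζ a ((h2 : Y.U2.B.O) : F) ^ Y.m := congrArg Subtype.val hw2
    have hww : ((w1 : N0.R1.O) : F0) = ((w2 : N0.R2.O) : F0) := by
      apply (algebraMap F0 F).injective
      rw [hw1', hw2', heq]
    have hpoles := base_poles Y E hp a Y.m hmne _ hw1'
    obtain ⟨c1, c2, -⟩ := N0.pcg T1 T2 hT w1 w2 hww hpoles
    exact ⟨w1, w2, hw1, hw2, c1, c2⟩
  choose w1 w2 hw1 hw2 hreg1 hreg2 using hw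
  -- regularity of the components off the admissible sets
  have hcomp1 : ∀ (Q : Place k K1), Q.restrict κ1 ∉ T1 → ∀ a ∈ Finset.range Y.m,
      Q.adicValuation (Y.U1.B.red (comp X1 a h1)) ≤ 1 := fun Q hQ a _ =>
    red_proj_regular X1 a h1 (hw1 a) (adicValuation_le_one_of_ord_nonneg _ (hreg1 a _ hQ))
  have hcomp2 : ∀ (Q : Place k K2), Q.restrict κ2 ∉ T2 → ∀ a ∈ Finset.range Y.m,
      Q.adicValuation (Y.U2.B.red (comp X2 a h2)) ≤ 1 := fun Q hQ a _ =>
    red_proj_regular X2 a h2 (hw2 a) (adicValuation_le_one_of_ord_nonneg _ (hreg2 a _ hQ))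
  refine ⟨fun Q hQ => ?_, fun Q hQ => ?_, fun e => ?_⟩
  · exact ord_nonneg_of_adicValuation_le_one Q (red_regular_of_comp X1 h1 (hcomp1 Q hQ))
  · exact ord_nonneg_of_adicValuation_le_one Q (red_regular_of_comp X2 h2 (hcomp2 Q hQ))
  · -- the component of index `0`, downstairs
    obtain ⟨g1, hg1⟩ := exists_base_of_proj_zero X1 h1
    obtain ⟨g2, hg2⟩ := exists_base_of_proj_zero X2 h2
    have hg1' : algebraMap F0 F ((g1 : N0.R1.O) : F0) =
        proj Y.σ Y.m Y.ζ 0 ((h1 : Y.U1.B.O) : F) ^ 1 := by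
      rw [pow_one]; exact congrArg Subtype.val hg1
    have hg2' : algebraMap F0 F ((g2 : N0.R2.O) : F0) =
        proj Y.σ Y.m Y.ζ 0 ((h2 : Y.U2.B.O) : F) ^ 1 := by
      rw [pow_one]; exact congrArg Subtype.val hg2
    have hgg : ((g1 : N0.R1.O) : F0) = ((g2 : N0.R2.O) : F0) := by
      apply (algebraMap F0 F).injective
      rw [hg1', hg2', heq]
    have hpoles := base_poles Y E hp 0 1 one_ne_zero _ hg1'
    obtain ⟨-, -, c3⟩ := N0.pcg T1 T2 hT g1 g2 hgg hpoles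
    obtain ⟨γ, hγ1, hγ2⟩ := c3 e
    have hsub := N0.adm_subset_good T1 T2 hT
    have hn1 : (Y.e1 e).restrict κ1 ∉ T1 := by
      rw [Y.e1_over]
      exact fun hmem => N0.e1_not_good e (hsub.1 hmem)
    have hn2 : (Y.e2 e).restrict κ2 ∉ T2 := by
      rw [Y.e2_over]
      exact fun hmem => N0.e2_not_good e (hsub.2 hmem)
    refine ⟨γ, (hasValue_iff _ _ _).mpr ?_, (hasValue_iff _ _ _).mpr ?_⟩
    · refine hasVal_of_fixed X1 h1
        (adicValuation_σbar_of_unique Y.U1.σbar (Y.e1 e) fun Q'' hQ'' =>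
          Y.e1_unique e Q'' (hQ''.trans (Y.e1_over e)))
        (hcomp1 _ hn1) ?_
      rw [← hg1, red_baseHom, Torsor.hasVal_algebraMap_iff, Y.e1_over]
      exact (hasValue_iff _ _ _).mp hγ1
    · refine hasVal_of_fixed X2 h2
        (adicValuation_σbar_of_unique Y.U2.σbar (Y.e2 e) fun Q'' hQ'' =>
          Y.e2_unique e Q'' (hQ''.trans (Y.e2_over e)))
        (hcomp2 _ hn2) ?_
      rw [← hg2, red_baseHom, Torsor.hasVal_algebraMap_iff, Y.e2_over]
      exact (hasValue_iff _ _ _).mp hγ2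

/-- **the nodal datum upstairs** -/
def nodalUp : GNodalDatum A π F K1 K2 ι where
  R1 := smoothUp (ctx1 Y E)
  R2 := smoothUp (ctx2 Y E)
  e1 := Y.e1
  e2 := Y.e2
  e1_not_good e := by
    show ¬ (Y.e1 e).restrict κ1 ∈ N0.R1.good
    rw [Y.e1_over]
    exact N0.e1_not_good e
  e2_not_good e := by
    show ¬ (Y.e2 e).restrict κ2 ∈ N0.R2.good
    rw [Y.e2_over]
    exact N0.e2_not_good e
  finite_compl_good1 := finite_compl_goodOver N0.R1 N0.finite_compl_good1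
  finite_compl_good2 := finite_compl_goodOver N0.R2 N0.finite_compl_good2
  excl P Q1 Q2 h1 h2 :=
    N0.excl (P.restrict F0) _ _ (rUp_restrict (ctx1 Y E) h1).2 (rUp_restrict (ctx2 Y E) h2).2
  Adm := AdmOver N0
  adm_subset_good S1 S2 := by
    rintro ⟨T1, T2, hT, rfl, rfl⟩
    have hsub := N0.adm_subset_good T1 T2 hT
    exact ⟨fun Q hQ => hsub.1 hQ, fun Q hQ => hsub.2 hQ⟩
  exists_adm T1' T2' hf1 hf2 hg1 hg2 := by
    obtain ⟨S1, S2, hS, hs1, hs2⟩ := N0.exists_adm ((fun Q : Place k K1 => Q.restrict κ1) '' T1')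
      ((fun Q : Place k K2 => Q.restrict κ2) '' T2') (hf1.image _) (hf2.image _)
      (by rintro _ ⟨Q, hQ, rfl⟩; exact hg1 hQ) (by rintro _ ⟨Q, hQ, rfl⟩; exact hg2 hQ)
    exact ⟨_, _, ⟨S1, S2, hS, rfl, rfl⟩, fun Q hQ => hs1 ⟨Q, hQ, rfl⟩, fun Q hQ => hs2 ⟨Q, hQ, rfl⟩⟩
  pcg S1 S2 := by
    rintro ⟨T1, T2, hT, rfl, rfl⟩ h1 h2 heq hp
    exact pcg_up Y E T1 T2 hT h1 h2 heq hp

include E in
/-- **THE RELATIVE LIFT** -/
theorem liftStatement : LiftStatement N0 Y :=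
  ⟨nodalUp Y E, rfl, rfl, fun _ => rfl, fun _ => rfl, rfl, rfl, isSpecMap_rUp (ctx1 Y E),
    isSpecMap_rUp (ctx2 Y E), fun _ _ => Iff.rfl⟩

end Fermat.Agent.S43.LG1.C2.Datum

end
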