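import Mathlib
import Fermat.Agent.S43.LG1.C2.Seam

/-!
# PROJECT R (S43), gate, C2 (relative lift along `F/F0`): the formal fields of the lifted datum

In the vocabulary of `C2/Seam.lean` only (`goodOver`, `IsSpecMap`, `AdmOver`, `KummerCover`), for
ANY pair of specialisation maps `r1`, `r2` which are `IsSpecMap`:

* `finite_over` : the places of `K` over a finite set of places of `κ` are finitely many;
* `e1_not_goodOver`, `e2_not_goodOver` : the nodes upstairs are not good;
* `finite_compl_goodOver` : all but finitely many places upstairs are good;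
* `excl_over` : a place of `F` lies in at most one kind of residue disc;
* `adm_subset_goodOver`, `exists_admOver` : the admissible pairs upstairs;
* `admOver_finite` : the admissible sets upstairs are finite when those of the base are
  (`hadmfin` of `CoreZOfInertiaTw.principal_of_inertia_tw`).

These are the fields `e1_not_good`, `e2_not_good`, `finite_compl_good1/2`, `excl`, `adm_subset_good`,
`exists_adm` of the `GNodalDatum` of `Seam.LiftStatement`.
-/

set_option autoImplicit false
set_option linter.unusedSectionVars false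

noncomputable section

namespace Fermat.Agent.S43.LG1.C2.Formal

open AlgebraicCurve Fermat.Agent.S34.NodalDefs Fermat.Agent.S43.LG1.C2.Seam

variable {L : Type*} [Field L] {k : Type*} [Field k] {A : ValuationSubring L} {π : A →+* k}
variable {F0 : Type*} [Field F0] [Algebra L F0] {F : Type*} [Field F] [Algebra L F]
variable [Algebra F0 F] [IsScalarTower L F0 F] [Algebra.IsIntegral F0 F]

/-! ### one component -/

section OneBranch

variable {κ : Type*} [Field κ] [Algebra k κ] {K : Type*} [Field K] [Algebra k K]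
variable [Algebra κ K] [IsScalarTower k κ K] [Algebra.IsIntegral κ K]

/-- the places over a finite set of places are finitely many -/
theorem finite_over [HasPrincipalDivisors k K] {T : Set (Place k κ)} (hT : T.Finite) :
    {Q : Place k K | Q.restrict κ ∈ T}.Finite := by
  have h : {Q : Place k K | Q.restrict κ ∈ T} = ⋃ Q0 ∈ T, {Q : Place k K | Q.restrict κ = Q0} := by
    ext Q
    simp
  rw [h]
  exact hT.biUnion fun Q0 _ => Place.restrict_fiber_finite Q0

/-- the complement of the good set upstairs lies over the complement of the good set -/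
theorem compl_goodOver (R0 : SmoothRed A π F0 κ) :
    (goodOver R0 K)ᶜ = {Q : Place k K | Q.restrict κ ∈ (R0.good)ᶜ} := rfl

theorem finite_compl_goodOver' [HasPrincipalDivisors k K] (R0 : SmoothRed A π F0 κ)
    (hfin : (R0.good)ᶜ.Finite) : (goodOver R0 K)ᶜ.Finite := by
  rw [compl_goodOver]
  exact finite_over hfin

/-- a canonical specialisation map lies over the specialisation map of the base -/
theorem IsSpecMap.restrict {R0 : SmoothRed A π F0 κ} {B : Branch A π F K}
    {r : Place L F → Option (Place k K)} (hr : IsSpecMap R0 B r) {P : Place L F}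
    {Q' : Place k K} (h : r P = some Q') : R0.r (P.restrict F0) = some (Q'.restrict κ) :=
  ((hr P Q').mp h).2.1

theorem IsSpecMap.good {R0 : SmoothRed A π F0 κ} {B : Branch A π F K}
    {r : Place L F → Option (Place k K)} (hr : IsSpecMap R0 B r) {P : Place L F}
    {Q' : Place k K} (h : r P = some Q') : Q'.restrict κ ∈ R0.good :=
  ((hr P Q').mp h).1

end OneBranch

/-! ### the two components -/

variable {κ1 : Type*} [Field κ1] [Algebra k κ1] {κ2 : Type*} [Field κ2] [Algebra k κ2]
variable {K1 : Type*} [Field K1] [Algebra k K1] [Algebra κ1 K1] [IsScalarTower k κ1 K1]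
  [Algebra.IsIntegral κ1 K1]
variable {K2 : Type*} [Field K2] [Algebra k K2] [Algebra κ2 K2] [IsScalarTower k κ2 K2]
  [Algebra.IsIntegral κ2 K2]
variable {ι : Type*} {N0 : GNodalDatum A π F0 κ1 κ2 ι}

theorem e1_not_goodOver (X : KummerCover N0 K1 K2 F) (e : ι) : X.e1 e ∉ goodOver N0.R1 K1 := by
  intro h
  have h' : (X.e1 e).restrict κ1 ∈ N0.R1.good := h
  rw [X.e1_over e] at h'
  exact N0.e1_not_good e h'

theorem e2_not_goodOver (X : KummerCover N0 K1 K2 F) (e : ι) : X.e2 e ∉ goodOver N0.R2 K2 := by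
  intro h
  have h' : (X.e2 e).restrict κ2 ∈ N0.R2.good := h
  rw [X.e2_over e] at h'
  exact N0.e2_not_good e h'

theorem finite_compl_goodOver1 [HasPrincipalDivisors k K1] (N0 : GNodalDatum A π F0 κ1 κ2 ι) :
    (goodOver N0.R1 K1)ᶜ.Finite :=
  finite_compl_goodOver' N0.R1 N0.finite_compl_good1

theorem finite_compl_goodOver2 [HasPrincipalDivisors k K2] (N0 : GNodalDatum A π F0 κ1 κ2 ι) :
    (goodOver N0.R2 K2)ᶜ.Finite :=
  finite_compl_goodOver' N0.R2 N0.finite_compl_good2

/-- a place of `F` lies in at most one kind of residue disc -/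
theorem excl_over {B1 : Branch A π F K1} {B2 : Branch A π F K2}
    {r1 : Place L F → Option (Place k K1)} {r2 : Place L F → Option (Place k K2)}
    (hr1 : IsSpecMap N0.R1 B1 r1) (hr2 : IsSpecMap N0.R2 B2 r2)
    (P : Place L F) (Q1 : Place k K1) (Q2 : Place k K2) (h1 : r1 P = some Q1)
    (h2 : r2 P = some Q2) : False :=
  N0.excl (P.restrict F0) _ _ (IsSpecMap.restrict hr1 h1) (IsSpecMap.restrict hr2 h2)

/-- the admissible sets upstairs consist of good places -/
theorem adm_subset_goodOver {S1 : Set (Place k K1)} {S2 : Set (Place k K2)}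
    (h : AdmOver N0 S1 S2) : S1 ⊆ goodOver N0.R1 K1 ∧ S2 ⊆ goodOver N0.R2 K2 := by
  obtain ⟨T1, T2, hT, rfl, rfl⟩ := h
  obtain ⟨h1, h2⟩ := N0.adm_subset_good T1 T2 hT
  exact ⟨fun Q hQ => h1 hQ, fun Q hQ => h2 hQ⟩

/-- every pair of finite sets of good places upstairs lies in an admissible pair -/
theorem exists_admOver (T1 : Set (Place k K1)) (T2 : Set (Place k K2)) (hT1 : T1.Finite)
    (hT2 : T2.Finite) (h1 : T1 ⊆ goodOver N0.R1 K1) (h2 : T2 ⊆ goodOver N0.R2 K2) :
    ∃ S1 S2, AdmOver N0 S1 S2 ∧ T1 ⊆ S1 ∧ T2 ⊆ S2 := by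
  obtain ⟨U1, U2, hU, hsub1, hsub2⟩ := N0.exists_adm ((fun Q : Place k K1 => Q.restrict κ1) '' T1)
    ((fun Q : Place k K2 => Q.restrict κ2) '' T2) (hT1.image _) (hT2.image _)
    (by rintro _ ⟨Q, hQ, rfl⟩; exact h1 hQ) (by rintro _ ⟨Q, hQ, rfl⟩; exact h2 hQ)
  exact ⟨_, _, ⟨U1, U2, hU, rfl, rfl⟩, fun Q hQ => hsub1 ⟨Q, hQ, rfl⟩,
    fun Q hQ => hsub2 ⟨Q, hQ, rfl⟩⟩

/-- the admissible sets upstairs are finite -/
theorem admOver_finite [HasPrincipalDivisors k K1] [HasPrincipalDivisors k K2]
    (hadmfin : ∀ T1 T2, N0.Adm T1 T2 → T1.Finite ∧ T2.Finite)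
    {S1 : Set (Place k K1)} {S2 : Set (Place k K2)} (h : AdmOver N0 S1 S2) :
    S1.Finite ∧ S2.Finite := by
  obtain ⟨T1, T2, hT, rfl, rfl⟩ := h
  obtain ⟨f1, f2⟩ := hadmfin T1 T2 hT
  exact ⟨finite_over f1, finite_over f2⟩

end Fermat.Agent.S43.LG1.C2.Formal

end
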