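import Mathlib
import Fermat.Agent.S43.LG1.C2.Formal
import Fermat.Agent.S43.LG1.C2.Count

/-!
# PROJECT R (S43), gate, C2 (relative lift along `F/F0`), item (f): the side hypotheses of the core

The side hypotheses of `CoreZOfInertiaTw.principal_of_inertia_tw` for the lifted datum, in the
vocabulary of `C2/Seam.lean`:

* `unram_over` : `hunram_i'`: the coordinate `x_i' := x_i` (seen in `F`) has an unramified
  reduction outside a finite set of places of `K_i`, as soon as `K_i / κ_i` is unramified over the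
  good places (helper10's `Disc.ramificationIndex_bar`);
* `injective_e1`, `injective_e2` : the nodes upstairs are distinct;
* `riemannGe_nodalRigid_over` : `hR` and `hG` from Riemann's theorem on `F`, `K_1`, `K_2` and the
  count (`C2/Count`).
-/

set_option autoImplicit false
set_option linter.unusedSectionVars false

noncomputable section

namespace Fermat.Agent.S43.LG1.C2.Rigid

open AlgebraicCurve Fermat.Agent.S34.NodalDefs Fermat.Agent.S43.LG1.C2.Seam
  Fermat.Agent.S18.NonSpecial Fermat.Agent.S18.CoreDefs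

variable {L : Type*} [Field L] {k : Type*} [Field k] {A : ValuationSubring L} {π : A →+* k}
variable {F0 : Type*} [Field F0] [Algebra L F0] {F : Type*} [Field F] [Algebra L F]
variable [Algebra F0 F] [IsScalarTower L F0 F] [Algebra.IsIntegral F0 F]

section OneBranch

variable {κ : Type*} [Field κ] [Algebra k κ] {K : Type*} [Field K] [Algebra k K]
variable [Algebra κ K] [IsScalarTower k κ K] [Algebra.IsIntegral κ K]

/-- a uniformiser of the form `φ - γ` downstairs stays one at an unramified place upstairs -/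
theorem ord_algebraMap_sub_eq_one (Q' : Place k K) (hram : Q'.ramificationIndex κ = 1) (φ : κ)
    (γ : k) (h : (Q'.restrict κ).ord (φ - algebraMap k κ γ) = 1) :
    Q'.ord (algebraMap κ K φ - algebraMap k K γ) = 1 := by
  have h1 : algebraMap κ K φ - algebraMap k K γ = algebraMap κ K (φ - algebraMap k κ γ) := by
    rw [map_sub, ← IsScalarTower.algebraMap_apply]
  rw [h1, Q'.ord_restrict, hram, h]
  simp

/-- **`hunram'`**: the set of places of `K` at which the reduction of the coordinate of the base is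
not a local coordinate is finite -/
theorem unram_over [HasPrincipalDivisors k K] {R0 : SmoothRed A π F0 κ} {σ : F ≃ₐ[F0] F}
    (U : BranchOver (F := F) R0.toBranch σ K) (hfin : (R0.good)ᶜ.Finite)
    (hram : ∀ Q' : Place k K, Q'.restrict κ ∈ R0.good → Q'.ramificationIndex κ = 1)
    (x : R0.O)
    (hunram : {Q : Place k κ | ¬ ∃ γ : k, Q.ord (R0.red x - algebraMap k κ γ) = 1}.Finite)
    (x' : U.B.O) (hx' : ((x' : U.B.O) : F) = algebraMap F0 F ((x : R0.O) : F0)) :
    {Q' : Place k K | ¬ ∃ γ : k, Q'.ord (U.B.red x' - algebraMap k K γ) = 1}.Finite := by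
  have hred : U.B.red x' = algebraMap κ K (R0.red x) := by
    have hmem : algebraMap F0 F ((x : R0.O) : F0) ∈ U.B.O := hx' ▸ x'.2
    have h1 := U.red_base x hmem
    have h2 : x' = ⟨algebraMap F0 F ((x : R0.O) : F0), hmem⟩ := Subtype.ext hx'
    rw [h2]
    exact h1
  refine Set.Finite.subset (Fermat.Agent.S43.LG1.C2.Formal.finite_over (K := K)
    (hunram.union hfin)) ?_
  intro Q' hQ'
  by_contra hcon
  apply hQ'
  have hcon' : ¬ ((Q'.restrict κ) ∈
      {Q : Place k κ | ¬ ∃ γ : k, Q.ord (R0.red x - algebraMap k κ γ) = 1} ∪ (R0.good)ᶜ) := hcon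
  rw [Set.mem_union, not_or] at hcon'
  obtain ⟨hc1, hc2⟩ := hcon'
  have hgood : Q'.restrict κ ∈ R0.good := by
    by_contra hng
    exact hc2 hng
  have hex : ∃ γ : k, (Q'.restrict κ).ord (R0.red x - algebraMap k κ γ) = 1 := by
    by_contra hne
    exact hc1 hne
  obtain ⟨γ, hγ⟩ := hex
  exact ⟨γ, by rw [hred]; exact ord_algebraMap_sub_eq_one Q' (hram Q' hgood) _ γ hγ⟩

end OneBranch

variable {κ1 : Type*} [Field κ1] [Algebra k κ1] {κ2 : Type*} [Field κ2] [Algebra k κ2]
variable {K1 : Type*} [Field K1] [Algebra k K1] [Algebra κ1 K1] [IsScalarTower k κ1 K1]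
  [Algebra.IsIntegral κ1 K1]
variable {K2 : Type*} [Field K2] [Algebra k K2] [Algebra κ2 K2] [IsScalarTower k κ2 K2]
  [Algebra.IsIntegral κ2 K2]
variable {ι : Type*} {N0 : GNodalDatum A π F0 κ1 κ2 ι}

theorem injective_e1 (X : KummerCover N0 K1 K2 F) (h : Function.Injective N0.e1) :
    Function.Injective X.e1 := by
  intro e e' hee
  apply h
  rw [← X.e1_over e, ← X.e1_over e', hee]

theorem injective_e2 (X : KummerCover N0 K1 K2 F) (h : Function.Injective N0.e2) :
    Function.Injective X.e2 := by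
  intro e e' hee
  apply h
  rw [← X.e2_over e, ← X.e2_over e', hee]

/-- **`hR` and `hG` of the core for the lifted datum**, from Riemann's theorem on `F`, `K_1`, `K_2`
and the count `g' ≤ g1 + (g2 + #nodes - 1)` -/
theorem riemannGe_nodalRigid_over [Fintype ι] [Nonempty ι] (X : KummerCover N0 K1 K2 F)
    (hinj : Function.Injective N0.e2) {g' g1 g2 : ℕ} (HL : RiemannHyp L F g')
    (H1 : RiemannHyp k K1 g1) (H2 : RiemannHyp k K2 g2)
    (hcount : g' ≤ g1 + (g2 + Fintype.card ι - 1)) :
    RiemannGe L F (g1 + (g2 + Fintype.card ι - 1)) ∧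
      NodalRigid k K1 K2 X.e2 g1 (g2 + Fintype.card ι - 1) :=
  Fermat.Agent.S43.LG1.C2.Count.riemannGe_and_nodalRigid HL H1 H2 X.e2 (injective_e2 X hinj) hcount

/-- the same with the count discharged by the Hurwitz relations of `F / F0`, `K_i / κ_i` and the
count of the base -/
theorem riemannGe_nodalRigid_over_of_hurwitz [Fintype ι] [Nonempty ι]
    (X : KummerCover N0 K1 K2 F) (hinj : Function.Injective N0.e2) {n g' g0 gk g1 g2 : ℕ}
    (HL : RiemannHyp L F g') (H1 : RiemannHyp k K1 g1) (H2 : RiemannHyp k K2 g2)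
    (hE : (g' : ℤ) - 1 ≤ n * ((g0 : ℤ) - 1))
    (h1 : (n : ℤ) * (2 * gk - 2) + (Fintype.card ι : ℤ) * ((n : ℤ) - 1) ≤ 2 * g1 - 2)
    (h2 : (n : ℤ) * (2 * gk - 2) + (Fintype.card ι : ℤ) * ((n : ℤ) - 1) ≤ 2 * g2 - 2)
    (hNC : (g0 : ℤ) + 1 ≤ gk + gk + Fintype.card ι) :
    RiemannGe L F (g1 + (g2 + Fintype.card ι - 1)) ∧
      NodalRigid k K1 K2 X.e2 g1 (g2 + Fintype.card ι - 1) :=
  Fermat.Agent.S43.LG1.C2.Count.riemannGe_and_nodalRigid_of_hurwitz HL H1 H2 X.e2
    (injective_e2 X hinj) hE h1 h2 hNC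

end Fermat.Agent.S43.LG1.C2.Rigid

end
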