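import Mathlib
import Fermat.Prelude.Def_AlgebraicCurve_BaseChangeGalois
import Fermat.Agent.S43.LG1.C2.Seam

/-!
# PROJECT R (S43), gate, C2 (relative lift along `F/F0`): equivariance of the canonical
specialisation map

`R0 : SmoothRed A π F0 κ` a component of the base, `B : Branch A π F K` a branch of `F` over it,
`r` a canonical specialisation map (`Seam.IsSpecMap R0 B r`).  Let `g` be a semilinear automorphism
of `F / L` which

* stabilises `F0` (it induces `g0` there), `A` and `B.O`,
* acts trivially on the residue field of `A` (an INERTIA element),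
* acts on the reduction through `τ : K ≃ₐ[k] K`, `τ` fixing `κ`: `red (g y) = τ (red y)`,
* and whose restriction to `F0` preserves the specialisation map of the base.

Then `r (g⁻¹ • P) = (r P).map (taup τ)`, `taup τ Q'` the place with valuation ring
`{z | τ z ∈ Q'}` (`spec_inv_smul`, `spec_inv_smul'`).  This is the hypothesis `hr1` / `hr2` of
`CoreZOfInertiaTw.principal_of_inertia_tw` for the lifted datum.  Also `mem_iff_of_unique`
(`hτnode`) and `mem_preimage_taup_iff` (`hAdmτ`).
-/

set_option autoImplicit false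
set_option linter.unusedSectionVars false

noncomputable section

namespace Fermat.Agent.S43.LG1.C2.SpecEquiv

open AlgebraicCurve Fermat.Agent.S34.NodalDefs Fermat.Agent.S34.Generic.Dich
  Fermat.Agent.S43.LG1.C2.Seam
open scoped Pointwise

/-! ### values and semilinear automorphisms -/

section Semilinear

variable {L : Type*} [Field L] {F : Type*} [Field F] [Algebra L F]

theorem adicValuation_lt_one_iff (P : Place L F) (f : F) :
    P.adicValuation f < 1 ↔ f = 0 ∨ 0 < P.ord f := by
  rcases eq_or_ne f 0 with rfl | hf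
  · simp
  · rw [Fermat.Agent.S24.Ord.ord_pos_iff P hf]
    simp [hf]

theorem ord_inv_smul (g : SemilinearAut L F) (P : Place L F) (f : F) :
    (g⁻¹ • P).ord f = P.ord (g • f) := by
  have h := SemilinearAut.ord_smul g (g⁻¹ • P) f
  rw [smul_inv_smul] at h
  exact h.symm

theorem mem_inv_smul_iff (g : SemilinearAut L F) (P : Place L F) (f : F) :
    f ∈ (g⁻¹ • P).toValuationSubring ↔ g • f ∈ P.toValuationSubring := by
  rw [SemilinearAut.smul_toValuationSubring,
    ValuationSubring.mem_pointwise_smul_iff_inv_smul_mem, inv_inv]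

theorem adicValuation_inv_smul_le_one_iff (g : SemilinearAut L F) (P : Place L F) (f : F) :
    (g⁻¹ • P).adicValuation f ≤ 1 ↔ P.adicValuation (g • f) ≤ 1 := by
  rw [← Fermat.Agent.S24.Ord.mem_iff, ← Fermat.Agent.S24.Ord.mem_iff, mem_inv_smul_iff]

/-- the value of `y` at `g⁻¹ P` is the value of `g y` at `P`, moved by the base automorphism -/
theorem hasVal_inv_smul_iff (g : SemilinearAut L F) (P : Place L F) (y : F) (c : L) :
    HasVal (g⁻¹ • P) y c ↔ HasVal P (g • y) (SemilinearAut.baseAut g c) := by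
  unfold HasVal
  have h1 : g • (y - algebraMap L F c) = g • y - algebraMap L F (SemilinearAut.baseAut g c) := by
    rw [smul_sub, SemilinearAut.smul_algebraMap]
  rw [adicValuation_lt_one_iff, adicValuation_lt_one_iff, ord_inv_smul, h1]
  have h2 : y - algebraMap L F c = 0 ↔
      g • y - algebraMap L F (SemilinearAut.baseAut g c) = 0 := by
    rw [← h1]
    constructor
    · intro h
      rw [h, smul_zero]
    · intro h
      have := congrArg (fun x => g⁻¹ • x) h
      simpa using this
  rw [h2]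

end Semilinear

/-! ### restriction and compatible automorphisms -/

section Restrict

variable {L : Type*} [Field L] {F0 : Type*} [Field F0] [Algebra L F0] {F : Type*} [Field F]
  [Algebra L F] [Algebra F0 F] [IsScalarTower L F0 F] [Algebra.IsIntegral F0 F]

theorem inv_smul_algebraMap (g : SemilinearAut L F) (g0 : SemilinearAut L F0)
    (hgg0 : ∀ x : F0, g • algebraMap F0 F x = algebraMap F0 F (g0 • x)) (x : F0) :
    g⁻¹ • algebraMap F0 F x = algebraMap F0 F (g0⁻¹ • x) := by
  have h := hgg0 (g0⁻¹ • x)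
  rw [smul_inv_smul] at h
  rw [← h, inv_smul_smul]

/-- restriction to `F0` commutes with compatible automorphisms -/
theorem restrict_inv_smul (g : SemilinearAut L F) (g0 : SemilinearAut L F0)
    (hgg0 : ∀ x : F0, g • algebraMap F0 F x = algebraMap F0 F (g0 • x)) (P : Place L F) :
    (g⁻¹ • P).restrict F0 = g0⁻¹ • P.restrict F0 := by
  apply Place.ext
  ext x
  rw [Place.restrict_toValuationSubring, ValuationSubring.mem_comap, mem_inv_smul_iff,
    mem_inv_smul_iff, Place.restrict_toValuationSubring, ValuationSubring.mem_comap, hgg0]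

end Restrict

/-! ### the action of `τ` on the places of `K` -/

section Tau

variable {k : Type*} [Field k] {K : Type*} [Field K] [Algebra k K]

/-- the place with valuation ring `{z | τ z ∈ Q'}` -/
def taup (τ : K ≃ₐ[k] K) (Q' : Place k K) : Place k K := τ⁻¹ • Q'

theorem mem_taup (τ : K ≃ₐ[k] K) (Q' : Place k K) (z : K) :
    z ∈ (taup τ Q').toValuationSubring ↔ τ z ∈ Q'.toValuationSubring := by
  unfold taup
  rw [Place.smul_toValuationSubring, ValuationSubring.mem_pointwise_smul_iff_inv_smul_mem, inv_inv]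
  rfl

theorem ord_taup (τ : K ≃ₐ[k] K) (Q' : Place k K) (z : K) :
    (taup τ Q').ord z = Q'.ord (τ z) := by
  have h := Place.ord_smul τ (taup τ Q') z
  unfold taup at h ⊢
  rw [smul_inv_smul] at h
  exact h.symm

theorem taup_inv_taup (τ : K ≃ₐ[k] K) (Q' : Place k K) : taup τ⁻¹ (taup τ Q') = Q' := by
  unfold taup
  rw [inv_inv, smul_inv_smul]

theorem taup_taup_inv (τ : K ≃ₐ[k] K) (Q' : Place k K) : taup τ (taup τ⁻¹ Q') = Q' := by
  unfold taup
  rw [inv_inv, inv_smul_smul]

theorem hasVal_taup_iff (τ : K ≃ₐ[k] K) (Q' : Place k K) (x : K) (γ : k) :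
    HasVal (taup τ Q') x γ ↔ HasVal Q' (τ x) γ := by
  unfold HasVal
  rw [adicValuation_lt_one_iff, adicValuation_lt_one_iff, ord_taup, map_sub, AlgEquiv.commutes]
  have h : x - algebraMap k K γ = 0 ↔ τ x - algebraMap k K γ = 0 := by
    rw [sub_eq_zero, sub_eq_zero]
    constructor
    · intro h
      rw [h, AlgEquiv.commutes]
    · intro h
      apply τ.injective
      rw [h, AlgEquiv.commutes]
  rw [h]

variable {κ : Type*} [Field κ] [Algebra k κ] [Algebra κ K] [IsScalarTower k κ K]
  [Algebra.IsIntegral κ K]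

/-- `taup τ` does not move the place below, when `τ` fixes `κ` -/
theorem restrict_taup (τ : K ≃ₐ[k] K) (hτ : ∀ c : κ, τ (algebraMap κ K c) = algebraMap κ K c)
    (Q' : Place k K) : (taup τ Q').restrict κ = Q'.restrict κ := by
  apply Place.ext
  ext x
  rw [Place.restrict_toValuationSubring, Place.restrict_toValuationSubring,
    ValuationSubring.mem_comap, ValuationSubring.mem_comap, mem_taup, hτ]

/-- a place which is alone over its restriction is fixed by `τ` (`hτnode` at the nodes) -/
theorem mem_iff_of_unique (τ : K ≃ₐ[k] K) (hτ : ∀ c : κ, τ (algebraMap κ K c) = algebraMap κ K c)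
    (Q' : Place k K) (huniq : ∀ Q : Place k K, Q.restrict κ = Q'.restrict κ → Q = Q') (z : K) :
    z ∈ Q'.toValuationSubring ↔ τ z ∈ Q'.toValuationSubring := by
  have h := huniq (taup τ Q') (restrict_taup τ hτ Q')
  rw [← mem_taup, h]

/-- full preimages of sets of places of `κ` are stable under `taup τ` (`hAdmτ`) -/
theorem mem_preimage_taup_iff (τ : K ≃ₐ[k] K)
    (hτ : ∀ c : κ, τ (algebraMap κ K c) = algebraMap κ K c) (T : Set (Place k κ))
    (Q' : Place k K) :
    Q' ∈ {Q : Place k K | Q.restrict κ ∈ T} ↔ taup τ Q' ∈ {Q : Place k K | Q.restrict κ ∈ T} := by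
  show Q'.restrict κ ∈ T ↔ (taup τ Q').restrict κ ∈ T
  rw [restrict_taup τ hτ Q']

end Tau

/-! ### the equivariance -/

section Main

variable {L : Type*} [Field L] {k : Type*} [Field k] {A : ValuationSubring L} {π : A →+* k}
variable {F0 : Type*} [Field F0] [Algebra L F0] {F : Type*} [Field F] [Algebra L F]
variable [Algebra F0 F] [IsScalarTower L F0 F] [Algebra.IsIntegral F0 F]
variable {κ : Type*} [Field κ] [Algebra k κ] {K : Type*} [Field K] [Algebra k K]
variable [Algebra κ K] [IsScalarTower k κ K] [Algebra.IsIntegral κ K]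

/-- **the hypotheses on `(g, g0, τ)`** -/
structure Compat (R0 : SmoothRed A π F0 κ) (B : Branch A π F K) (g : SemilinearAut L F)
    (g0 : SemilinearAut L F0) (τ : K ≃ₐ[k] K) : Prop where
  hgg0 : ∀ x : F0, g • algebraMap F0 F x = algebraMap F0 F (g0 • x)
  hA : ∀ c : L, SemilinearAut.baseAut g c ∈ A ↔ c ∈ A
  hpi : ∀ (c : A) (h : SemilinearAut.baseAut g (c : L) ∈ A),
    π ⟨SemilinearAut.baseAut g (c : L), h⟩ = π c
  hτ : ∀ c : κ, τ (algebraMap κ K c) = algebraMap κ K c
  hgO : ∀ y : F, g • y ∈ B.O ↔ y ∈ B.O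
  hred : ∀ (y : B.O) (h : g • ((y : B.O) : F) ∈ B.O), B.red ⟨g • ((y : B.O) : F), h⟩ = τ (B.red y)
  hr0 : ∀ P0 : Place L F0, R0.r (g0⁻¹ • P0) = R0.r P0

variable {R0 : SmoothRed A π F0 κ} {B : Branch A π F K} {g : SemilinearAut L F}
  {g0 : SemilinearAut L F0} {τ : K ≃ₐ[k] K}

/-- the hypotheses are symmetric -/
theorem Compat.inv (H : Compat R0 B g g0 τ) : Compat R0 B g⁻¹ g0⁻¹ τ⁻¹ where
  hgg0 := inv_smul_algebraMap g g0 H.hgg0
  hA := by
    intro c
    have h := H.hA ((SemilinearAut.baseAut g).symm c)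
    rw [RingEquiv.apply_symm_apply] at h
    rw [SemilinearAut.baseAut_inv]
    exact h.symm
  hpi := by
    intro c h
    rw [SemilinearAut.baseAut_inv] at h
    have hc : SemilinearAut.baseAut g ((SemilinearAut.baseAut g).symm (c : L)) ∈ A := by
      rw [RingEquiv.apply_symm_apply]
      exact c.2
    have h1 := H.hpi ⟨(SemilinearAut.baseAut g).symm (c : L), h⟩ hc
    have h2 : (⟨SemilinearAut.baseAut g ((SemilinearAut.baseAut g).symm (c : L)), hc⟩ : A) = c :=
      Subtype.ext (RingEquiv.apply_symm_apply _ _)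
    rw [h2] at h1
    exact h1.symm
  hτ := by
    intro c
    show τ.symm (algebraMap κ K c) = algebraMap κ K c
    rw [AlgEquiv.symm_apply_eq, H.hτ]
  hgO := by
    intro y
    have h := H.hgO (g⁻¹ • y)
    rw [smul_inv_smul] at h
    exact h.symm
  hred := by
    intro y h
    have hy : g • ((⟨g⁻¹ • ((y : B.O) : F), h⟩ : B.O) : F) ∈ B.O := by
      show g • g⁻¹ • ((y : B.O) : F) ∈ B.O
      rw [smul_inv_smul]
      exact y.2
    have h1 := H.hred ⟨g⁻¹ • ((y : B.O) : F), h⟩ hy
    have h2 : (⟨g • ((⟨g⁻¹ • ((y : B.O) : F), h⟩ : B.O) : F), hy⟩ : B.O) = y :=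
      Subtype.ext (smul_inv_smul g _)
    rw [h2] at h1
    show B.red ⟨g⁻¹ • ((y : B.O) : F), h⟩ = τ.symm (B.red y)
    rw [AlgEquiv.eq_symm_apply]
    exact h1.symm
  hr0 := by
    intro P0
    have h := H.hr0 (g0 • P0)
    rw [inv_smul_smul] at h
    rw [inv_inv]
    exact h.symm

/-- the discs over the places of the base are stable -/
theorem Compat.mem_discOver (H : Compat R0 B g g0 τ) (Q0 : Place k κ) (P : Place L F) :
    g⁻¹ • P ∈ discOver (F := F) R0 Q0 ↔ P ∈ discOver (F := F) R0 Q0 := by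
  show R0.r ((g⁻¹ • P).restrict F0) = some Q0 ↔ R0.r (P.restrict F0) = some Q0
  rw [restrict_inv_smul g g0 H.hgg0, H.hr0]

/-- regularity over a whole disc is stable -/
theorem Compat.regOver_smul (H : Compat R0 B g g0 τ) (Q0 : Place k κ) {y : F}
    (hy : RegOver (F := F) R0 Q0 y) : RegOver (F := F) R0 Q0 (g • y) := by
  intro P hP
  rw [← adicValuation_inv_smul_le_one_iff]
  exact hy _ ((H.mem_discOver Q0 P).mpr hP)

/-- **one direction**: if `P` specialises to `Q'` then `g⁻¹ P` specialises to `taup τ Q'` -/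
theorem Compat.specTo (H : Compat R0 B g g0 τ) {P : Place L F} {Q' : Place k K}
    (h : SpecTo R0 B P Q') : SpecTo R0 B (g⁻¹ • P) (taup τ Q') := by
  obtain ⟨hdisc, hval⟩ := h
  have hres : (taup τ Q').restrict κ = Q'.restrict κ := restrict_taup τ H.hτ Q'
  refine ⟨?_, ?_⟩
  · rw [hres]
    exact (H.mem_discOver _ P).mpr hdisc
  · intro y hy c hc
    rw [hres] at hy
    have hgy : g • ((y : B.O) : F) ∈ B.O := (H.hgO _).mpr y.2
    have hreg : RegOver (F := F) R0 (Q'.restrict κ) (((⟨g • ((y : B.O) : F), hgy⟩ : B.O) : B.O) : F) :=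
      H.regOver_smul _ hy
    obtain ⟨hc', hv⟩ := hval ⟨g • ((y : B.O) : F), hgy⟩ hreg _
      ((hasVal_inv_smul_iff g P _ c).mp hc)
    have hcA : c ∈ A := (H.hA c).mp hc'
    refine ⟨hcA, ?_⟩
    rw [hasVal_taup_iff, ← H.hred y hgy, ← H.hpi ⟨c, hcA⟩ hc']
    exact hv

/-- **equivariance of the canonical specialisation map** -/
theorem spec_inv_smul (H : Compat R0 B g g0 τ) {r : Place L F → Option (Place k K)}
    (hr : IsSpecMap R0 B r) (P : Place L F) : r (g⁻¹ • P) = (r P).map (taup τ) := by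
  have hfwd : ∀ {g' : SemilinearAut L F} {g0' : SemilinearAut L F0} {τ' : K ≃ₐ[k] K},
      Compat R0 B g' g0' τ' → ∀ (P' : Place L F) (Q' : Place k K), r P' = some Q' →
      r (g'⁻¹ • P') = some (taup τ' Q') := by
    intro g' g0' τ' H' P' Q' hQ'
    obtain ⟨hgood, hspec⟩ := (hr P' Q').mp hQ'
    refine (hr _ _).mpr ⟨?_, H'.specTo hspec⟩
    show (taup τ' Q').restrict κ ∈ R0.good
    rw [restrict_taup τ' H'.hτ Q']
    exact hgood
  rcases hP : r P with _ | Q'
  · rw [Option.map_none]
    rcases hgP : r (g⁻¹ • P) with _ | Q''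
    · rfl
    · exfalso
      have h := hfwd H.inv (g⁻¹ • P) Q'' hgP
      rw [inv_inv, smul_inv_smul, hP] at h
      exact absurd h (by simp)
  · rw [Option.map_some]
    exact hfwd H P Q' hP

/-- the same with the hypotheses as separate binders -/
theorem spec_inv_smul' {r : Place L F → Option (Place k K)} (hr : IsSpecMap R0 B r)
    (hgg0 : ∀ x : F0, g • algebraMap F0 F x = algebraMap F0 F (g0 • x))
    (hA : ∀ c : L, SemilinearAut.baseAut g c ∈ A ↔ c ∈ A)
    (hpi : ∀ (c : A) (h : SemilinearAut.baseAut g (c : L) ∈ A),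
      π ⟨SemilinearAut.baseAut g (c : L), h⟩ = π c)
    (hτ : ∀ c : κ, τ (algebraMap κ K c) = algebraMap κ K c)
    (hgO : ∀ y : F, g • y ∈ B.O ↔ y ∈ B.O)
    (hred : ∀ (y : B.O) (h : g • ((y : B.O) : F) ∈ B.O),
      B.red ⟨g • ((y : B.O) : F), h⟩ = τ (B.red y))
    (hr0 : ∀ P0 : Place L F0, R0.r (g0⁻¹ • P0) = R0.r P0) (P : Place L F) :
    r (g⁻¹ • P) = (r P).map (taup τ) :=
  spec_inv_smul ⟨hgg0, hA, hpi, hτ, hgO, hred, hr0⟩ hr P

end Main

end Fermat.Agent.S43.LG1.C2.SpecEquiv

end
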