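/-
PROJECT R (row 37 by S43), gate G, block C2 = THE RELATIVE LIFT (helper10): THE TWIST ON THE RESIDUE
FUNCTION FIELDS, FORMAL PART.

`τ : K ≃ₐ[k] K` is an automorphism of the residue function field upstairs which fixes `κ` pointwise (the
action of inertia on both reductions of the base is trivial).  `taup τ Q'` is the place of `K` with
valuation ring `{z | τ z ∈ Q'}` (the direction forced by `red (g y) = τ (red y)`).  The statements are
given for ANY map `τp` on places with that valuation ring (`IsTwistOf`), so that they apply to every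
presentation of the twisted place.

* `restrict_of_isTwistOf` : the twisted place lies over the same place of `κ`;
* `mem_iff_of_unique` : a place which is alone over its restriction is fixed (`hτ_i node`);
* `goodOver_stable`, `admOver_stable` : the good set and the admissible pairs upstairs are stable
  (`hAdmτ`);
* `exists_star` : a star place upstairs from a star place of the base.
-/
import Mathlib
import Fermat.Agent.S43.LG1.C2.Datum

set_option autoImplicit false
set_option linter.unusedSectionVars false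

noncomputable section

namespace Fermat.Agent.S43.LG1.C2.TwistNode

open AlgebraicCurve Fermat.Agent.S34.NodalDefs
  Fermat.Agent.S43.LG1.C2.Seam Fermat.Agent.S43.LG1.C2.Disc Fermat.Agent.S43.LG1.C2.Spec

variable {L : Type*} [Field L] {k : Type*} [Field k] {A : ValuationSubring L} {π : A →+* k}
variable {F0 : Type*} [Field F0] [Algebra L F0] {F : Type*} [Field F] [Algebra L F]
variable [Algebra F0 F] [IsScalarTower L F0 F] [Algebra.IsIntegral F0 F]

/-! ### one component -/

section OneBranch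

variable {κ : Type*} [Field κ] [Algebra k κ] {K : Type*} [Field K] [Algebra k K]
variable [Algebra κ K] [IsScalarTower k κ K] [Algebra.IsIntegral κ K]

/-- the twisted place: its valuation ring is `{z | τ z ∈ Q'}` -/
def taup (τ : K ≃ₐ[k] K) (Q' : Place k K) : Place k K := τ⁻¹ • Q'

theorem mem_taup (τ : K ≃ₐ[k] K) (Q' : Place k K) (z : K) :
    z ∈ (taup τ Q').toValuationSubring ↔ τ z ∈ Q'.toValuationSubring := by
  unfold taup
  rw [Place.smul_toValuationSubring]
  exact ValuationSubring.mem_inv_pointwise_smul_iff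

/-- `τp` is a presentation of the twist of places by `τ` -/
def IsTwistOf (τ : K ≃ₐ[k] K) (τp : Place k K → Place k K) : Prop :=
  ∀ (Q' : Place k K) (z : K), z ∈ (τp Q').toValuationSubring ↔ τ z ∈ Q'.toValuationSubring

theorem isTwistOf_taup (τ : K ≃ₐ[k] K) : IsTwistOf τ (taup τ) := mem_taup τ

theorem IsTwistOf.eq_taup {τ : K ≃ₐ[k] K} {τp : Place k K → Place k K} (h : IsTwistOf τ τp)
    (Q' : Place k K) : τp Q' = taup τ Q' := by
  apply Place.ext
  ext z
  rw [h Q' z, mem_taup]

/-- the twisted place lies over the same place of `κ` -/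
theorem restrict_of_isTwistOf {τ : K ≃ₐ[k] K}
    (hτ : ∀ c : κ, τ (algebraMap κ K c) = algebraMap κ K c) {τp : Place k K → Place k K}
    (h : IsTwistOf τ τp) (Q' : Place k K) : (τp Q').restrict κ = Q'.restrict κ := by
  apply Place.ext
  ext x
  rw [Place.mem_restrict_iff, Place.mem_restrict_iff, h Q', hτ]

/-- **a place which is alone over its restriction is fixed by the twist** -/
theorem mem_iff_of_unique {τ : K ≃ₐ[k] K}
    (hτ : ∀ c : κ, τ (algebraMap κ K c) = algebraMap κ K c) (Q' : Place k K)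
    (huniq : ∀ Q'' : Place k K, Q''.restrict κ = Q'.restrict κ → Q'' = Q') (z : K) :
    z ∈ Q'.toValuationSubring ↔ τ z ∈ Q'.toValuationSubring := by
  have h1 : taup τ Q' = Q' := huniq _ (restrict_of_isTwistOf hτ (isTwistOf_taup τ) Q')
  have h2 := mem_taup τ Q' z
  rwa [h1] at h2

/-- the good set upstairs is stable under the twist -/
theorem goodOver_stable (R0 : SmoothRed A π F0 κ) {τ : K ≃ₐ[k] K}
    (hτ : ∀ c : κ, τ (algebraMap κ K c) = algebraMap κ K c) {τp : Place k K → Place k K}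
    (h : IsTwistOf τ τp) (Q' : Place k K) : Q' ∈ goodOver R0 K ↔ τp Q' ∈ goodOver R0 K := by
  show Q'.restrict κ ∈ R0.good ↔ (τp Q').restrict κ ∈ R0.good
  rw [restrict_of_isTwistOf hτ h]

/-- **a star place upstairs** -/
theorem exists_star [HasPrincipalDivisors L F0] {R0 : SmoothRed A π F0 κ} (X : Ctx R0 F K)
    {Pstar : Place L F0} {Qstar : Place k κ} (hQ : Qstar ∈ R0.good)
    (hstar : R0.r Pstar = some Qstar) :
    ∃ (P : Place L F) (Q' : Place k K), Q' ∈ goodOver R0 K ∧ rUp X P = some Q' := by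
  obtain ⟨P, hP⟩ := X.hfib Pstar
  have hP' : R0.r (P.restrict F0) = some Qstar := by rw [hP]; exact hstar
  obtain ⟨Q', hQ', hres⟩ := exists_rUp X hQ hP'
  refine ⟨P, Q', ?_, hQ'⟩
  show Q'.restrict κ ∈ R0.good
  rw [hres]
  exact hQ

end OneBranch

/-! ### the two components -/

variable {κ1 : Type*} [Field κ1] [Algebra k κ1] {κ2 : Type*} [Field κ2] [Algebra k κ2]
variable {K1 : Type*} [Field K1] [Algebra k K1] [Algebra κ1 K1] [IsScalarTower k κ1 K1]
  [Algebra.IsIntegral κ1 K1]
variable {K2 : Type*} [Field K2] [Algebra k K2] [Algebra κ2 K2] [IsScalarTower k κ2 K2]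
  [Algebra.IsIntegral κ2 K2]
variable {ι : Type*} {N0 : GNodalDatum A π F0 κ1 κ2 ι}

/-- **the admissible pairs upstairs are stable under the twists** (`hAdmτ`) -/
theorem admOver_stable {τ1 : K1 ≃ₐ[k] K1}
    (hτ1 : ∀ c : κ1, τ1 (algebraMap κ1 K1 c) = algebraMap κ1 K1 c)
    {τ1p : Place k K1 → Place k K1} (h1 : IsTwistOf τ1 τ1p) {τ2 : K2 ≃ₐ[k] K2}
    (hτ2 : ∀ c : κ2, τ2 (algebraMap κ2 K2 c) = algebraMap κ2 K2 c)
    {τ2p : Place k K2 → Place k K2} (h2 : IsTwistOf τ2 τ2p)
    {S1 : Set (Place k K1)} {S2 : Set (Place k K2)} (h : AdmOver N0 S1 S2) :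
    (∀ Q : Place k K1, Q ∈ S1 ↔ τ1p Q ∈ S1) ∧ (∀ Q : Place k K2, Q ∈ S2 ↔ τ2p Q ∈ S2) := by
  obtain ⟨T1, T2, -, rfl, rfl⟩ := h
  refine ⟨fun Q => ?_, fun Q => ?_⟩
  · show Q.restrict κ1 ∈ T1 ↔ (τ1p Q).restrict κ1 ∈ T1
    rw [restrict_of_isTwistOf hτ1 h1]
  · show Q.restrict κ2 ∈ T2 ↔ (τ2p Q).restrict κ2 ∈ T2
    rw [restrict_of_isTwistOf hτ2 h2]

/-- the nodes upstairs are fixed by the twists (`hτ1node`) -/
theorem node1_stable (Y : KummerCover N0 K1 K2 F) {τ1 : K1 ≃ₐ[k] K1}
    (hτ1 : ∀ c : κ1, τ1 (algebraMap κ1 K1 c) = algebraMap κ1 K1 c) (e : ι) (z : K1) :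
    z ∈ (Y.e1 e).toValuationSubring ↔ τ1 z ∈ (Y.e1 e).toValuationSubring :=
  mem_iff_of_unique hτ1 (Y.e1 e) (fun Q'' hQ'' => Y.e1_unique e Q'' (hQ''.trans (Y.e1_over e))) z

/-- the nodes upstairs are fixed by the twists (`hτ2node`) -/
theorem node2_stable (Y : KummerCover N0 K1 K2 F) {τ2 : K2 ≃ₐ[k] K2}
    (hτ2 : ∀ c : κ2, τ2 (algebraMap κ2 K2 c) = algebraMap κ2 K2 c) (e : ι) (z : K2) :
    z ∈ (Y.e2 e).toValuationSubring ↔ τ2 z ∈ (Y.e2 e).toValuationSubring :=
  mem_iff_of_unique hτ2 (Y.e2 e) (fun Q'' hQ'' => Y.e2_unique e Q'' (hQ''.trans (Y.e2_over e))) z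

end Fermat.Agent.S43.LG1.C2.TwistNode

end
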