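/-
PROJECT R (row 37 by S43), gate G, block C2 = THE RELATIVE LIFT (helper10): THE EXIT OF C2.

`principal_over` : helper2's `LG1/CoreZOfInertiaTw.principal_of_inertia_tw` APPLIED TO THE LIFTED NODAL
DATUM `Datum.nodalUp Y E`.  The hypotheses are: the Kummer cover `Y` of the nodal datum `N0` of the base,
the side hypotheses of the BASE datum (finiteness of the admissible sets, injectivity of the nodes, a star
place), the genera of `F`, `K1`, `K2` with the count, and an inertia element `g` of `F` acting on the two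
residue function fields through `τ1`, `τ2` (automorphisms over `κ1`, `κ2`), equivariantly for the
specialisation maps upstairs (`hr1`, `hr2`).  `principal_cover` : the same with `hr1`, `hr2` discharged by
helper9's `C2/SpecEquiv` (the hypotheses on `g` are the two `SpecEquiv.Compat`).  Conclusion: `g • D - D` is
principal on `F` for every degree-zero divisor `D` with `n D = div u`, `u` a one-unit of both Gauss rings.

* `extra_of_cover` : `Datum.Extra Y` from the degrees and the roots alone (the fibres of `F / F0` are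
  nonempty: helper9's `C2/LiftPlace.exists_place_over`);
* `finite_not_unr` : `hunram` of the base for a `GoodCoord`;
* `principal_over`, `principal_cover`.
-/
import Mathlib
import Fermat.Agent.S43.LG1.C2.TwistNode
import Fermat.Agent.S43.LG1.C2.SpecEquiv
import Fermat.Agent.S43.LG1.C2.Rigid
import Fermat.Agent.S43.LG1.C2.LiftPlace
import Fermat.Agent.S43.LG1.CoreZOfInertiaTw

set_option autoImplicit false
set_option linter.unusedSectionVars false

noncomputable section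

namespace Fermat.Agent.S43.LG1.C2.Final

open AlgebraicCurve Fermat.Agent.S34.NodalDefs
  Fermat.Agent.S18.NonSpecial Fermat.Agent.S18.CoreDefs
  Fermat.Agent.S43.LG1.C2.Seam Fermat.Agent.S43.LG1.C2.Kummer Fermat.Agent.S43.LG1.C2.Branch
  Fermat.Agent.S43.LG1.C2.Disc Fermat.Agent.S43.LG1.C2.Spec Fermat.Agent.S43.LG1.C2.PoleControl
  Fermat.Agent.S43.LG1.C2.Datum Fermat.Agent.S43.LG1.C2.TwistNode

variable {L : Type*} [Field L] {k : Type*} [Field k] {A : ValuationSubring L} {π : A →+* k}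
variable {F0 : Type*} [Field F0] [Algebra L F0] {F : Type*} [Field F] [Algebra L F]
variable [Algebra F0 F] [IsScalarTower L F0 F] [Algebra.IsIntegral F0 F]
variable {κ1 : Type*} [Field κ1] [Algebra k κ1] {κ2 : Type*} [Field κ2] [Algebra k κ2]
variable {K1 : Type*} [Field K1] [Algebra k K1] [Algebra κ1 K1] [IsScalarTower k κ1 K1]
  [Algebra.IsIntegral κ1 K1]
variable {K2 : Type*} [Field K2] [Algebra k K2] [Algebra κ2 K2] [IsScalarTower k κ2 K2]
  [Algebra.IsIntegral κ2 K2]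
variable {ι : Type*} {N0 : GNodalDatum A π F0 κ1 κ2 ι}

/-! ### the fibres of the cover -/

/-- a place of `F` over every place of `F0` -/
theorem exists_place_over_cover (Y : KummerCover N0 K1 K2 F) (P0 : Place L F0) :
    ∃ P : Place L F, P.restrict F0 = P0 := by
  have H := Datum.cyc Y
  have hfd : FiniteDimensional F0 F := (H.powerBasis Y.z_ne Y.σ_z).finite
  have hsep : Algebra.IsSeparable F0 F := by
    have hm : (Y.m : F0) ≠ 0 := by
      rw [← map_natCast (algebraMap L F0) Y.m]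
      exact (map_ne_zero (algebraMap L F0)).mpr H.hm
    have hs : IsSeparable F0 Y.z := by
      unfold IsSeparable
      rw [H.minpoly_eq Y.z_ne Y.σ_z]
      exact Polynomial.separable_X_pow_sub_C _ hm (H.tOf_ne_zero Y.z_ne Y.σ_z)
    have htop : IntermediateField.adjoin F0 {Y.z} = ⊤ :=
      IntermediateField.adjoin_eq_top_of_algebra F0 {Y.z}
        (H.powerBasis Y.z_ne Y.σ_z).adjoin_gen_eq_top
    rw [← IntermediateField.isSeparable_top, ← htop,
      IntermediateField.isSeparable_adjoin_simple_iff_isSeparable]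
    exact hs
  exact Fermat.Agent.S43.LG1.C2.LiftPlace.exists_place_over P0

/-- **the extra hypotheses from the degrees and the roots alone** -/
theorem extra_of_cover (Y : KummerCover N0 K1 K2 F)
    (hdeg0 : ∀ P0 : Place L F0, P0.deg = 1) (hdegF : ∀ P : Place L F, P.deg = 1)
    (hdegκ1 : ∀ Q : Place k κ1, Q.deg = 1) (hdegK1 : ∀ Q : Place k K1, Q.deg = 1)
    (hdegκ2 : ∀ Q : Place k κ2, Q.deg = 1) (hdegK2 : ∀ Q : Place k K2, Q.deg = 1)
    (hrootL : ∀ a : L, ∃ b : L, b ^ Y.m = a) : Extra Y :=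
  ⟨exists_place_over_cover Y, hdeg0, hdegF, hdegκ1, hdegK1, hdegκ2, hdegK2, hrootL⟩

/-! ### the coordinate -/

/-- `hunram` of the base for a good coordinate -/
theorem finite_not_unr {κ : Type*} [Field κ] [Algebra k κ] {R0 : SmoothRed A π F0 κ}
    (x : GoodCoord R0) (hfin : (R0.good)ᶜ.Finite) :
    {Q : Place k κ | ¬ ∃ γ : k, Q.ord (R0.red x.x - algebraMap k κ γ) = 1}.Finite := by
  refine hfin.subset fun Q hQ hgood => ?_
  exact hQ (x.unr Q hgood)

/-! ### the exit -/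

/-- **(Core-Z) in divisor language on the cover `F`**, hypothesis-first on the equivariance of the
specialisation maps upstairs. -/
theorem principal_over [HasPrincipalDivisors L F0] [HasPrincipalDivisors L F]
    [HasPrincipalDivisors k K1] [HasPrincipalDivisors k K2] [Fintype ι] [Nonempty ι]
    (Y : KummerCover N0 K1 K2 F) (E : Extra Y)
    (hadmfin : ∀ T1 T2, N0.Adm T1 T2 → T1.Finite ∧ T2.Finite)
    (hinj : Function.Injective N0.e2)
    (hπ : Function.Surjective π) (n : ℕ) (hnk : (n : k) ≠ 0)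
    {g' g1 g2 : ℕ} (HL : RiemannHyp L F g') (H1 : RiemannHyp k K1 g1) (H2 : RiemannHyp k K2 g2)
    (hcount : g' ≤ g1 + (g2 + Fintype.card ι - 1))
    (Pstar : Place L F0) (Qstar : Place k κ1) (hQstar : Qstar ∈ N0.R1.good)
    (hstar : N0.R1.r Pstar = some Qstar)
    (g : SemilinearAut L F)
    (τ1 : K1 ≃ₐ[k] K1) (hτ1 : ∀ c : κ1, τ1 (algebraMap κ1 K1 c) = algebraMap κ1 K1 c)
    (τ2 : K2 ≃ₐ[k] K2) (hτ2 : ∀ c : κ2, τ2 (algebraMap κ2 K2 c) = algebraMap κ2 K2 c)
    (hgO1 : ∀ y : F, g • y ∈ Y.U1.B.O ↔ y ∈ Y.U1.B.O)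
    (hgred1 : ∀ (y : Y.U1.B.O) (h : g • ((y : Y.U1.B.O) : F) ∈ Y.U1.B.O),
      Y.U1.B.red ⟨g • ((y : Y.U1.B.O) : F), h⟩ = τ1 (Y.U1.B.red y))
    (hgO2 : ∀ y : F, g • y ∈ Y.U2.B.O ↔ y ∈ Y.U2.B.O)
    (hgred2 : ∀ (y : Y.U2.B.O) (h : g • ((y : Y.U2.B.O) : F) ∈ Y.U2.B.O),
      Y.U2.B.red ⟨g • ((y : Y.U2.B.O) : F), h⟩ = τ2 (Y.U2.B.red y))
    (τ1p : Place k K1 → Place k K1) (hτ1p : IsTwistOf τ1 τ1p)
    (τ2p : Place k K2 → Place k K2) (hτ2p : IsTwistOf τ2 τ2p)
    (hr1 : ∀ P : Place L F, rUp (ctx1 Y E) (g⁻¹ • P) = (rUp (ctx1 Y E) P).map τ1p)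
    (hr2 : ∀ P : Place L F, rUp (ctx2 Y E) (g⁻¹ • P) = (rUp (ctx2 Y E) P).map τ2p)
    {u : F} (hu1 : u ∈ Y.U1.B.O) (hu2 : u ∈ Y.U2.B.O)
    (hred1 : Y.U1.B.red ⟨u, hu1⟩ = 1) (hred2 : Y.U2.B.red ⟨u, hu2⟩ = 1)
    (D : Divisor L F) (hD0 : Divisor.degree D = 0) (hD : ∀ P : Place L F, P.ord u = n * D P) :
    g • D - D ∈ Divisor.principal (K := L) (F := F) := by
  obtain ⟨hR, hG⟩ := Fermat.Agent.S43.LG1.C2.Rigid.riemannGe_nodalRigid_over Y hinj HL H1 H2 hcount
  obtain ⟨Ps, Qs, hQs, hPs⟩ := exists_star (ctx1 Y E) hQstar hstar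
  have hun1 := Fermat.Agent.S43.LG1.C2.Rigid.unram_over Y.U1 N0.finite_compl_good1
    (fun Q' hQ' => ramificationIndex_bar (ctx1 Y E) hQ' rfl) Y.x1.x
    (finite_not_unr Y.x1 N0.finite_compl_good1) (baseHom Y.U1 Y.x1.x) rfl
  have hun2 := Fermat.Agent.S43.LG1.C2.Rigid.unram_over Y.U2 N0.finite_compl_good2
    (fun Q' hQ' => ramificationIndex_bar (ctx2 Y E) hQ' rfl) Y.x2.x
    (finite_not_unr Y.x2 N0.finite_compl_good2) (baseHom Y.U2 Y.x2.x) rfl
  exact Fermat.Agent.S43.LG1.CoreZOfInertiaTw.principal_of_inertia_tw (nodalUp Y E) E.hdegF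
    (fun e => E.hdegK1 _) (fun e => E.hdegK2 _)
    (fun S1 S2 h => Fermat.Agent.S43.LG1.C2.Formal.admOver_finite hadmfin h)
    hπ n hnk (baseHom Y.U1 Y.x1.x) hun1 (baseHom Y.U2 Y.x2.x) hun2 hR hG Ps Qs hQs hPs g τ1 τ2
    (node1_stable Y hτ1) (node2_stable Y hτ2)
    (fun y => ⟨(hgO1 _).2 y.2, hgred1 y _⟩) (fun y h => (hgO1 y).1 h)
    (fun y => ⟨(hgO2 _).2 y.2, hgred2 y _⟩) (fun y h => (hgO2 y).1 h)
    τ1p τ2p hr1 hr2 (fun S1 S2 h => admOver_stable hτ1 hτ1p hτ2 hτ2p h)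
    hu1 hu2 hred1 hred2 D hD0 hD

/-- **(Core-Z) in divisor language on the cover `F`**: the exit of C2.  `g` is an inertia element of
`F` inducing `g0` on `F0`, acting on the residue function fields `K1`, `K2` through `τ1`, `τ2`
(`SpecEquiv.Compat` on each branch). -/
theorem principal_cover [HasPrincipalDivisors L F0] [HasPrincipalDivisors L F]
    [HasPrincipalDivisors k K1] [HasPrincipalDivisors k K2] [Fintype ι] [Nonempty ι]
    (Y : KummerCover N0 K1 K2 F) (E : Extra Y)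
    (hadmfin : ∀ T1 T2, N0.Adm T1 T2 → T1.Finite ∧ T2.Finite)
    (hinj : Function.Injective N0.e2)
    (hπ : Function.Surjective π) (n : ℕ) (hnk : (n : k) ≠ 0)
    {g' g1 g2 : ℕ} (HL : RiemannHyp L F g') (H1 : RiemannHyp k K1 g1) (H2 : RiemannHyp k K2 g2)
    (hcount : g' ≤ g1 + (g2 + Fintype.card ι - 1))
    (Pstar : Place L F0) (Qstar : Place k κ1) (hQstar : Qstar ∈ N0.R1.good)
    (hstar : N0.R1.r Pstar = some Qstar)
    (g : SemilinearAut L F) (g0 : SemilinearAut L F0) (τ1 : K1 ≃ₐ[k] K1) (τ2 : K2 ≃ₐ[k] K2)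
    (T1 : Fermat.Agent.S43.LG1.C2.SpecEquiv.Compat N0.R1 Y.U1.B g g0 τ1)
    (T2 : Fermat.Agent.S43.LG1.C2.SpecEquiv.Compat N0.R2 Y.U2.B g g0 τ2)
    {u : F} (hu1 : u ∈ Y.U1.B.O) (hu2 : u ∈ Y.U2.B.O)
    (hred1 : Y.U1.B.red ⟨u, hu1⟩ = 1) (hred2 : Y.U2.B.red ⟨u, hu2⟩ = 1)
    (D : Divisor L F) (hD0 : Divisor.degree D = 0) (hD : ∀ P : Place L F, P.ord u = n * D P) :
    g • D - D ∈ Divisor.principal (K := L) (F := F) :=
  principal_over Y E hadmfin hinj hπ n hnk HL H1 H2 hcount Pstar Qstar hQstar hstar g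
    τ1 T1.hτ τ2 T2.hτ T1.hgO T1.hred T2.hgO T2.hred
    (Fermat.Agent.S43.LG1.C2.SpecEquiv.taup τ1) (Fermat.Agent.S43.LG1.C2.SpecEquiv.mem_taup τ1)
    (Fermat.Agent.S43.LG1.C2.SpecEquiv.taup τ2) (Fermat.Agent.S43.LG1.C2.SpecEquiv.mem_taup τ2)
    (fun P => Fermat.Agent.S43.LG1.C2.SpecEquiv.spec_inv_smul T1 (isSpecMap_rUp (ctx1 Y E)) P)
    (fun P => Fermat.Agent.S43.LG1.C2.SpecEquiv.spec_inv_smul T2 (isSpecMap_rUp (ctx2 Y E)) P)
    hu1 hu2 hred1 hred2 D hD0 hD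

end Fermat.Agent.S43.LG1.C2.Final

end
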