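import Mathlib
import Fermat.Agent.S43.LG1.C2.Seam
import Fermat.Agent.S43.LG1.C2.Kummer
import Fermat.Agent.S43.LG1.C2.LiftPlace

/-!
# PROJECT R (S43), gate, C2 (relative lift along `F/F0`): `hfib` of the cover is a theorem

A cyclic Kummer extension `F / F0` (`C2/Kummer.Cyc`, with an eigenvector `z ≠ 0`) is finite (power
basis `1, z, …, z^(m-1)`) and separable (`X^m - t`, `m` invertible), so every place of `F0` is below
a place of `F` (`C2/LiftPlace.exists_place_over`).  This is the field `hfib` of helper10's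
`Disc.Ctx` / `Datum.Extra`.

* `finiteDimensional_of_cyc`, `isSeparable_of_cyc`, `exists_place_over_of_cyc`;
* `cycOfCover X : Cyc X.σ X.m X.ζ` and `exists_place_over_cover X` for `X : Seam.KummerCover`.
-/

set_option autoImplicit false
set_option linter.unusedSectionVars false

noncomputable section

namespace Fermat.Agent.S43.LG1.C2.LiftCover

open AlgebraicCurve Fermat.Agent.S34.NodalDefs Fermat.Agent.S43.LG1.C2.Seam
  Fermat.Agent.S43.LG1.C2.Kummer

variable {L : Type*} [Field L] {k : Type*} [Field k] {A : ValuationSubring L} {π : A →+* k}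

/-- an integer invertible in the residue field is not zero in `L` -/
theorem natCast_ne_zero_of_map (π : A →+* k) {m : ℕ} (hm : (m : k) ≠ 0) : (m : L) ≠ 0 := by
  intro h0
  apply hm
  have h1 : (m : A) = 0 := Subtype.ext (by simpa using h0)
  rw [← map_natCast π m, h1, map_zero]

variable {F0 : Type*} [Field F0] [Algebra L F0] {F : Type*} [Field F] [Algebra L F]
variable [Algebra F0 F] [IsScalarTower L F0 F]

/-! ### a cyclic Kummer extension is finite and separable -/

section Cyc

variable {σ : F ≃ₐ[F0] F} {m : ℕ} {ζ : L}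

theorem finiteDimensional_of_cyc (H : Cyc σ m ζ) {z : F} (hz0 : z ≠ 0)
    (hz : σ z = algebraMap L F ζ * z) : FiniteDimensional F0 F :=
  (H.powerBasis hz0 hz).finite

theorem isSeparable_of_cyc (H : Cyc σ m ζ) {z : F} (hz0 : z ≠ 0)
    (hz : σ z = algebraMap L F ζ * z) : Algebra.IsSeparable F0 F := by
  have hm : (m : F0) ≠ 0 := by
    rw [← map_natCast (algebraMap L F0) m]
    exact (map_ne_zero (algebraMap L F0)).mpr H.hm
  have hsep : IsSeparable F0 z := by
    unfold IsSeparable
    rw [H.minpoly_eq hz0 hz]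
    exact Polynomial.separable_X_pow_sub_C _ hm (H.tOf_ne_zero hz0 hz)
  have htop : IntermediateField.adjoin F0 {z} = ⊤ :=
    IntermediateField.adjoin_eq_top_of_algebra F0 {z} (H.powerBasis hz0 hz).adjoin_gen_eq_top
  rw [← IntermediateField.isSeparable_top, ← htop,
    IntermediateField.isSeparable_adjoin_simple_iff_isSeparable]
  exact hsep

/-- a place of `F` over every place of `F0` -/
theorem exists_place_over_of_cyc [Algebra.IsIntegral F0 F] (H : Cyc σ m ζ) {z : F} (hz0 : z ≠ 0)
    (hz : σ z = algebraMap L F ζ * z) (P0 : Place L F0) :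
    ∃ Pl : Place L F, Pl.restrict F0 = P0 := by
  have := finiteDimensional_of_cyc H hz0 hz
  have := isSeparable_of_cyc H hz0 hz
  exact Fermat.Agent.S43.LG1.C2.LiftPlace.exists_place_over P0

end Cyc

/-! ### the Kummer cover -/

variable [Algebra.IsIntegral F0 F]
variable {κ1 : Type*} [Field κ1] [Algebra k κ1] {κ2 : Type*} [Field κ2] [Algebra k κ2]
variable {K1 : Type*} [Field K1] [Algebra k K1] [Algebra κ1 K1] [IsScalarTower k κ1 K1]
  [Algebra.IsIntegral κ1 K1]
variable {K2 : Type*} [Field K2] [Algebra k K2] [Algebra κ2 K2] [IsScalarTower k κ2 K2]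
  [Algebra.IsIntegral κ2 K2]
variable {ι : Type*} {N0 : GNodalDatum A π F0 κ1 κ2 ι}

/-- the Kummer cover is a cyclic Kummer extension -/
theorem cycOfCover (X : KummerCover N0 K1 K2 F) : Cyc X.σ X.m X.ζ where
  hζ := X.hζ
  hm := natCast_ne_zero_of_map π X.hm
  hσ := X.σ_pow
  fixed := X.fixed

theorem finiteDimensional_cover (X : KummerCover N0 K1 K2 F) : FiniteDimensional F0 F :=
  finiteDimensional_of_cyc (cycOfCover X) X.z_ne X.σ_z

theorem isSeparable_cover (X : KummerCover N0 K1 K2 F) : Algebra.IsSeparable F0 F :=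
  isSeparable_of_cyc (cycOfCover X) X.z_ne X.σ_z

/-- **`hfib`**: a place of `F` over every place of `F0` -/
theorem exists_place_over_cover (X : KummerCover N0 K1 K2 F) (P0 : Place L F0) :
    ∃ Pl : Place L F, Pl.restrict F0 = P0 :=
  exists_place_over_of_cyc (cycOfCover X) X.z_ne X.σ_z P0

end Fermat.Agent.S43.LG1.C2.LiftCover

end
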