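import Mathlib
import Fermat.Prelude.Def_AlgebraicCurve_DivisorPushPull
import Fermat.Agent.S18.NonSpecial
import Fermat.Agent.S43.LG1.C2.Kummer
import Fermat.Agent.S43.LG1.C2.LiftCover

/-!
# PROJECT R (S43), gate, C2 (relative lift), item (e): Riemann-Roch on a cyclic Kummer extension

`E / E0` function fields over `c` (ANY characteristic), `H : Cyc σ n ζ` a cyclic Kummer structure
(`C2/Kummer`), `w ≠ 0` an eigenvector (`σ w = ζ w`), `t = H.tOf` (`w ^ n = t`).

* `mem_pullback_iff`, `smul_mem_pullback`, `proj_mem_pullback` : the Riemann-Roch space of a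
  pulled-back divisor is stable under the eigen-projections;
* `mul_pow_mem_pullback_iff` : `f w^a ∈ L(π^* D0) ↔ f ∈ L(D0 + ⌊a (t) / n⌋)`;
* `ell_pullback` : `l(π^* D0) = ∑_{a < n} l(D0 + ⌊a (t) / n⌋)`;
* `genus_formula` : `n (g - 1) = n^2 (g0 - 1) + ∑_{a < n} ∑_Q (a ord_Q t mod n)`;
* `genus_eq_of_dvd` : unramified case, `g - 1 = n (g0 - 1)`;
* `genus_ge_of_coprime` : `n (2 g0 - 2) + #S (n - 1) ≤ 2 g - 2` for a finite set `S` of places at
  which `ord t` is prime to `n`.
-/

set_option autoImplicit false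
set_option linter.unusedSectionVars false

noncomputable section

namespace Fermat.Agent.S43.LG1.C2.KummerRR

open AlgebraicCurve Fermat.Agent.S18.NonSpecial Fermat.Agent.S43.LG1.C2.Proj
  Fermat.Agent.S43.LG1.C2.Kummer
open scoped Pointwise

variable {c : Type*} [Field c] {E0 : Type*} [Field E0] [Algebra c E0] {E : Type*} [Field E]
  [Algebra c E] [Algebra E0 E] [IsScalarTower c E0 E] [Algebra.IsIntegral E0 E]

/-! ### automorphisms over `E0` and places -/

section Aut

/-- an `E0`-automorphism of `E` does not move the place below -/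
theorem restrict_smul (τ : E ≃ₐ[E0] E) (Q' : Place c E) :
    ((τ.restrictScalars c) • Q').restrict E0 = Q'.restrict E0 := by
  apply Place.ext
  ext x
  rw [Place.restrict_toValuationSubring, Place.restrict_toValuationSubring,
    ValuationSubring.mem_comap, ValuationSubring.mem_comap, Place.smul_toValuationSubring,
    ValuationSubring.mem_pointwise_smul_iff_inv_smul_mem]
  have : (τ.restrictScalars c)⁻¹ • (algebraMap E0 E x) = algebraMap E0 E x := by
    show (τ.restrictScalars c).symm (algebraMap E0 E x) = algebraMap E0 E x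
    rw [AlgEquiv.symm_apply_eq]
    exact (τ.commutes x).symm
  rw [this]

/-- nor the ramification index -/
theorem ramificationIndex_smul (τ : E ≃ₐ[E0] E) (Q' : Place c E) :
    ((τ.restrictScalars c) • Q').ramificationIndex E0 = Q'.ramificationIndex E0 := by
  unfold Place.ramificationIndex
  have h : ∀ f : E0, ((τ.restrictScalars c) • Q').ord (algebraMap E0 E f) =
      Q'.ord (algebraMap E0 E f) := by
    intro f
    have h1 := Place.ord_smul (τ.restrictScalars c) Q' (algebraMap E0 E f)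
    have h2 : (τ.restrictScalars c) (algebraMap E0 E f) = algebraMap E0 E f := τ.commutes f
    rw [h2] at h1
    exact h1
  simp only [h]

/-- `ord_{Q'} (τ h) = ord_{τ⁻¹ Q'} h` -/
theorem ord_map (τ : E ≃ₐ[E0] E) (Q' : Place c E) (h : E) :
    Q'.ord (τ h) = ((τ.restrictScalars c)⁻¹ • Q').ord h := by
  have h1 := Place.ord_smul (τ.restrictScalars c) ((τ.restrictScalars c)⁻¹ • Q') h
  rw [smul_inv_smul] at h1
  exact h1

end Aut

/-! ### the Riemann-Roch space of a pulled-back divisor -/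

section Pullback

variable [HasPrincipalDivisors c E]

theorem mem_pullback_iff (D0 : Divisor c E0) (h : E) :
    h ∈ riemannRochSpace (Divisor.pullback E D0) ↔
      ∀ Q' : Place c E, h = 0 ∨
        -((Q'.ramificationIndex E0 : ℤ) * D0 (Q'.restrict E0)) ≤ Q'.ord h := by
  rw [mem_riemannRochSpace_iff]
  refine forall_congr' fun Q' => ?_
  rw [Divisor.pullback_apply]

/-- the Riemann-Roch space of a pulled-back divisor is stable under `Gal(E / E0)` -/
theorem map_mem_pullback (τ : E ≃ₐ[E0] E) (D0 : Divisor c E0) {h : E}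
    (hh : h ∈ riemannRochSpace (Divisor.pullback E D0)) :
    τ h ∈ riemannRochSpace (Divisor.pullback E D0) := by
  rw [mem_pullback_iff] at hh ⊢
  intro Q'
  rcases hh ((τ.restrictScalars c)⁻¹ • Q') with h0 | h1
  · left
    rw [h0, map_zero]
  · right
    have hτ : (τ.restrictScalars c)⁻¹ = (τ⁻¹).restrictScalars c := rfl
    rw [hτ, ramificationIndex_smul, restrict_smul, ← hτ, ← ord_map] at h1
    exact h1

variable {σ : E ≃ₐ[E0] E} {n : ℕ} {ζ : c}

/-- and under the eigen-projections -/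
theorem proj_mem_pullback (D0 : Divisor c E0) (a : ℕ) {h : E}
    (hh : h ∈ riemannRochSpace (Divisor.pullback E D0)) :
    proj σ n ζ a h ∈ riemannRochSpace (Divisor.pullback E D0) := by
  unfold proj
  rw [← Algebra.smul_def]
  refine Submodule.smul_mem _ _ (Submodule.sum_mem _ fun b _ => ?_)
  rw [← Algebra.smul_def]
  exact Submodule.smul_mem _ _ (map_mem_pullback (σ ^ b) D0 hh)

end Pullback

/-! ### the arithmetic of the floor -/

/-- with `n v = e m`: `-(e d) ≤ e x + a v ↔ -(d + ⌊a m / n⌋) ≤ x` -/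
theorem floor_iff {n e : ℤ} (hn : 0 < n) (he : 0 < e) {x d v m a : ℤ} (hv : n * v = e * m) :
    -(e * d) ≤ e * x + a * v ↔ -(d + (a * m) / n) ≤ x := by
  have hA := Int.mul_ediv_add_emod (a * m) n
  have hr0 := Int.emod_nonneg (a * m) hn.ne'
  have hr1 := Int.emod_lt_of_pos (a * m) hn
  set q := (a * m) / n with hq
  set r := (a * m) % n with hr
  have key : n * (e * x + a * v + e * d) = e * (n * (x + d + q) + r) := by
    have h1 : a * (n * v) = e * (a * m) := by rw [hv]; ring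
    calc n * (e * x + a * v + e * d) = n * e * x + a * (n * v) + n * e * d := by ring
      _ = n * e * x + e * (a * m) + n * e * d := by rw [h1]
      _ = n * e * x + e * (n * q + r) + n * e * d := by rw [hA]
      _ = e * (n * (x + d + q) + r) := by ring
  constructor
  · intro h
    have h1 : 0 ≤ n * (e * x + a * v + e * d) := mul_nonneg hn.le (by linarith)
    rw [key] at h1
    have h2 : 0 ≤ n * (x + d + q) + r := by
      by_contra hneg
      rw [not_le] at hneg
      have := mul_neg_of_pos_of_neg he hneg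
      linarith
    have h3 : -1 < x + d + q := by
      by_contra hle
      rw [not_lt] at hle
      have : n * (x + d + q) ≤ n * (-1) := mul_le_mul_of_nonneg_left hle hn.le
      linarith
    omega
  · intro h
    have h0 : 0 ≤ x + d + q := by linarith
    have h1 : 0 ≤ e * (n * (x + d + q) + r) :=
      mul_nonneg he.le (add_nonneg (mul_nonneg hn.le h0) hr0)
    rw [← key] at h1
    have h2 : 0 ≤ e * x + a * v + e * d := by
      by_contra hneg
      rw [not_le] at hneg
      have := mul_neg_of_pos_of_neg hn hneg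
      linarith
    linarith

/-- for `m` prime to `n` and `b + b' = n`, `0 < b < n`: `(b m mod n) + (b' m mod n) = n` -/
theorem emod_add_emod_of_add_eq {n : ℤ} (hn : 0 < n) {m b b' : ℤ} (hm : IsCoprime m n)
    (hb : 0 < b) (hbn : b < n) (hbb : b + b' = n) : (b * m) % n + (b' * m) % n = n := by
  have hA := Int.mul_ediv_add_emod (b * m) n
  have hr0 := Int.emod_nonneg (b * m) hn.ne'
  have hr1 := Int.emod_lt_of_pos (b * m) hn
  set q := (b * m) / n with hq
  set r := (b * m) % n with hr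
  have hrne : r ≠ 0 := by
    intro h0
    have hdvd : n ∣ b * m := Int.dvd_of_emod_eq_zero h0
    have hdvd' : n ∣ b := (hm.symm.dvd_of_dvd_mul_right hdvd)
    have := Int.le_of_dvd hb hdvd'
    omega
  have hb' : b' * m = (n - r) + n * (m - q - 1) := by
    have : b' = n - b := by omega
    rw [this]
    have h2 : b * m = n * q + r := hA.symm
    calc (n - b) * m = n * m - b * m := by ring
      _ = n * m - (n * q + r) := by rw [h2]
      _ = (n - r) + n * (m - q - 1) := by ring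
  rw [hb', Int.add_mul_emod_self_left, Int.emod_eq_of_lt (by omega) (by omega)]
  ring

/-- **`2 ∑_{a < n} (a m mod n) = n (n - 1)`** for `m` prime to `n` -/
theorem two_mul_sum_emod {n : ℕ} (hn : 0 < n) {m : ℤ} (hm : IsCoprime m (n : ℤ)) :
    2 * ∑ a ∈ Finset.range n, ((a : ℤ) * m) % (n : ℤ) = (n : ℤ) * ((n : ℤ) - 1) := by
  obtain ⟨k, rfl⟩ : ∃ k, n = k + 1 := Nat.exists_eq_succ_of_ne_zero hn.ne'
  rw [Finset.sum_range_succ']
  simp only [Nat.cast_zero, zero_mul, Int.zero_emod, add_zero]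
  have hrefl := Finset.sum_range_reflect
    (fun j : ℕ => (((j + 1 : ℕ) : ℤ) * m) % ((k + 1 : ℕ) : ℤ)) k
  have h2 : 2 * ∑ j ∈ Finset.range k, (((j + 1 : ℕ) : ℤ) * m) % ((k + 1 : ℕ) : ℤ) =
      ∑ j ∈ Finset.range k, ((((j + 1 : ℕ) : ℤ) * m) % ((k + 1 : ℕ) : ℤ) +
        (((k - 1 - j + 1 : ℕ) : ℤ) * m) % ((k + 1 : ℕ) : ℤ)) := by
    rw [Finset.sum_add_distrib, hrefl]
    ring
  rw [h2]
  have h3 : ∀ j ∈ Finset.range k, ((((j + 1 : ℕ) : ℤ) * m) % ((k + 1 : ℕ) : ℤ) +
      (((k - 1 - j + 1 : ℕ) : ℤ) * m) % ((k + 1 : ℕ) : ℤ)) = ((k + 1 : ℕ) : ℤ) := by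
    intro j hj
    have hjk : j < k := Finset.mem_range.mp hj
    apply emod_add_emod_of_add_eq (by positivity) hm
    · positivity
    · push_cast; omega
    · have : k - 1 - j + 1 = k - j := by omega
      rw [this]
      push_cast [Nat.cast_sub hjk.le]
      ring
  rw [Finset.sum_congr rfl h3, Finset.sum_const, Finset.card_range]
  push_cast
  ring

/-- all places of degree one: the degree is the sum of the coefficients -/
theorem degree_eq_sum_of_deg_one {K : Type*} [Field K] {F : Type*} [Field F] [Algebra K F]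
    (hdeg : ∀ v : Place K F, v.deg = 1) (D : Divisor K F) (S : Finset (Place K F))
    (hS : D.support ⊆ S) : Divisor.degree D = ∑ Q ∈ S, D Q := by
  unfold Divisor.degree
  rw [Finsupp.liftAddHom_apply, Finsupp.sum_of_support_subset D hS _ (fun Q _ => by simp)]
  refine Finset.sum_congr rfl fun Q _ => ?_
  simp [hdeg Q]

/-! ### the Kummer generator -/

section Kummer

variable {σ : E ≃ₐ[E0] E} {n : ℕ} {ζ : c} (H : Cyc σ n ζ) {w : E} (hw0 : w ≠ 0)
  (hw : σ w = algebraMap c E ζ * w)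

include H hw0 hw

theorem n_pos : 0 < n := Nat.pos_of_ne_zero H.m_ne_zero

/-- `n ord_{Q'} w = e(Q' | Q) ord_Q t` -/
theorem n_mul_ord (Q' : Place c E) :
    (n : ℤ) * Q'.ord w = (Q'.ramificationIndex E0 : ℤ) * (Q'.restrict E0).ord (H.tOf hw0 hw) := by
  rw [← Q'.ord_restrict, H.tOf_spec hw0 hw, ← zpow_natCast, Q'.ord_zpow]

theorem ord_mul_pow (Q' : Place c E) {f : E0} (hf : f ≠ 0) (a : ℕ) :
    Q'.ord (algebraMap E0 E f * w ^ a) =
      (Q'.ramificationIndex E0 : ℤ) * (Q'.restrict E0).ord f + (a : ℤ) * Q'.ord w := by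
  rw [Q'.ord_mul ((map_ne_zero (algebraMap E0 E)).mpr hf) (pow_ne_zero a hw0), Q'.ord_restrict,
    ← zpow_natCast, Q'.ord_zpow]

variable [HasPrincipalDivisors c E0]

/-- the divisor of `t` -/
def divT : Divisor c E0 :=
  (HasPrincipalDivisors.exists_divisor (K := c) (H.tOf hw0 hw) (H.tOf_ne_zero hw0 hw)).choose

theorem divT_apply (Q : Place c E0) : divT H hw0 hw Q = Q.ord (H.tOf hw0 hw) :=
  (HasPrincipalDivisors.exists_divisor (K := c) (H.tOf hw0 hw)
    (H.tOf_ne_zero hw0 hw)).choose_spec.1 Q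

theorem degree_divT : Divisor.degree (divT H hw0 hw) = 0 :=
  (HasPrincipalDivisors.exists_divisor (K := c) (H.tOf hw0 hw)
    (H.tOf_ne_zero hw0 hw)).choose_spec.2

/-- the divisor `⌊a (t) / n⌋` -/
def fl (a : ℕ) : Divisor c E0 :=
  (divT H hw0 hw).mapRange (fun m => ((a : ℤ) * m) / (n : ℤ)) (by simp)

theorem fl_apply (a : ℕ) (Q : Place c E0) :
    fl H hw0 hw a Q = ((a : ℤ) * Q.ord (H.tOf hw0 hw)) / (n : ℤ) := by
  unfold fl
  rw [Finsupp.mapRange_apply, divT_apply]

variable [HasPrincipalDivisors c E]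

/-- **`f w^a ∈ L(π^* D0) ↔ f ∈ L(D0 + ⌊a (t) / n⌋)`** -/
theorem mul_pow_mem_pullback_iff (D0 : Divisor c E0) (a : ℕ) (f : E0) :
    algebraMap E0 E f * w ^ a ∈ riemannRochSpace (Divisor.pullback E D0) ↔
      f ∈ riemannRochSpace (D0 + fl H hw0 hw a) := by
  have hn : (0 : ℤ) < n := by exact_mod_cast n_pos H hw0 hw
  rcases eq_or_ne f 0 with rfl | hf
  · simp
  have hne : algebraMap E0 E f * w ^ a ≠ 0 :=
    mul_ne_zero ((map_ne_zero (algebraMap E0 E)).mpr hf) (pow_ne_zero a hw0)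
  rw [mem_pullback_iff, mem_riemannRochSpace_iff]
  constructor
  · intro h Q
    right
    obtain ⟨Q', rfl⟩ :=
      Fermat.Agent.S43.LG1.C2.LiftCover.exists_place_over_of_cyc H hw0 hw Q
    have he : (0 : ℤ) < Q'.ramificationIndex E0 := by
      exact_mod_cast Q'.ramificationIndex_pos (F := E0)
    rcases h Q' with h0 | h1
    · exact absurd h0 hne
    · rw [ord_mul_pow H hw0 hw Q' hf a] at h1
      rw [Finsupp.add_apply, fl_apply]
      exact (floor_iff hn he (n_mul_ord H hw0 hw Q')).mp h1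
  · intro h Q'
    right
    have he : (0 : ℤ) < Q'.ramificationIndex E0 := by
      exact_mod_cast Q'.ramificationIndex_pos (F := E0)
    rcases h (Q'.restrict E0) with h0 | h1
    · exact absurd h0 hf
    · rw [ord_mul_pow H hw0 hw Q' hf a]
      rw [Finsupp.add_apply, fl_apply] at h1
      exact (floor_iff hn he (n_mul_ord H hw0 hw Q')).mpr h1

/-! ### the decomposition of `L(π^* D0)` -/

/-- the map `(f_a)_a ↦ ∑_a f_a w^a` -/
def sumMap (D0 : Divisor c E0) :
    (∀ a : Fin n, riemannRochSpace (D0 + fl H hw0 hw (a : ℕ))) →ₗ[c]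
      riemannRochSpace (Divisor.pullback E D0) where
  toFun f := ⟨∑ a : Fin n, algebraMap E0 E ((f a : riemannRochSpace _) : E0) * w ^ (a : ℕ),
    Submodule.sum_mem _ fun a _ =>
      (mul_pow_mem_pullback_iff H hw0 hw D0 (a : ℕ) (f a : E0)).mpr (f a).2⟩
  map_add' f g := by
    apply Subtype.ext
    simp only [Pi.add_apply, Submodule.coe_add, map_add, add_mul, Finset.sum_add_distrib]
  map_smul' k f := by
    apply Subtype.ext
    simp only [Pi.smul_apply, Submodule.coe_smul, RingHom.id_apply, Finset.smul_sum]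
    refine Finset.sum_congr rfl fun a _ => ?_
    rw [Algebra.smul_def, Algebra.smul_def, map_mul, ← IsScalarTower.algebraMap_apply, mul_assoc]

theorem coe_sumMap (D0 : Divisor c E0)
    (f : ∀ a : Fin n, riemannRochSpace (D0 + fl H hw0 hw (a : ℕ))) :
    ((sumMap H hw0 hw D0 f : riemannRochSpace (Divisor.pullback E D0)) : E) =
      ∑ a : Fin n, algebraMap E0 E ((f a : riemannRochSpace _) : E0) * w ^ (a : ℕ) := rfl

theorem sumMap_injective (D0 : Divisor c E0) : Function.Injective (sumMap H hw0 hw D0) := by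
  rw [← LinearMap.ker_eq_bot, LinearMap.ker_eq_bot']
  intro f hf
  have h0 : ∑ a : Fin n, algebraMap E0 E ((f a : riemannRochSpace _) : E0) * w ^ (a : ℕ) = 0 := by
    rw [← coe_sumMap, hf]
    rfl
  have h1 : ∑ a ∈ Finset.range n, algebraMap E0 E
      ((fun a => if h : a < n then ((f ⟨a, h⟩ : riemannRochSpace _) : E0) else 0) a) * w ^ a = 0 := by
    rw [Finset.sum_range, ← h0]
    refine Finset.sum_congr rfl fun j _ => ?_
    simp only [dif_pos j.2]
  funext a
  apply Subtype.ext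
  have := H.coeff_eq_zero hw0 hw _ h1 a.2
  rw [dif_pos a.2] at this
  exact this

theorem sumMap_surjective (D0 : Divisor c E0) : Function.Surjective (sumMap H hw0 hw D0) := by
  intro h
  have hmem : ∀ a : ℕ, H.coord hw0 hw a (h : E) ∈ riemannRochSpace (D0 + fl H hw0 hw a) := by
    intro a
    rw [← mul_pow_mem_pullback_iff H hw0 hw D0 a, H.coord_mul_pow hw0 hw]
    exact proj_mem_pullback D0 a h.2
  refine ⟨fun a => ⟨H.coord hw0 hw (a : ℕ) (h : E), hmem a⟩, ?_⟩
  apply Subtype.ext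
  rw [coe_sumMap]
  have := H.sum_coord hw0 hw (h : E)
  rw [Finset.sum_range] at this
  exact this

/-- **`L(π^* D0) ≃ ∏_{a < n} L(D0 + ⌊a (t) / n⌋)`** -/
def sumEquiv (D0 : Divisor c E0) :
    (∀ a : Fin n, riemannRochSpace (D0 + fl H hw0 hw (a : ℕ))) ≃ₗ[c]
      riemannRochSpace (Divisor.pullback E D0) :=
  LinearEquiv.ofBijective (sumMap H hw0 hw D0)
    ⟨sumMap_injective H hw0 hw D0, sumMap_surjective H hw0 hw D0⟩

/-- **`l(π^* D0) = ∑_{a < n} l(D0 + ⌊a (t) / n⌋)`** -/
theorem ell_pullback {g0 : ℕ} (R0 : RiemannHyp c E0 g0) (D0 : Divisor c E0) :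
    ell (Divisor.pullback E D0) = ∑ a : Fin n, ell (D0 + fl H hw0 hw (a : ℕ)) := by
  unfold ell
  have : ∀ a : Fin n, Module.Finite c (riemannRochSpace (D0 + fl H hw0 hw (a : ℕ))) :=
    fun a => R0.finite _
  rw [← (sumEquiv H hw0 hw D0).finrank_eq, Module.finrank_pi_fintype]

/-! ### the genus -/

theorem support_fl_subset (a : ℕ) : (fl H hw0 hw a).support ⊆ (divT H hw0 hw).support := by
  unfold fl
  exact Finsupp.support_mapRange

/-- `n deg ⌊a (t) / n⌋ = - ∑_Q (a ord_Q t mod n)` -/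
theorem n_mul_degree_fl {g0 : ℕ} (R0 : RiemannHyp c E0 g0) (a : ℕ) :
    (n : ℤ) * Divisor.degree (fl H hw0 hw a) =
      - ∑ Q ∈ (divT H hw0 hw).support, ((a : ℤ) * Q.ord (H.tOf hw0 hw)) % (n : ℤ) := by
  rw [degree_eq_sum_of_deg_one R0.deg_one _ _ (support_fl_subset H hw0 hw a), Finset.mul_sum]
  have h0 : ∑ Q ∈ (divT H hw0 hw).support, (a : ℤ) * Q.ord (H.tOf hw0 hw) = 0 := by
    rw [← Finset.mul_sum]
    have := degree_divT H hw0 hw
    rw [degree_eq_sum_of_deg_one R0.deg_one _ _ (Finset.Subset.refl _)] at this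
    simp only [divT_apply] at this
    rw [this, mul_zero]
  rw [eq_neg_iff_add_eq_zero, ← Finset.sum_add_distrib, ← h0]
  refine Finset.sum_congr rfl fun Q _ => ?_
  rw [fl_apply]
  exact Int.mul_ediv_add_emod _ _

/-- the pull-back of a point has positive degree -/
theorem one_le_degree_pullback_single {g : ℕ} (R1 : RiemannHyp c E g) (P0 : Place c E0) :
    1 ≤ Divisor.degree (Divisor.pullback E (Finsupp.single P0 (1 : ℤ))) := by
  rw [Divisor.pullback_single, map_sum]
  obtain ⟨Q', hQ'⟩ := Fermat.Agent.S43.LG1.C2.LiftCover.exists_place_over_of_cyc H hw0 hw P0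
  have hmem : Q' ∈ P0.fiber E := Place.mem_fiber.mpr hQ'
  have hterm : ∀ w ∈ P0.fiber E, (0 : ℤ) ≤
      Divisor.degree (Finsupp.single w ((1 : ℤ) * (w.ramificationIndex E0 : ℤ))) := by
    intro w _
    rw [Divisor.degree_single, R1.deg_one w]
    positivity
  refine le_trans ?_ (Finset.single_le_sum hterm hmem)
  rw [Divisor.degree_single, R1.deg_one Q']
  have := Q'.ramificationIndex_pos (F := E0)
  push_cast
  omega

/-- **the genus of a cyclic Kummer extension**, by Riemann-Roch on both sides: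
`n (g - 1) = n^2 (g0 - 1) + ∑_{a < n} ∑_Q (a ord_Q t mod n)` -/
theorem genus_formula {g0 g : ℕ} (R0 : RiemannHyp c E0 g0) (R1 : RiemannHyp c E g) :
    (n : ℤ) * ((g : ℤ) - 1) = (n : ℤ) ^ 2 * ((g0 : ℤ) - 1) +
      ∑ a ∈ Finset.range n, ∑ Q ∈ (divT H hw0 hw).support,
        ((a : ℤ) * Q.ord (H.tOf hw0 hw)) % (n : ℤ) := by
  have hn : (0 : ℤ) < n := by exact_mod_cast n_pos H hw0 hw
  have := R0.infinite
  obtain ⟨P0⟩ : Nonempty (Place c E0) := inferInstance
  set d' : ℤ := Divisor.degree (Divisor.pullback E (Finsupp.single P0 (1 : ℤ))) with hd'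
  have hd1 : 1 ≤ d' := one_le_degree_pullback_single H hw0 hw R1 P0
  set δ : ℕ → ℤ := fun a => Divisor.degree (fl H hw0 hw a) with hδ
  obtain ⟨c0, h0⟩ := R0.riemann_eq
  obtain ⟨c1, h1⟩ := R1.riemann_eq
  have hdegm : ∀ m : ℤ,
      Divisor.degree (Divisor.pullback E (Finsupp.single P0 m)) = m * d' := by
    intro m
    have : Finsupp.single P0 m = m • Finsupp.single P0 (1 : ℤ) := by
      rw [Finsupp.smul_single, smul_eq_mul, mul_one]
    rw [this, map_zsmul, map_zsmul, smul_eq_mul]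
  have hdeg0 : ∀ (m : ℤ) (a : ℕ),
      Divisor.degree (Finsupp.single P0 m + fl H hw0 hw a) = m + δ a := by
    intro m a
    rw [map_add, Divisor.degree_single, R0.deg_one P0]
    simp [hδ]
  set M : ℤ := |c1| + |c0| + ∑ a : Fin n, |δ (a : ℕ)| with hM
  have hsum_nonneg : 0 ≤ ∑ a : Fin n, |δ (a : ℕ)| :=
    Finset.sum_nonneg fun a _ => abs_nonneg _
  have key : ∀ m : ℤ, M ≤ m → m * d' + 1 - (g : ℤ) =
      (n : ℤ) * m + ∑ a : Fin n, δ (a : ℕ) + (n : ℤ) * (1 - (g0 : ℤ)) := by
    intro m hm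
    have hm0 : 0 ≤ m := by
      have := abs_nonneg c1
      have := abs_nonneg c0
      linarith
    have e1 := h1 (Divisor.pullback E (Finsupp.single P0 m)) (by
      rw [hdegm]
      have : m ≤ m * d' := by nlinarith
      have := le_abs_self c1
      have := abs_nonneg c0
      linarith)
    rw [hdegm, ell_pullback H hw0 hw R0] at e1
    push_cast at e1
    have e0 : ∀ a : Fin n, (ell (Finsupp.single P0 m + fl H hw0 hw (a : ℕ)) : ℤ) =
        m + δ (a : ℕ) + 1 - (g0 : ℤ) := by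
      intro a
      have := h0 (Finsupp.single P0 m + fl H hw0 hw (a : ℕ)) (by
        rw [hdeg0]
        have h1 : |δ (a : ℕ)| ≤ ∑ b : Fin n, |δ (b : ℕ)| :=
          Finset.single_le_sum (f := fun b : Fin n => |δ (b : ℕ)|)
            (fun b _ => abs_nonneg _) (Finset.mem_univ a)
        have := neg_abs_le (δ (a : ℕ))
        have := le_abs_self c0
        have := abs_nonneg c1
        linarith)
      rw [hdeg0] at this
      exact this
    rw [Finset.sum_congr rfl fun a _ => e0 a] at e1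
    rw [← e1]
    simp only [Finset.sum_add_distrib, Finset.sum_sub_distrib, Finset.sum_const,
      Finset.card_univ, Fintype.card_fin, nsmul_eq_mul]
    ring
  have k0 := key M le_rfl
  have k1 := key (M + 1) (by linarith)
  have hd'n : d' = n := by linarith
  have hg : 1 - (g : ℤ) = ∑ a : Fin n, δ (a : ℕ) + (n : ℤ) * (1 - (g0 : ℤ)) := by
    rw [hd'n] at k0
    linarith
  have hsum : (n : ℤ) * ∑ a : Fin n, δ (a : ℕ) =
      - ∑ a ∈ Finset.range n, ∑ Q ∈ (divT H hw0 hw).support,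
        ((a : ℤ) * Q.ord (H.tOf hw0 hw)) % (n : ℤ) := by
    rw [Finset.mul_sum, Finset.sum_range, ← Finset.sum_neg_distrib]
    exact Finset.sum_congr rfl fun a _ => n_mul_degree_fl H hw0 hw R0 (a : ℕ)
  have : (n : ℤ) * (1 - (g : ℤ)) =
      (n : ℤ) * ∑ a : Fin n, δ (a : ℕ) + (n : ℤ) ^ 2 * (1 - (g0 : ℤ)) := by
    rw [hg]
    ring
  rw [hsum] at this
  linarith

/-- **unramified case**: `n ∣ ord_Q t` at every place `⇒ g - 1 = n (g0 - 1)` -/
theorem genus_eq_of_dvd {g0 g : ℕ} (R0 : RiemannHyp c E0 g0) (R1 : RiemannHyp c E g)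
    (hdvd : ∀ Q : Place c E0, (n : ℤ) ∣ Q.ord (H.tOf hw0 hw)) :
    (g : ℤ) - 1 = (n : ℤ) * ((g0 : ℤ) - 1) := by
  have hn : (0 : ℤ) < n := by exact_mod_cast n_pos H hw0 hw
  have h := genus_formula H hw0 hw R0 R1
  have hz : ∑ a ∈ Finset.range n, ∑ Q ∈ (divT H hw0 hw).support,
      ((a : ℤ) * Q.ord (H.tOf hw0 hw)) % (n : ℤ) = 0 :=
    Finset.sum_eq_zero fun a _ => Finset.sum_eq_zero fun Q _ =>
      Int.emod_eq_zero_of_dvd (Dvd.dvd.mul_left (hdvd Q) _)
  rw [hz, add_zero, pow_two, mul_assoc] at h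
  exact mul_left_cancel₀ hn.ne' h

/-- **totally ramified places**: if `ord_Q t` is prime to `n` on a finite set `S` of places then
`n (2 g0 - 2) + #S (n - 1) ≤ 2 g - 2` -/
theorem genus_ge_of_coprime {g0 g : ℕ} (R0 : RiemannHyp c E0 g0) (R1 : RiemannHyp c E g)
    (S : Finset (Place c E0))
    (hS : ∀ Q ∈ S, IsCoprime (Q.ord (H.tOf hw0 hw)) (n : ℤ)) :
    (n : ℤ) * (2 * (g0 : ℤ) - 2) + (S.card : ℤ) * ((n : ℤ) - 1) ≤ 2 * (g : ℤ) - 2 := by
  classical
  have hn : (0 : ℤ) < n := by exact_mod_cast n_pos H hw0 hw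
  have h := genus_formula H hw0 hw R0 R1
  set T : Place c E0 → ℤ := fun Q =>
    ∑ a ∈ Finset.range n, ((a : ℤ) * Q.ord (H.tOf hw0 hw)) % (n : ℤ) with hT
  have hT0 : ∀ Q, 0 ≤ T Q := fun Q =>
    Finset.sum_nonneg fun a _ => Int.emod_nonneg _ hn.ne'
  have hTz : ∀ Q, Q ∉ (divT H hw0 hw).support → T Q = 0 := by
    intro Q hQ
    rw [Finsupp.notMem_support_iff, divT_apply] at hQ
    simp [hT, hQ]
  have hTS : ∀ Q ∈ S, 2 * T Q = (n : ℤ) * ((n : ℤ) - 1) := fun Q hQ =>
    two_mul_sum_emod (n_pos H hw0 hw) (hS Q hQ)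
  have hcomm : ∑ a ∈ Finset.range n, ∑ Q ∈ (divT H hw0 hw).support,
      ((a : ℤ) * Q.ord (H.tOf hw0 hw)) % (n : ℤ) = ∑ Q ∈ (divT H hw0 hw).support, T Q :=
    Finset.sum_comm
  rw [hcomm] at h
  have h1 : ∑ Q ∈ (divT H hw0 hw).support, T Q =
      ∑ Q ∈ (divT H hw0 hw).support ∪ S, T Q :=
    Finset.sum_subset Finset.subset_union_left fun Q _ hQ => hTz Q hQ
  have h2 : ∑ Q ∈ S, T Q ≤ ∑ Q ∈ (divT H hw0 hw).support ∪ S, T Q :=
    Finset.sum_le_sum_of_subset_of_nonneg Finset.subset_union_right fun Q _ _ => hT0 Q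
  have h3 : 2 * ∑ Q ∈ S, T Q = (S.card : ℤ) * ((n : ℤ) * ((n : ℤ) - 1)) := by
    rw [Finset.mul_sum, Finset.sum_congr rfl hTS, Finset.sum_const, nsmul_eq_mul]
  have h4 : (n : ℤ) * ((n : ℤ) * (2 * (g0 : ℤ) - 2) + (S.card : ℤ) * ((n : ℤ) - 1)) ≤
      (n : ℤ) * (2 * (g : ℤ) - 2) := by
    have e : (n : ℤ) * (2 * (g : ℤ) - 2) = (n : ℤ) * ((n : ℤ) * (2 * (g0 : ℤ) - 2)) +
        2 * ∑ Q ∈ (divT H hw0 hw).support, T Q := by
      have : (n : ℤ) * (2 * (g : ℤ) - 2) = 2 * ((n : ℤ) * ((g : ℤ) - 1)) := by ring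
      rw [this, h]
      ring
    rw [e, h1]
    have : (n : ℤ) * ((S.card : ℤ) * ((n : ℤ) - 1)) = 2 * ∑ Q ∈ S, T Q := by
      rw [h3]
      ring
    rw [mul_add, this]
    linarith
  exact le_of_mul_le_mul_left h4 hn

end Kummer

end Fermat.Agent.S43.LG1.C2.KummerRR

end
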