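import Mathlib
import Fermat.Agent.S43.LG1.C2.KummerRR
import Fermat.Agent.S43.LG1.C2.Branch
import Fermat.Agent.S43.LG1.C2.Rigid

/-!
# PROJECT R (S43), gate, C2 (relative lift), items (e) + (f): the genus count of the cover

The genus formula of a cyclic Kummer extension (`C2/KummerRR`) on the three Kummer extensions of
`Seam.KummerCover`:

* `F / F0` (characteristic `0`), unramified at every place: `g' - 1 = m (g0 - 1)` (`hE_cover`);
* `K_i / κ_i` (residue characteristic), totally ramified over the nodes: if SOME `ν' ∈ K_i` has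
  `ν'^m = θ' ∈ κ_i` with `ord_{e_i j} θ'` prime to `m` at every node, then
  `m (2 g_k - 2) + s (m - 1) ≤ 2 g_i - 2` (`hH_branch`; the Kummer generator used inside is the
  reduction of a unit eigenvector, `transfer` moves the coprimality from `θ'` to it);
* `hcount_cover` : with the count of the base, `g' ≤ g_1 + (g_2 + s - 1)`;
* `riemannGe_nodalRigid_cover` : `hR` and `hG` of `CoreZOfInertiaTw.principal_of_inertia_tw` for the
  lifted datum.
-/

set_option autoImplicit false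
set_option linter.unusedSectionVars false

noncomputable section

namespace Fermat.Agent.S43.LG1.C2.Genus

open AlgebraicCurve Fermat.Agent.S18.NonSpecial Fermat.Agent.S18.CoreDefs
  Fermat.Agent.S34.NodalDefs Fermat.Agent.S43.LG1.C2.Seam Fermat.Agent.S43.LG1.C2.Proj
  Fermat.Agent.S43.LG1.C2.Kummer Fermat.Agent.S43.LG1.C2.KummerRR

/-! ### generic: the two inputs of the genus formula -/

section Generic

variable {c : Type*} [Field c] {E0 : Type*} [Field E0] [Algebra c E0] {E : Type*} [Field E]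
  [Algebra c E] [Algebra E0 E] [IsScalarTower c E0 E] [Algebra.IsIntegral E0 E]
variable {σ : E ≃ₐ[E0] E} {n : ℕ} {ζ : c} (H : Cyc σ n ζ) {w : E} (hw0 : w ≠ 0)
  (hw : σ w = algebraMap c E ζ * w)

include H hw0 hw

/-- any other name of `w^n` -/
theorem tOf_eq_of_pow {Θ : E0} (hΘ : algebraMap E0 E Θ = w ^ n) : H.tOf hw0 hw = Θ :=
  (algebraMap E0 E).injective ((H.tOf_spec hw0 hw).trans hΘ.symm)

/-- **unramified `⇒ n ∣ ord t`** -/
theorem dvd_ord_tOf_of_unram (Q : Place c E0)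
    (hun : ∀ Q' : Place c E, Q'.restrict E0 = Q → Q'.ramificationIndex E0 = 1) :
    (n : ℤ) ∣ Q.ord (H.tOf hw0 hw) := by
  obtain ⟨Q', hQ'⟩ := Fermat.Agent.S43.LG1.C2.LiftCover.exists_place_over_of_cyc H hw0 hw Q
  have h := n_mul_ord H hw0 hw Q'
  rw [hun Q' hQ', hQ', Nat.cast_one, one_mul] at h
  exact ⟨Q'.ord w, h.symm⟩

/-- an element whose `n`-th power lies in `E0` is an `E0`-multiple of a power of `w` -/
theorem exists_eq_mul_pow_of_pow {ν' : E} (hν'0 : ν' ≠ 0) {θ' : E0}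
    (hν' : ν' ^ n = algebraMap E0 E θ') :
    ∃ (b : ℕ) (f : E0), f ≠ 0 ∧ ν' = algebraMap E0 E f * w ^ b := by
  have hn : n ≠ 0 := H.m_ne_zero
  have : NeZero n := ⟨hn⟩
  have hζE : IsPrimitiveRoot (algebraMap c E ζ) n :=
    H.hζ.map_of_injective (algebraMap c E).injective
  have hσν : σ ν' ≠ 0 := (map_ne_zero σ).mpr hν'0
  -- `σ ν' / ν'` is an `n`-th root of unity
  have hξ : (σ ν' * ν'⁻¹) ^ n = 1 := by
    rw [mul_pow, inv_pow, ← map_pow, hν', σ.commutes]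
    exact mul_inv_cancel₀ (by rw [← hν']; exact pow_ne_zero n hν'0)
  obtain ⟨b, -, hb⟩ := hζE.eq_pow_of_pow_eq_one hξ
  have hσν' : σ ν' = algebraMap c E (ζ ^ b) * ν' := by
    rw [map_pow, hb, mul_assoc, inv_mul_cancel₀ hν'0, mul_one]
  have hfix : σ (ν' * (w ^ b)⁻¹) = ν' * (w ^ b)⁻¹ := by
    rw [map_mul, map_inv₀, hσν', H.σ_pow_eigen hw, mul_inv]
    have h1 : algebraMap c E (ζ ^ b) ≠ 0 :=
      (map_ne_zero (algebraMap c E)).mpr (pow_ne_zero b H.ζ_ne_zero)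
    field_simp
  obtain ⟨f, hf⟩ := H.fixed _ hfix
  refine ⟨b, f, ?_, ?_⟩
  · rintro rfl
    rw [map_zero] at hf
    exact mul_ne_zero hν'0 (inv_ne_zero (pow_ne_zero b hw0)) hf.symm
  · rw [hf, mul_assoc, inv_mul_cancel₀ (pow_ne_zero b hw0), mul_one]

/-- **transfer of the coprimality** from any `n`-th root `ν'` of an element `θ'` of `E0` to the
Kummer generator `w` -/
theorem transfer {ν' : E} {θ' : E0} (hν' : ν' ^ n = algebraMap E0 E θ') (Q : Place c E0)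
    (hcop : IsCoprime (Q.ord θ') (n : ℤ)) : IsCoprime (Q.ord (H.tOf hw0 hw)) (n : ℤ) := by
  have hn : n ≠ 0 := H.m_ne_zero
  rcases eq_or_ne ν' 0 with rfl | hν'0
  · -- then `θ' = 0`, `ord θ' = 0` and `n` is a unit
    rw [zero_pow hn] at hν'
    have hθ : θ' = 0 := ((map_eq_zero (algebraMap E0 E)).mp hν'.symm)
    rw [hθ, Place.ord_zero] at hcop
    exact isCoprime_one_right.of_isCoprime_of_dvd_right
      (isUnit_iff_dvd_one.mp (isCoprime_zero_left.mp hcop))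
  obtain ⟨b, f, hf0, hf⟩ := exists_eq_mul_pow_of_pow H hw0 hw hν'0 hν'
  have hθ : θ' = f ^ n * H.tOf hw0 hw ^ b := by
    apply (algebraMap E0 E).injective
    rw [← hν', hf, mul_pow, map_mul, map_pow, map_pow, H.tOf_spec hw0 hw, ← pow_mul, ← pow_mul,
      mul_comm b n]
  have hord : Q.ord θ' = (n : ℤ) * Q.ord f + (b : ℤ) * Q.ord (H.tOf hw0 hw) := by
    rw [hθ, Q.ord_mul (pow_ne_zero n hf0) (pow_ne_zero b (H.tOf_ne_zero hw0 hw)),
      ← zpow_natCast, Q.ord_zpow, ← zpow_natCast, Q.ord_zpow]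
  rw [hord, add_comm, mul_comm (n : ℤ), IsCoprime.add_mul_right_left_iff] at hcop
  exact hcop.of_mul_left_right

variable [HasPrincipalDivisors c E0] [HasPrincipalDivisors c E]

/-- **(HE)**: unramified at every place `⇒ g - 1 ≤ n (g0 - 1)` (equality, in fact) -/
theorem hE_of_unram {g0 g : ℕ} (R0 : RiemannHyp c E0 g0) (R1 : RiemannHyp c E g)
    (hun : ∀ Q' : Place c E, Q'.ramificationIndex E0 = 1) :
    (g : ℤ) - 1 ≤ (n : ℤ) * ((g0 : ℤ) - 1) :=
  le_of_eq (genus_eq_of_dvd H hw0 hw R0 R1 fun Q =>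
    dvd_ord_tOf_of_unram H hw0 hw Q fun Q' _ => hun Q')

/-- **(H_i)**: some `n`-th root of an element of `E0` whose order is prime to `n` at the `s`
distinct places `e j` `⇒ n (2 g0 - 2) + s (n - 1) ≤ 2 g - 2` -/
theorem hH_of_root {g0 g : ℕ} (R0 : RiemannHyp c E0 g0) (R1 : RiemannHyp c E g)
    {ι : Type*} [Fintype ι] (e : ι → Place c E0) (he : Function.Injective e)
    {ν' : E} {θ' : E0} (hν' : ν' ^ n = algebraMap E0 E θ')
    (hcop : ∀ j, IsCoprime ((e j).ord θ') (n : ℤ)) :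
    (n : ℤ) * (2 * (g0 : ℤ) - 2) + (Fintype.card ι : ℤ) * ((n : ℤ) - 1) ≤ 2 * (g : ℤ) - 2 := by
  classical
  have h := genus_ge_of_coprime H hw0 hw R0 R1 (Finset.univ.image e) (by
    intro Q hQ
    obtain ⟨j, -, rfl⟩ := Finset.mem_image.mp hQ
    exact transfer H hw0 hw hν' (e j) (hcop j))
  rwa [Finset.card_image_of_injective _ he, Finset.card_univ] at h

end Generic

/-! ### the Kummer cover -/

variable {L : Type*} [Field L] {k : Type*} [Field k] {A : ValuationSubring L} {π : A →+* k}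
variable {F0 : Type*} [Field F0] [Algebra L F0] {F : Type*} [Field F] [Algebra L F]
variable [Algebra F0 F] [IsScalarTower L F0 F] [Algebra.IsIntegral F0 F]

section OneBranch

variable {κ : Type*} [Field κ] [Algebra k κ] {K : Type*} [Field K] [Algebra k K]
variable [Algebra κ K] [IsScalarTower k κ K] [Algebra.IsIntegral κ K]
variable [HasPrincipalDivisors k κ] [HasPrincipalDivisors k K]

/-- **(H_i) for one branch of the cover** -/
theorem hH_branch {R0 : Branch A π F0 κ} {σ : F ≃ₐ[F0] F} {m : ℕ} {ζ : L}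
    (U : BranchOver (F := F) R0 σ K) (H : Cyc σ m ζ) (hmk : (m : k) ≠ 0) {z : F} (hz0 : z ≠ 0)
    (hz : σ z = algebraMap L F ζ * z) {gk gi : ℕ} (Rκ : RiemannHyp k κ gk)
    (RK : RiemannHyp k K gi) {ι : Type*} [Fintype ι] (e : ι → Place k κ)
    (he : Function.Injective e) {ν' : K} {θ' : κ} (hν' : ν' ^ m = algebraMap κ K θ')
    (hcop : ∀ j, IsCoprime ((e j).ord θ') (m : ℤ)) :
    (m : ℤ) * (2 * (gk : ℤ) - 2) + (Fintype.card ι : ℤ) * ((m : ℤ) - 1) ≤ 2 * (gi : ℤ) - 2 := by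
  obtain ⟨u, hu, -⟩ := Fermat.Agent.S43.LG1.C2.Branch.exists_unit_eigen U hz0 hz
  have hν0 : U.B.red (u : U.B.O) ≠ 0 := (u.isUnit.map U.B.red).ne_zero
  exact hH_of_root (Fermat.Agent.S43.LG1.C2.Branch.cycBar U H hmk) hν0
    (Fermat.Agent.S43.LG1.C2.Branch.red_unit_eigen U H u hu) Rκ RK e he hν' hcop

end OneBranch

variable {κ1 : Type*} [Field κ1] [Algebra k κ1] {κ2 : Type*} [Field κ2] [Algebra k κ2]
variable {K1 : Type*} [Field K1] [Algebra k K1] [Algebra κ1 K1] [IsScalarTower k κ1 K1]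
  [Algebra.IsIntegral κ1 K1]
variable {K2 : Type*} [Field K2] [Algebra k K2] [Algebra κ2 K2] [IsScalarTower k κ2 K2]
  [Algebra.IsIntegral κ2 K2]
variable {ι : Type*} {N0 : GNodalDatum A π F0 κ1 κ2 ι}
variable [HasPrincipalDivisors L F0] [HasPrincipalDivisors L F]

/-- **(HE) for the cover** -/
theorem hE_cover (X : KummerCover N0 K1 K2 F) {g0 g' : ℕ} (R0 : RiemannHyp L F0 g0)
    (R' : RiemannHyp L F g') (hun : ∀ P : Place L F, P.ramificationIndex F0 = 1) :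
    (g' : ℤ) - 1 ≤ (X.m : ℤ) * ((g0 : ℤ) - 1) :=
  hE_of_unram (Fermat.Agent.S43.LG1.C2.LiftCover.cycOfCover X) X.z_ne X.σ_z R0 R' hun

/-- (HE) for the cover, from the divisibility of the orders of any name `Θ` of `z^m` -/
theorem hE_cover_of_dvd (X : KummerCover N0 K1 K2 F) {g0 g' : ℕ} (R0 : RiemannHyp L F0 g0)
    (R' : RiemannHyp L F g') {Θ : F0} (hΘ : algebraMap F0 F Θ = X.z ^ X.m)
    (hdvd : ∀ Q : Place L F0, (X.m : ℤ) ∣ Q.ord Θ) :
    (g' : ℤ) - 1 ≤ (X.m : ℤ) * ((g0 : ℤ) - 1) := by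
  refine le_of_eq (genus_eq_of_dvd (Fermat.Agent.S43.LG1.C2.LiftCover.cycOfCover X) X.z_ne X.σ_z
    R0 R' fun Q => ?_)
  rw [tOf_eq_of_pow (Fermat.Agent.S43.LG1.C2.LiftCover.cycOfCover X) X.z_ne X.σ_z hΘ]
  exact hdvd Q

variable [HasPrincipalDivisors k κ1] [HasPrincipalDivisors k κ2]
  [HasPrincipalDivisors k K1] [HasPrincipalDivisors k K2]

/-- **the count of the cover**: `g' ≤ g1 + (g2 + s - 1)` -/
theorem hcount_cover [Fintype ι] [Nonempty ι] (X : KummerCover N0 K1 K2 F)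
    (hinj1 : Function.Injective N0.e1) (hinj2 : Function.Injective N0.e2)
    {g' g0 gk g1 g2 : ℕ} (Rκ1 : RiemannHyp k κ1 gk) (Rκ2 : RiemannHyp k κ2 gk)
    (RK1 : RiemannHyp k K1 g1) (RK2 : RiemannHyp k K2 g2)
    (hE : (g' : ℤ) - 1 ≤ (X.m : ℤ) * ((g0 : ℤ) - 1))
    {ν1 : K1} {θ1 : κ1} (hν1 : ν1 ^ X.m = algebraMap κ1 K1 θ1)
    (hcop1 : ∀ j, IsCoprime ((N0.e1 j).ord θ1) (X.m : ℤ))
    {ν2 : K2} {θ2 : κ2} (hν2 : ν2 ^ X.m = algebraMap κ2 K2 θ2)
    (hcop2 : ∀ j, IsCoprime ((N0.e2 j).ord θ2) (X.m : ℤ))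
    (hNC : (g0 : ℤ) + 1 ≤ gk + gk + Fintype.card ι) :
    g' ≤ g1 + (g2 + Fintype.card ι - 1) := by
  have HC := Fermat.Agent.S43.LG1.C2.LiftCover.cycOfCover X
  exact Fermat.Agent.S43.LG1.C2.Count.genus_le_of_hurwitz Fintype.card_pos hE
    (hH_branch X.U1 HC X.hm X.z_ne X.σ_z Rκ1 RK1 N0.e1 hinj1 hν1 hcop1)
    (hH_branch X.U2 HC X.hm X.z_ne X.σ_z Rκ2 RK2 N0.e2 hinj2 hν2 hcop2) hNC

/-- **`hR` and `hG` of the core for the lifted datum** -/
theorem riemannGe_nodalRigid_cover [Fintype ι] [Nonempty ι] (X : KummerCover N0 K1 K2 F)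
    (hinj1 : Function.Injective N0.e1) (hinj2 : Function.Injective N0.e2)
    {g' g0 gk g1 g2 : ℕ} (R0 : RiemannHyp L F0 g0) (R' : RiemannHyp L F g')
    (Rκ1 : RiemannHyp k κ1 gk) (Rκ2 : RiemannHyp k κ2 gk)
    (RK1 : RiemannHyp k K1 g1) (RK2 : RiemannHyp k K2 g2)
    (hun : ∀ P : Place L F, P.ramificationIndex F0 = 1)
    {ν1 : K1} {θ1 : κ1} (hν1 : ν1 ^ X.m = algebraMap κ1 K1 θ1)
    (hcop1 : ∀ j, IsCoprime ((N0.e1 j).ord θ1) (X.m : ℤ))
    {ν2 : K2} {θ2 : κ2} (hν2 : ν2 ^ X.m = algebraMap κ2 K2 θ2)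
    (hcop2 : ∀ j, IsCoprime ((N0.e2 j).ord θ2) (X.m : ℤ))
    (hNC : (g0 : ℤ) + 1 ≤ gk + gk + Fintype.card ι) :
    RiemannGe L F (g1 + (g2 + Fintype.card ι - 1)) ∧
      NodalRigid k K1 K2 X.e2 g1 (g2 + Fintype.card ι - 1) :=
  Fermat.Agent.S43.LG1.C2.Rigid.riemannGe_nodalRigid_over X hinj2 R' RK1 RK2
    (hcount_cover X hinj1 hinj2 Rκ1 Rκ2 RK1 RK2 (hE_cover X R0 R' hun) hν1 hcop1 hν2 hcop2 hNC)

end Fermat.Agent.S43.LG1.C2.Genus

end
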