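import Mathlib
import Fermat.Agent.S43.LG1.C2.Final
import Fermat.Agent.S43.LG1.C2.Genus

/-!
# PROJECT R (S43), gate, C2 (relative lift): the exit with the count discharged

`Final.principal_cover` (helper10) with

* `hcount` discharged by the genus formula of the three Kummer extensions (`C2/Genus.hcount_cover`):
  the inputs are Riemann's theorem on the six function fields (`F0`, `F`, `κ1`, `κ2` at THE SAME genus,
  `K1`, `K2`), `F / F0` unramified at every place, an `m`-th root on each component of an element of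
  `κ_i` whose order at every node is prime to `m`, and the count `g0 + 1 ≤ 2 g_k + s` of the base;
* `Datum.Extra Y` discharged by `Final.extra_of_cover`: the degrees are `RiemannHyp.deg_one`, and
  `hrootL` (the constants have `m`-th roots) stays.
-/

set_option autoImplicit false
set_option linter.unusedSectionVars false

noncomputable section

namespace Fermat.Agent.S43.LG1.C2.Exit

open AlgebraicCurve Fermat.Agent.S34.NodalDefs
  Fermat.Agent.S18.NonSpecial Fermat.Agent.S18.CoreDefs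
  Fermat.Agent.S43.LG1.C2.Seam Fermat.Agent.S43.LG1.C2.Datum

variable {L : Type*} [Field L] {k : Type*} [Field k] {A : ValuationSubring L} {π : A →+* k}
variable {F0 : Type*} [Field F0] [Algebra L F0] {F : Type*} [Field F] [Algebra L F]
variable [Algebra F0 F] [IsScalarTower L F0 F] [Algebra.IsIntegral F0 F]
variable {κ1 : Type*} [Field κ1] [Algebra k κ1] {κ2 : Type*} [Field κ2] [Algebra k κ2]
variable {K1 : Type*} [Field K1] [Algebra k K1] [Algebra κ1 K1] [IsScalarTower k κ1 K1]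
  [Algebra.IsIntegral κ1 K1]
variable {K2 : Type*} [Field K2] [Algebra k K2] [Algebra κ2 K2] [IsScalarTower k κ2 K2]
  [Algebra.IsIntegral κ2 K2]
variable {ι : Type*} {N0 : GNodalDatum A π F0 κ1 κ2 ι}

/-- `Datum.Extra Y` from Riemann's theorem on the six fields and the roots of the constants -/
theorem extra_of_riemann (Y : KummerCover N0 K1 K2 F) {g' g0 gk1 gk2 g1 g2 : ℕ}
    (R0 : RiemannHyp L F0 g0) (R' : RiemannHyp L F g')
    (Rκ1 : RiemannHyp k κ1 gk1) (Rκ2 : RiemannHyp k κ2 gk2)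
    (RK1 : RiemannHyp k K1 g1) (RK2 : RiemannHyp k K2 g2)
    (hrootL : ∀ a : L, ∃ b : L, b ^ Y.m = a) : Extra Y :=
  Fermat.Agent.S43.LG1.C2.Final.extra_of_cover Y R0.deg_one R'.deg_one Rκ1.deg_one RK1.deg_one
    Rκ2.deg_one RK2.deg_one hrootL

/-- **(Core-Z) in divisor language on the cover `F`, the count discharged.** -/
theorem principal_cover_of_genus [HasPrincipalDivisors L F0] [HasPrincipalDivisors L F]
    [HasPrincipalDivisors k κ1] [HasPrincipalDivisors k κ2]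
    [HasPrincipalDivisors k K1] [HasPrincipalDivisors k K2] [Fintype ι] [Nonempty ι]
    (Y : KummerCover N0 K1 K2 F) (hrootL : ∀ a : L, ∃ b : L, b ^ Y.m = a)
    (hadmfin : ∀ T1 T2, N0.Adm T1 T2 → T1.Finite ∧ T2.Finite)
    (hinj1 : Function.Injective N0.e1) (hinj2 : Function.Injective N0.e2)
    (hπ : Function.Surjective π) (n : ℕ) (hnk : (n : k) ≠ 0)
    {g' g0 gk g1 g2 : ℕ} (R0 : RiemannHyp L F0 g0) (R' : RiemannHyp L F g')
    (Rκ1 : RiemannHyp k κ1 gk) (Rκ2 : RiemannHyp k κ2 gk)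
    (RK1 : RiemannHyp k K1 g1) (RK2 : RiemannHyp k K2 g2)
    (hun : ∀ P : Place L F, P.ramificationIndex F0 = 1)
    {ν1 : K1} {θ1 : κ1} (hν1 : ν1 ^ Y.m = algebraMap κ1 K1 θ1)
    (hcop1 : ∀ j, IsCoprime ((N0.e1 j).ord θ1) (Y.m : ℤ))
    {ν2 : K2} {θ2 : κ2} (hν2 : ν2 ^ Y.m = algebraMap κ2 K2 θ2)
    (hcop2 : ∀ j, IsCoprime ((N0.e2 j).ord θ2) (Y.m : ℤ))
    (hNC : (g0 : ℤ) + 1 ≤ gk + gk + Fintype.card ι)
    (Pstar : Place L F0) (Qstar : Place k κ1) (hQstar : Qstar ∈ N0.R1.good)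
    (hstar : N0.R1.r Pstar = some Qstar)
    (g : SemilinearAut L F) (g0' : SemilinearAut L F0) (τ1 : K1 ≃ₐ[k] K1) (τ2 : K2 ≃ₐ[k] K2)
    (T1 : Fermat.Agent.S43.LG1.C2.SpecEquiv.Compat N0.R1 Y.U1.B g g0' τ1)
    (T2 : Fermat.Agent.S43.LG1.C2.SpecEquiv.Compat N0.R2 Y.U2.B g g0' τ2)
    {u : F} (hu1 : u ∈ Y.U1.B.O) (hu2 : u ∈ Y.U2.B.O)
    (hred1 : Y.U1.B.red ⟨u, hu1⟩ = 1) (hred2 : Y.U2.B.red ⟨u, hu2⟩ = 1)
    (D : Divisor L F) (hD0 : Divisor.degree D = 0) (hD : ∀ P : Place L F, P.ord u = n * D P) :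
    g • D - D ∈ Divisor.principal (K := L) (F := F) :=
  Fermat.Agent.S43.LG1.C2.Final.principal_cover Y
    (extra_of_riemann Y R0 R' Rκ1 Rκ2 RK1 RK2 hrootL) hadmfin hinj2 hπ n hnk R' RK1 RK2
    (Fermat.Agent.S43.LG1.C2.Genus.hcount_cover Y hinj1 hinj2 Rκ1 Rκ2 RK1 RK2
      (Fermat.Agent.S43.LG1.C2.Genus.hE_cover Y R0 R' hun) hν1 hcop1 hν2 hcop2 hNC)
    Pstar Qstar hQstar hstar g g0' τ1 τ2 T1 T2 hu1 hu2 hred1 hred2 D hD0 hD

end Fermat.Agent.S43.LG1.C2.Exit

end
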